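import Mathlib

/-!
# S16 / theta route: the auxiliary prime `q` (Dirichlet + quadratic reciprocity)

For an odd prime `p` there is a prime `q ≡ 3 (mod 4)`, `q ≠ p`, with `-q` a non-square mod `p`
and `-p` a square mod `q`.
-/

set_option autoImplicit false

namespace Fermat.Agent.S16.Theta

open ZMod

/-- quadratic reciprocity step: if `q ≡ 3 (4)` and `(-q/p) = -1` then `(-p/q) = 1`. -/
theorem legendreSym_neg_of_aux (p q : ℕ) [Fact p.Prime] [Fact q.Prime] (hp : p ≠ 2)
    (hq4 : q % 4 = 3) (hqp : q ≠ p) (h : legendreSym p (-(q : ℤ)) = -1) :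
    legendreSym q (-(p : ℤ)) = 1 := by
  have hq2 : q ≠ 2 := by
    rintro rfl
    omega
  have hpodd : p % 2 = 1 := (Fact.out : p.Prime).eq_two_or_odd.resolve_left hp
  have hQR := legendreSym.quadratic_reciprocity hp hq2 (Ne.symm hqp)
  have h1 : legendreSym p (-(q : ℤ)) = χ₄ p * legendreSym p q := by
    rw [← legendreSym.at_neg_one hp, ← legendreSym.mul]
    congr 1
    ring
  have h2 : legendreSym q (-(p : ℤ)) = χ₄ q * legendreSym q p := by
    rw [← legendreSym.at_neg_one hq2, ← legendreSym.mul]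
    congr 1
    ring
  have hχq : χ₄ (q : ZMod 4) = -1 := ZMod.χ₄_nat_three_mod_four hq4
  rw [h2, hχq]
  rw [h1] at h
  have hp4 : p % 4 = 1 ∨ p % 4 = 3 := by omega
  rcases hp4 with hp4 | hp4
  · have hχp : χ₄ (p : ZMod 4) = 1 := ZMod.χ₄_nat_one_mod_four hp4
    have heven : Even (p / 2 * (q / 2)) := by
      apply Even.mul_right
      exact ⟨p / 4, by omega⟩
    rw [heven.neg_one_pow] at hQR
    rw [hχp, one_mul] at h
    rw [h] at hQR
    linarith
  · have hχp : χ₄ (p : ZMod 4) = -1 := ZMod.χ₄_nat_three_mod_four hp4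
    have hodd : Odd (p / 2 * (q / 2)) := by
      apply Odd.mul
      · exact ⟨p / 4, by omega⟩
      · exact ⟨q / 4, by omega⟩
    rw [hodd.neg_one_pow] at hQR
    rw [hχp] at h
    have h3 : legendreSym p q = 1 := by linarith
    rw [h3] at hQR
    linarith

theorem exists_aux (p : ℕ) [Fact p.Prime] (hp : p ≠ 2) :
    ∃ q c : ℕ, q.Prime ∧ q % 4 = 3 ∧ q ≠ p ∧ ¬ IsSquare (-(q : ZMod p)) ∧ q ∣ c ^ 2 + p := by
  have hpp : p.Prime := Fact.out
  have hpodd : p % 2 = 1 := hpp.eq_two_or_odd.resolve_left hp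
  -- a non-residue
  obtain ⟨ν, hν⟩ : ∃ ν : ZMod p, ¬ IsSquare ν :=
    FiniteField.exists_nonsquare (by rw [ZMod.ringChar_zmod_n]; exact hp)
  have hν0 : ν ≠ 0 := by
    rintro rfl
    exact hν (IsSquare.zero)
  -- CRT
  have hco : Nat.Coprime 4 p := by
    have : Nat.Coprime 2 p := (Nat.coprime_primes Nat.prime_two hpp).mpr (Ne.symm hp)
    exact Nat.Coprime.pow_left 2 this
  obtain ⟨x, hx4, hxp⟩ := Nat.chineseRemainder hco 3 (-ν).val
  have hxν : (x : ZMod p) = -ν := by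
    have := (ZMod.natCast_eq_natCast_iff x (-ν).val p).mpr hxp
    rw [this, ZMod.natCast_zmod_val]
  have hx4' : x % 4 = 3 := hx4
  have hxco : x.Coprime (4 * p) := by
    apply Nat.Coprime.mul_right
    · have : Nat.Coprime x 2 := by
        rw [Nat.coprime_comm, Nat.Prime.coprime_iff_not_dvd Nat.prime_two]
        omega
      exact Nat.Coprime.pow_right 2 this
    · rw [Nat.coprime_comm, Nat.Prime.coprime_iff_not_dvd hpp]
      intro hdvd
      have : (x : ZMod p) = 0 := (ZMod.natCast_eq_zero_iff x p).mpr hdvd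
      rw [hxν, neg_eq_zero] at this
      exact hν0 this
  have : NeZero (4 * p) := ⟨by have := hpp.pos; omega⟩
  obtain ⟨q, hqgt, hq, hqx⟩ := Nat.forall_exists_prime_gt_and_eq_mod
    ((ZMod.isUnit_iff_coprime x (4 * p)).mpr hxco) p
  have hqx' : q ≡ x [MOD 4 * p] := (ZMod.natCast_eq_natCast_iff q x (4 * p)).mp hqx
  have hq4 : q % 4 = 3 := by
    have : q ≡ x [MOD 4] := Nat.ModEq.of_mul_right p hqx'
    rw [← hx4']; exact this
  have hqν : (q : ZMod p) = -ν := by
    have : q ≡ x [MOD p] := Nat.ModEq.of_mul_left 4 hqx'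
    rw [(ZMod.natCast_eq_natCast_iff q x p).mpr this, hxν]
  have hqp : q ≠ p := hqgt.ne'
  have hns : ¬ IsSquare (-(q : ZMod p)) := by
    rw [hqν, neg_neg]; exact hν
  have : Fact q.Prime := ⟨hq⟩
  have hL : legendreSym p (-(q : ℤ)) = -1 := by
    rw [legendreSym.eq_neg_one_iff]
    simpa using hns
  have hL' := legendreSym_neg_of_aux p q hp hq4 hqp hL
  have hp0 : ((-(p : ℤ) : ℤ) : ZMod q) ≠ 0 := by
    intro h0
    have h1 : ((p : ℕ) : ZMod q) = 0 := by simpa using h0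
    have h2 : q ∣ p := (ZMod.natCast_eq_zero_iff p q).mp h1
    exact hqp ((Nat.prime_dvd_prime_iff_eq hq hpp).mp h2)
  obtain ⟨r, hr⟩ := (legendreSym.eq_one_iff q hp0).mp hL'
  refine ⟨q, r.val, hq, hq4, hqp, hns, ?_⟩
  rw [← ZMod.natCast_eq_zero_iff]
  push_cast
  rw [ZMod.natCast_zmod_val, pow_two, ← hr]
  simp

theorem exists_params (p : ℕ) [Fact p.Prime] (hp : p ≠ 2) :
    ∃ k v c : ℤ, 0 < k ∧ 0 < v ∧ (p : ℤ) = (4 * k - 1) * v - c ^ 2 ∧
      legendreSym p (-(4 * k - 1)) = -1 := by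
  obtain ⟨q, c, hq, hq4, hqp, hns, v, hv⟩ := exists_aux p hp
  have hpp : p.Prime := Fact.out
  have hk : (4 * (((q + 1) / 4 : ℕ) : ℤ) - 1) = (q : ℤ) := by
    have : 4 * ((q + 1) / 4) = q + 1 := by omega
    have h2 : (4 * (((q + 1) / 4 : ℕ) : ℤ)) = (q : ℤ) + 1 := by exact_mod_cast this
    linarith
  refine ⟨((q + 1) / 4 : ℕ), v, c, ?_, ?_, ?_, ?_⟩
  · have : 0 < (q + 1) / 4 := by omega
    exact_mod_cast this
  · have : 0 < v := by
      rcases Nat.eq_zero_or_pos v with h0 | h0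
      · rw [h0, mul_zero] at hv
        have := hpp.pos
        omega
      · exact h0
    exact_mod_cast this
  · rw [hk]
    have : ((c : ℤ) ^ 2 + p) = (q : ℤ) * v := by exact_mod_cast hv
    linarith
  · rw [hk, legendreSym.eq_neg_one_iff]
    simpa using hns

end Fermat.Agent.S16.Theta
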