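/-
S16, theta half (lower bound), DESIGN B.  Common definitions.

`th a r z = ∑_{n ∈ ℤ} e((2 a n + r)² z / (4 a))` : one–dimensional theta with characteristic.
`DD a b c d = ZMod (2a) × ZMod (2b) × ZMod (2c) × ZMod (2d)` : discriminant group of the diagonal
lattice `⟨a, b, c, d⟩`.
`Th a b c d φ = ∑_{u ∈ DD} φ u · th a u₀ · th b u₁ · th c u₂ · th d u₃`.
-/
import Mathlib

set_option autoImplicit false

namespace Fermat.Agent.S16.Theta

open Complex
open UpperHalfPlane hiding I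
open scoped Real

/-- One–dimensional theta series with characteristic `r` (only `r mod 2a` matters). -/
noncomputable def th (a : ℕ) (r : ℤ) (z : ℂ) : ℂ :=
  ∑' n : ℤ, cexp (2 * π * I * (((2 * (a : ℤ) * n + r) ^ 2 : ℤ) : ℂ) / (4 * a) * z)

/-- `th` with the characteristic in `ZMod (2a)`. -/
noncomputable def thz (a : ℕ) (r : ZMod (2 * a)) (z : ℂ) : ℂ := th a (r.val : ℤ) z

/-- `e(r s / 2a)` for `r s : ZMod (2a)`. -/
noncomputable def bch (a : ℕ) (r s : ZMod (2 * a)) : ℂ :=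
  cexp (2 * π * I * ((r.val : ℂ) * (s.val : ℂ)) / (2 * a))

/-- `e(r² / 4a)` for `r : ZMod (2a)`. -/
noncomputable def qch (a : ℕ) (r : ZMod (2 * a)) : ℂ :=
  cexp (2 * π * I * ((r.val : ℂ) ^ 2) / (4 * a))

/-- The discriminant group of the diagonal lattice `⟨a,b,c,d⟩`. -/
abbrev DD (a b c d : ℕ) : Type := ZMod (2 * a) × ZMod (2 * b) × ZMod (2 * c) × ZMod (2 * d)

variable (a b c d : ℕ)

/-- The bicharacter `e(b(u,v))`, `b(u,v) = ∑ uᵢ vᵢ / (2 aᵢ)`. -/
noncomputable def Bch (u v : DD a b c d) : ℂ :=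
  bch a u.1 v.1 * bch b u.2.1 v.2.1 * bch c u.2.2.1 v.2.2.1 * bch d u.2.2.2 v.2.2.2

/-- The quadratic character `e(N(u))`, `N(u) = ∑ uᵢ² / (4 aᵢ)`. -/
noncomputable def Qch (u : DD a b c d) : ℂ :=
  qch a u.1 * qch b u.2.1 * qch c u.2.2.1 * qch d u.2.2.2

/-- The product of the four one–dimensional thetas. -/
noncomputable def th4 (u : DD a b c d) (z : ℂ) : ℂ :=
  thz a u.1 z * thz b u.2.1 z * thz c u.2.2.1 z * thz d u.2.2.2 z

/-- `Θ_φ`. -/
noncomputable def Th [NeZero a] [NeZero b] [NeZero c] [NeZero d] (φ : DD a b c d → ℂ) (z : ℍ) : ℂ :=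
  ∑ u : DD a b c d, φ u * th4 a b c d u z

end Fermat.Agent.S16.Theta
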