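/-
S16, theta half, DESIGN B: the abstract finite part (package TH-FIN).
-/
import Mathlib

set_option autoImplicit false
set_option linter.unusedSectionVars false

namespace Fermat.Agent.S16.Theta

open Complex

/-- Abstract data: finite abelian group `D`, bicharacter `β`, quadratic character `ψ`,
`M ≤ M' = M^⊥`, `M'/M` anisotropic of order `p²`. -/
structure FinData (p : ℕ) (D : Type) [AddCommGroup D] [Fintype D] where
  β : D → D → ℂ
  ψ : D → ℂ
  M : AddSubgroup D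
  M' : AddSubgroup D
  β_add : ∀ u v w, β (u + v) w = β u w * β v w
  β_comm : ∀ u v, β u v = β v u
  ψ_add : ∀ u v, ψ (u + v) = ψ u * ψ v * β u v
  ψ_neg : ∀ u, ψ (-u) = ψ u
  norm_ψ : ∀ u, ‖ψ u‖ = 1
  M_le : M ≤ M'
  ψ_M : ∀ m ∈ M, ψ m = 1
  β_M : ∀ m ∈ M, ∀ m' ∈ M', β m m' = 1
  perp : ∀ u, u ∉ M' → ∃ m ∈ M, β m u ≠ 1
  perp' : ∀ u ∈ M', u ∉ M → ∃ m ∈ M', β m u ≠ 1
  p_smul : ∀ u ∈ M', p • u ∈ M
  ψ_pow : ∀ u ∈ M', ψ u ^ p = 1
  aniso : ∀ u ∈ M', ψ u = 1 → u ∈ M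
  card_M' : Nat.card M' = p ^ 2 * Nat.card M

section general

variable {D : Type} [AddCommGroup D] [Fintype D]

open Classical in
lemma sum_indicator_subgroup (H : AddSubgroup D) (f : D → ℂ) :
    ∑ u, (H : Set D).indicator f u = ∑ u : H, f u := by
  rw [← Finset.sum_subtype (Finset.univ.filter (· ∈ H)) (by simp) f, Finset.sum_filter]
  refine Finset.sum_congr rfl fun u _ => ?_
  by_cases hu : u ∈ H <;> simp [hu]

open Classical in
lemma sum_subgroup_shift (H : AddSubgroup D) (f : D → ℂ) (w : D) (hw : w ∈ H) :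
    ∑ u : H, f (u + w) = ∑ u : H, f u :=
  Equiv.sum_comp (Equiv.addRight (⟨w, hw⟩ : H)) (fun u : H => f u)

open Classical in
lemma sum_subgroup_char_eq_zero (H : AddSubgroup D) (χ : D → ℂ)
    (hχ : ∀ u v, χ (u + v) = χ u * χ v) (m : D) (hm : m ∈ H) (hm1 : χ m ≠ 1) :
    ∑ u : H, χ u = 0 := by
  have h := sum_subgroup_shift H χ m hm
  simp_rw [hχ] at h
  rw [← Finset.sum_mul] at h
  have h2 : (∑ u : H, χ u) * (χ m - 1) = 0 := by rw [mul_sub, h, mul_one, sub_self]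
  rcases mul_eq_zero.mp h2 with h3 | h3
  · exact h3
  · exact absurd (sub_eq_zero.mp h3) hm1

open Classical in
lemma sum_subgroup_one (H : AddSubgroup D) : ∑ _u : H, (1 : ℂ) = (Nat.card H : ℂ) := by
  simp [Nat.card_eq_fintype_card]

end general

namespace FinData

variable {p : ℕ} [hp : Fact p.Prime] {D : Type} [AddCommGroup D] [Fintype D] (F : FinData p D)

lemma ψ_ne_zero (u : D) : F.ψ u ≠ 0 := by
  intro h
  have := F.norm_ψ u
  rw [h, norm_zero] at this
  exact zero_ne_one this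

lemma norm_β (u v : D) : ‖F.β u v‖ = 1 := by
  have h := congrArg norm (F.ψ_add u v)
  rw [norm_mul, norm_mul, F.norm_ψ, F.norm_ψ, F.norm_ψ] at h
  simpa using h.symm

lemma β_ne_zero (u v : D) : F.β u v ≠ 0 := by
  intro h
  have := F.norm_β u v
  rw [h, norm_zero] at this
  exact zero_ne_one this

lemma β_add_right (u v w : D) : F.β u (v + w) = F.β u v * F.β u w := by
  rw [F.β_comm, F.β_add, F.β_comm v, F.β_comm w]

lemma β_zero_left (v : D) : F.β 0 v = 1 := by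
  have h := F.β_add 0 0 v
  rw [add_zero] at h
  exact (mul_eq_left₀ (F.β_ne_zero 0 v)).mp h.symm

lemma β_nsmul_left (n : ℕ) (u v : D) : F.β (n • u) v = F.β u v ^ n := by
  induction n with
  | zero => simp [F.β_zero_left]
  | succ n ih => rw [succ_nsmul, F.β_add, ih, pow_succ]

lemma β_nsmul_right (n : ℕ) (u v : D) : F.β u (n • v) = F.β u v ^ n := by
  rw [F.β_comm, F.β_nsmul_left, F.β_comm]

lemma ψ_zero : F.ψ 0 = 1 := F.ψ_M 0 F.M.zero_mem

lemma β_self (u : D) : F.β u u = F.ψ u ^ 2 := by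
  have h := F.ψ_add u (-u)
  rw [add_neg_cancel, F.ψ_zero, F.ψ_neg] at h
  have h2 : F.β u (-u) * F.β u u = 1 := by
    rw [← F.β_add_right, neg_add_cancel, F.β_comm, F.β_zero_left]
  have h3 : F.β u u = F.ψ u * F.ψ u * (F.β u (-u) * F.β u u) := by
    rw [← mul_assoc, ← h, one_mul]
  rw [h3, h2, mul_one, sq]

lemma ψ_nsmul (n : ℕ) (u : D) : F.ψ (n • u) = F.ψ u ^ (n ^ 2) := by
  induction n with
  | zero => simp [F.ψ_zero]
  | succ n ih =>
    rw [succ_nsmul, F.ψ_add, ih, F.β_nsmul_left, F.β_self, ← pow_mul, ← pow_succ, ← pow_add]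
    congr 1
    ring

lemma β_pow_p (u v : D) (hu : u ∈ F.M') (hv : v ∈ F.M') : F.β u v ^ p = 1 := by
  rw [← F.β_nsmul_left]
  exact F.β_M _ (F.p_smul u hu) v hv

lemma pow_eq_of_cast_eq {x : ℂ} (hx : x ^ p = 1) {m n : ℕ} (h : (m : ZMod p) = (n : ZMod p)) :
    x ^ m = x ^ n := by
  rw [pow_eq_pow_mod m hx, pow_eq_pow_mod n hx]
  congr 1
  exact (ZMod.natCast_eq_natCast_iff' m n p).mp h

theorem ψ_mul_pow (j : ZMod p) (u : D) (hu : u ∈ F.M') :
    F.ψ u * F.ψ u ^ j.val = F.ψ u ^ (j + 1).val := by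
  rw [← pow_succ']
  apply pow_eq_of_cast_eq (F.ψ_pow u hu)
  simp

theorem sum_M (v : D) :
    ∑ u, (F.M : Set D).indicator (fun _ => (1 : ℂ)) u * F.β u v =
      (F.M' : Set D).indicator (fun _ => (Nat.card F.M : ℂ)) v := by
  classical
  have h1 : ∀ u, (F.M : Set D).indicator (fun _ => (1 : ℂ)) u * F.β u v =
      (F.M : Set D).indicator (fun u => F.β u v) u := by
    intro u
    by_cases hu : u ∈ F.M <;> simp [hu]
  simp_rw [h1]
  rw [sum_indicator_subgroup]
  by_cases hv : v ∈ F.M'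
  · rw [Set.indicator_of_mem (by exact hv), ← sum_subgroup_one]
    exact Finset.sum_congr rfl fun u _ => F.β_M u u.2 v hv
  · rw [Set.indicator_of_notMem (by exact hv)]
    obtain ⟨m, hm, hm1⟩ := F.perp v hv
    exact sum_subgroup_char_eq_zero F.M (fun u => F.β u v) (fun a b => F.β_add a b v) m hm hm1


open Classical in
/-- the Gauss sum -/
noncomputable def G (j : ZMod p) : ℂ := ∑ u : F.M', F.ψ u ^ j.val

lemma pow_ne_one_of_ne_one {x : ℂ} (hx : x ^ p = 1) (hx1 : x ≠ 1) (j : ZMod p) (hj : j ≠ 0) :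
    x ^ j.val ≠ 1 := by
  intro h
  have hg := pow_gcd_eq_one.mpr ⟨hx, h⟩
  have hcop : Nat.Coprime p j.val := by
    rw [Nat.Prime.coprime_iff_not_dvd hp.out]
    intro hd
    apply hj
    have : ((j.val : ℕ) : ZMod p) = 0 := (ZMod.natCast_eq_zero_iff _ _).mpr hd
    simpa using this
  rw [Nat.Coprime] at hcop
  rw [hcop, pow_one] at hg
  exact hx1 hg

open Classical in
lemma inner_sum (j : ZMod p) (hj : j ≠ 0) (w : D) (hw : w ∈ F.M') :
    ∑ v : F.M', F.β w v ^ j.val = if w ∈ F.M then (Nat.card F.M' : ℂ) else 0 := by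
  split_ifs with hwM
  · rw [← sum_subgroup_one]
    refine Finset.sum_congr rfl fun v _ => ?_
    rw [F.β_M w hwM v v.2, one_pow]
  · obtain ⟨m, hm, hm1⟩ := F.perp' w hw hwM
    refine sum_subgroup_char_eq_zero F.M' (fun v => F.β w v ^ j.val) (fun a b => ?_) m hm ?_
    · simp only [F.β_add_right, mul_pow]
    · rw [F.β_comm] at hm1
      exact pow_ne_one_of_ne_one (F.β_pow_p w m hw hm) hm1 j hj

open Classical in
lemma sum_M'_ite (c : ℂ) :
    ∑ w : F.M', (if (w : D) ∈ F.M then c else 0) = (Nat.card F.M : ℂ) * c := by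
  rw [← sum_indicator_subgroup F.M' (fun w => if w ∈ F.M then c else 0)]
  have : ∀ w, (F.M' : Set D).indicator (fun w => if w ∈ F.M then c else 0) w =
      (F.M : Set D).indicator (fun _ => c) w := by
    intro w
    by_cases hw : w ∈ F.M
    · have hw' : w ∈ F.M' := F.M_le hw
      simp [hw, hw']
    · by_cases hw' : w ∈ F.M' <;> simp [hw, hw']
  simp_rw [this]
  rw [sum_indicator_subgroup]
  simp [Nat.card_eq_fintype_card]

lemma G_mul_conj (j : ZMod p) (hj : j ≠ 0) :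
    F.G j * (starRingEnd ℂ) (F.G j) = (Nat.card F.M : ℂ) * (Nat.card F.M' : ℂ) := by
  classical
  unfold G
  rw [map_sum, Finset.mul_sum]
  have h1 : ∀ v : F.M', (∑ u : F.M', F.ψ u ^ j.val) * (starRingEnd ℂ) (F.ψ v ^ j.val) =
      ∑ w : F.M', F.ψ w ^ j.val * F.β w v ^ j.val := by
    intro v
    rw [← sum_subgroup_shift F.M' (fun u => F.ψ u ^ j.val) v v.2, Finset.sum_mul]
    refine Finset.sum_congr rfl fun w _ => ?_
    rw [map_pow, ← Complex.inv_eq_conj (F.norm_ψ v), F.ψ_add, mul_pow, mul_pow, inv_pow]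
    have := pow_ne_zero j.val (F.ψ_ne_zero v)
    field_simp
  simp_rw [h1]
  rw [Finset.sum_comm]
  simp_rw [← Finset.mul_sum]
  have h2 : ∀ w : F.M', F.ψ w ^ j.val * ∑ v : F.M', F.β w v ^ j.val =
      if (w : D) ∈ F.M then (Nat.card F.M' : ℂ) else 0 := by
    intro w
    rw [F.inner_sum j hj w w.2]
    split_ifs with hw
    · rw [F.ψ_M w hw, one_pow, one_mul]
    · rw [mul_zero]
  simp_rw [h2]
  exact F.sum_M'_ite _

lemma sum_pow_val (x : ℂ) : ∑ j : ZMod p, x ^ j.val = ∑ i ∈ Finset.range p, x ^ i := by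
  refine Finset.sum_nbij' (fun j => j.val) (fun i => (i : ZMod p)) ?_ ?_ ?_ ?_ ?_
  · intro j _
    exact Finset.mem_range.mpr (ZMod.val_lt j)
  · intro i _
    exact Finset.mem_univ _
  · intro j _
    simp
  · intro i hi
    exact ZMod.val_natCast_of_lt (Finset.mem_range.mp hi)
  · intro j _
    rfl

lemma sum_pow_val_eq (x : ℂ) (hx : x ^ p = 1) :
    ∑ j : ZMod p, x ^ j.val = if x = 1 then (p : ℂ) else 0 := by
  rw [sum_pow_val]
  split_ifs with h
  · simp [h]
  · rw [geom_sum_eq h, hx, sub_self, zero_div]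

lemma sum_G : ∑ j : ZMod p, F.G j = (p : ℂ) * (Nat.card F.M : ℂ) := by
  classical
  unfold G
  rw [Finset.sum_comm]
  have h1 : ∀ u : F.M', ∑ j : ZMod p, F.ψ u ^ j.val = if (u : D) ∈ F.M then (p : ℂ) else 0 := by
    intro u
    rw [sum_pow_val_eq _ (F.ψ_pow u u.2)]
    by_cases hu : (u : D) ∈ F.M
    · simp [hu, F.ψ_M u hu]
    · have : F.ψ u ≠ 1 := fun h => hu (F.aniso u u.2 h)
      simp [hu, this]
  simp_rw [h1]
  rw [F.sum_M'_ite, mul_comm]

lemma G_zero : F.G 0 = (Nat.card F.M' : ℂ) := by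
  classical
  unfold G
  simp [Nat.card_eq_fintype_card]

lemma norm_G (j : ZMod p) (hj : j ≠ 0) : ‖F.G j‖ = (p : ℝ) * (Nat.card F.M : ℝ) := by
  have h := F.G_mul_conj j hj
  rw [Complex.mul_conj, F.card_M'] at h
  have h2 : Complex.normSq (F.G j) = ((p : ℝ) * (Nat.card F.M : ℝ)) ^ 2 := by
    have : ((Complex.normSq (F.G j) : ℝ) : ℂ) = ((((p : ℝ) * (Nat.card F.M : ℝ)) ^ 2 : ℝ) : ℂ) := by
      rw [h]; push_cast; ring
    exact_mod_cast this
  rw [Complex.normSq_eq_norm_sq] at h2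
  exact (pow_left_inj₀ (norm_nonneg _) (by positivity) two_ne_zero).mp h2

theorem G_eq (j : ZMod p) (hj : j ≠ 0) : F.G j = -((p : ℂ) * (Nat.card F.M : ℂ)) := by
  classical
  set c : ℝ := (p : ℝ) * (Nat.card F.M : ℝ) with hc
  -- real parts
  have hre : ∀ i ∈ (Finset.univ.erase (0 : ZMod p)), -c ≤ (F.G i).re := by
    intro i hi
    have hi0 : i ≠ 0 := (Finset.mem_erase.mp hi).1
    have := Complex.abs_re_le_norm (F.G i)
    rw [F.norm_G i hi0] at this
    exact (abs_le.mp this).1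
  have hsum : ∑ i ∈ (Finset.univ.erase (0 : ZMod p)), (-c) =
      ∑ i ∈ (Finset.univ.erase (0 : ZMod p)), (F.G i).re := by
    have h1 : ∑ i ∈ (Finset.univ.erase (0 : ZMod p)), F.G i =
        (p : ℂ) * (Nat.card F.M : ℂ) - (Nat.card F.M' : ℂ) := by
      rw [← F.sum_G, ← F.G_zero, ← Finset.add_sum_erase _ _ (Finset.mem_univ (0 : ZMod p))]
      ring
    have h2 := congrArg Complex.re h1
    rw [Complex.re_sum] at h2
    rw [h2, F.card_M', Finset.sum_const, Finset.card_erase_of_mem (Finset.mem_univ _),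
      Finset.card_univ, ZMod.card]
    have hp1 : 1 ≤ p := hp.out.one_lt.le
    simp only [nsmul_eq_mul]
    rw [Nat.cast_sub hp1]
    have : ((p : ℂ) * (Nat.card F.M : ℂ) - ((p ^ 2 * Nat.card F.M : ℕ) : ℂ)).re =
        (p : ℝ) * (Nat.card F.M : ℝ) - (p : ℝ) ^ 2 * (Nat.card F.M : ℝ) := by
      have : ((p : ℂ) * (Nat.card F.M : ℂ) - ((p ^ 2 * Nat.card F.M : ℕ) : ℂ)) =
        (((p : ℝ) * (Nat.card F.M : ℝ) - (p : ℝ) ^ 2 * (Nat.card F.M : ℝ) : ℝ) : ℂ) := by
        push_cast; ring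
      rw [this, Complex.ofReal_re]
    rw [this, hc]
    push_cast
    ring
  have heq := (Finset.sum_eq_sum_iff_of_le hre).mp hsum j
    (Finset.mem_erase.mpr ⟨hj, Finset.mem_univ _⟩)
  have hn := F.norm_G j hj
  have him : (F.G j).im = 0 := by
    have h3 : ‖F.G j‖ ^ 2 = (F.G j).re ^ 2 + (F.G j).im ^ 2 := by
      rw [← Complex.normSq_eq_norm_sq, Complex.normSq_apply]; ring
    rw [hn, ← heq, ← hc] at h3
    have : (F.G j).im ^ 2 = 0 := by nlinarith
    exact pow_eq_zero_iff two_ne_zero |>.mp this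
  apply Complex.ext
  · rw [← heq, hc]
    simp
  · rw [him]
    simp

/-- the Gauss sum: `|G|² = |M||M'|`, `∑_j G(j) = p |M|`, `G(0) = |M'|`. -/
theorem gauss (j : ZMod p) (hj : j ≠ 0) :
    ∑ u, (F.M' : Set D).indicator (fun u => F.ψ u ^ j.val) u = -((p : ℂ) * Nat.card F.M) := by
  rw [sum_indicator_subgroup]
  exact F.G_eq j hj

theorem sum_M' (j : ZMod p) (hj : j ≠ 0) (v : D) :
    ∑ u, (F.M' : Set D).indicator (fun u => F.ψ u ^ j.val) u * F.β u v =
      (F.M' : Set D).indicator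
        (fun v => -((p : ℂ) * Nat.card F.M) * F.ψ v ^ (-j⁻¹).val) v := by
  classical
  have h1 : ∀ u, (F.M' : Set D).indicator (fun u => F.ψ u ^ j.val) u * F.β u v =
      (F.M' : Set D).indicator (fun u => F.ψ u ^ j.val * F.β u v) u := by
    intro u
    by_cases hu : u ∈ F.M' <;> simp [hu]
  simp_rw [h1]
  rw [sum_indicator_subgroup]
  by_cases hv : v ∈ F.M'
  · rw [Set.indicator_of_mem (by exact hv)]
    set w : D := (j⁻¹).val • v with hw
    have hwM : w ∈ F.M' := F.M'.nsmul_mem hv _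
    have key : ∀ u : F.M', F.ψ u ^ j.val * F.β u v * F.ψ w ^ j.val = F.ψ (u + w) ^ j.val := by
      intro u
      rw [F.ψ_add, mul_pow, mul_pow, hw, F.β_nsmul_right, ← pow_mul]
      have : F.β u v ^ ((j⁻¹).val * j.val) = F.β u v := by
        conv_rhs => rw [← pow_one (F.β u v)]
        apply pow_eq_of_cast_eq (F.β_pow_p u v u.2 hv)
        push_cast
        simp [inv_mul_cancel₀ hj]
      rw [this]
      ring
    have h2 : (∑ u : F.M', F.ψ u ^ j.val * F.β u v) * F.ψ w ^ j.val = F.G j := by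
      rw [Finset.sum_mul]
      simp_rw [key]
      exact sum_subgroup_shift F.M' (fun u => F.ψ u ^ j.val) w hwM
    have h3 : F.ψ w ^ j.val * F.ψ v ^ (-j⁻¹).val = 1 := by
      rw [hw, F.ψ_nsmul, ← pow_mul, ← pow_add]
      conv_rhs => rw [← pow_zero (F.ψ v)]
      apply pow_eq_of_cast_eq (F.ψ_pow v hv)
      push_cast
      simp only [ZMod.natCast_val, ZMod.cast_id', id_eq]
      field_simp
      ring
    calc ∑ u : F.M', F.ψ u ^ j.val * F.β u v
        = (∑ u : F.M', F.ψ u ^ j.val * F.β u v) * (F.ψ w ^ j.val * F.ψ v ^ (-j⁻¹).val) := by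
          rw [h3, mul_one]
      _ = F.G j * F.ψ v ^ (-j⁻¹).val := by rw [← mul_assoc, h2]
      _ = _ := by rw [F.G_eq j hj]
  · rw [Set.indicator_of_notMem (by exact hv)]
    obtain ⟨m, hm, hm1⟩ := F.perp v hv
    have hmM' : m ∈ F.M' := F.M_le hm
    have hs := sum_subgroup_shift F.M' (fun u => F.ψ u ^ j.val * F.β u v) m hmM'
    have key : ∀ u : F.M', F.ψ (u + m) ^ j.val * F.β (u + m) v =
        F.ψ u ^ j.val * F.β u v * F.β m v := by
      intro u
      rw [F.ψ_add, F.ψ_M m hm, F.β_comm u m, F.β_M m hm u u.2, F.β_add]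
      ring
    simp_rw [key] at hs
    rw [← Finset.sum_mul] at hs
    have h2 : (∑ u : F.M', F.ψ u ^ j.val * F.β u v) * (F.β m v - 1) = 0 := by
      rw [mul_sub, hs, mul_one, sub_self]
    rcases mul_eq_zero.mp h2 with h3 | h3
    · exact h3
    · exact absurd (sub_eq_zero.mp h3) hm1

end FinData

end Fermat.Agent.S16.Theta
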