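/-
S16, theta half, DESIGN B: the concrete lattices `M ≤ M'` in `DD 1 q p (p q)` (package TH-AR2).
-/
import Fermat.Agent.S16.Theta.Defs
import Fermat.Agent.S16.Theta.Fin

set_option autoImplicit false
set_option linter.unusedSectionVars false

namespace Fermat.Agent.S16.Theta

open Complex
open scoped Real

/-! ## The exponentials `e(n/d)` -/

/-- `e(n/d)`. -/
noncomputable def lat_ee (n : ℤ) (d : ℕ) : ℂ := cexp (2 * π * I * n / d)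

theorem lat_ee_eq_one_iff {d : ℕ} (hd : d ≠ 0) (n : ℤ) : lat_ee n d = 1 ↔ (d : ℤ) ∣ n := by
  rw [lat_ee, Complex.exp_eq_one_iff]
  have hd' : (d : ℂ) ≠ 0 := Nat.cast_ne_zero.2 hd
  have h2 : (2 * π * I : ℂ) ≠ 0 := Complex.two_pi_I_ne_zero
  constructor
  · rintro ⟨k, hk⟩
    refine ⟨k, ?_⟩
    have : (n : ℂ) = d * k := by
      rw [div_eq_iff hd'] at hk
      apply mul_left_cancel₀ h2
      linear_combination hk
    exact_mod_cast this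
  · rintro ⟨k, rfl⟩
    refine ⟨k, ?_⟩
    push_cast
    field_simp

theorem lat_ee_add (n n' : ℤ) (d : ℕ) : lat_ee (n + n') d = lat_ee n d * lat_ee n' d := by
  rw [lat_ee, lat_ee, lat_ee, ← Complex.exp_add]
  congr 1
  push_cast
  ring

theorem lat_ee_congr {d : ℕ} (hd : d ≠ 0) {n n' : ℤ} (h : (d : ℤ) ∣ n - n') :
    lat_ee n d = lat_ee n' d := by
  have : n = n' + (n - n') := by ring
  rw [this, lat_ee_add, (lat_ee_eq_one_iff hd _).2 h, mul_one]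

theorem lat_ee_scale {k d D : ℕ} (hk : k ≠ 0) (h : k * d = D) (n : ℤ) :
    lat_ee n d = lat_ee (k * n) D := by
  subst h
  rw [lat_ee, lat_ee]
  congr 1
  have hk' : (k : ℂ) ≠ 0 := Nat.cast_ne_zero.2 hk
  push_cast
  rw [show (2 * π * I * ((k : ℂ) * n) : ℂ) = k * (2 * π * I * n) by ring, mul_div_mul_left _ _ hk']

theorem lat_ee_pow (n : ℤ) (d k : ℕ) : lat_ee n d ^ k = lat_ee (k * n) d := by
  rw [lat_ee, lat_ee, ← Complex.exp_nat_mul]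
  congr 1
  push_cast
  ring

theorem lat_norm_ee (n : ℤ) (d : ℕ) : ‖lat_ee n d‖ = 1 := by
  rw [lat_ee]
  have : (2 * π * I * n / d : ℂ) = ((2 * π * n / d : ℝ) : ℂ) * I := by
    push_cast
    ring
  rw [this, Complex.norm_exp_ofReal_mul_I]

/-! ## `bch`, `qch` on integers -/

section OneDim

variable (a : ℕ) [NeZero a]

theorem lat_val_modEq (n : ℕ) [NeZero n] (m : ℤ) : (n : ℤ) ∣ (((m : ZMod n).val : ℤ) - m) := by
  rw [ZMod.val_intCast]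
  exact ⟨-(m / n), by have := Int.emod_add_mul_ediv m n; linarith⟩

theorem lat_bch_intCast (m n : ℤ) :
    bch a (m : ZMod (2 * a)) (n : ZMod (2 * a)) = lat_ee (m * n) (2 * a) := by
  have h0 : 2 * a ≠ 0 := NeZero.ne _
  have h1 : bch a (m : ZMod (2 * a)) (n : ZMod (2 * a)) =
      lat_ee ((((m : ZMod (2 * a)).val : ℤ)) * (((n : ZMod (2 * a)).val : ℤ))) (2 * a) := by
    rw [bch, lat_ee]
    congr 1
    push_cast
    ring
  rw [h1]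
  apply lat_ee_congr h0
  obtain ⟨k, hk⟩ := lat_val_modEq (2 * a) m
  obtain ⟨l, hl⟩ := lat_val_modEq (2 * a) n
  rw [sub_eq_iff_eq_add] at hk hl
  rw [hk, hl]
  exact ⟨((2 * a : ℕ) : ℤ) * k * l + k * n + l * m, by ring⟩

theorem lat_qch_intCast (m : ℤ) :
    qch a (m : ZMod (2 * a)) = lat_ee (m ^ 2) (4 * a) := by
  have h0 : 4 * a ≠ 0 := NeZero.ne _
  have h1 : qch a (m : ZMod (2 * a)) = lat_ee ((((m : ZMod (2 * a)).val : ℤ)) ^ 2) (4 * a) := by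
    rw [qch, lat_ee]
    congr 1
    push_cast
    ring
  rw [h1]
  apply lat_ee_congr h0
  obtain ⟨k, hk⟩ := lat_val_modEq (2 * a) m
  rw [sub_eq_iff_eq_add] at hk
  rw [hk]
  exact ⟨(a : ℤ) * k ^ 2 + k * m, by push_cast; ring⟩

theorem lat_bch_add (r r' s : ZMod (2 * a)) : bch a (r + r') s = bch a r s * bch a r' s := by
  obtain ⟨m, rfl⟩ := ZMod.intCast_surjective r
  obtain ⟨m', rfl⟩ := ZMod.intCast_surjective r'
  obtain ⟨n, rfl⟩ := ZMod.intCast_surjective s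
  rw [← Int.cast_add, lat_bch_intCast, lat_bch_intCast, lat_bch_intCast, ← lat_ee_add]
  congr 1
  ring

theorem lat_bch_comm (r s : ZMod (2 * a)) : bch a r s = bch a s r := by
  rw [bch, bch, mul_comm (r.val : ℂ)]

theorem lat_qch_add (r s : ZMod (2 * a)) : qch a (r + s) = qch a r * qch a s * bch a r s := by
  obtain ⟨m, rfl⟩ := ZMod.intCast_surjective r
  obtain ⟨n, rfl⟩ := ZMod.intCast_surjective s
  rw [← Int.cast_add, lat_qch_intCast, lat_qch_intCast, lat_qch_intCast, lat_bch_intCast,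
    lat_ee_scale (k := 2) (D := 4 * a) two_ne_zero (by ring) (m * n), ← lat_ee_add, ← lat_ee_add]
  congr 1
  push_cast
  ring

theorem lat_qch_neg (r : ZMod (2 * a)) : qch a (-r) = qch a r := by
  obtain ⟨m, rfl⟩ := ZMod.intCast_surjective r
  rw [← Int.cast_neg, lat_qch_intCast, lat_qch_intCast, neg_sq]

theorem lat_norm_qch (r : ZMod (2 * a)) : ‖qch a r‖ = 1 := by
  obtain ⟨m, rfl⟩ := ZMod.intCast_surjective r
  rw [lat_qch_intCast, lat_norm_ee]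

end OneDim

/-! ## `Bch`, `Qch`: formal properties -/

section FourDim

variable (a b c d : ℕ) [NeZero a] [NeZero b] [NeZero c] [NeZero d]

theorem lat_Bch_add (u v w : DD a b c d) :
    Bch a b c d (u + v) w = Bch a b c d u w * Bch a b c d v w := by
  simp only [Bch, Prod.fst_add, Prod.snd_add, lat_bch_add]
  ring

theorem lat_Bch_comm (u v : DD a b c d) : Bch a b c d u v = Bch a b c d v u := by
  simp only [Bch]
  rw [lat_bch_comm a, lat_bch_comm b, lat_bch_comm c, lat_bch_comm d]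

theorem lat_Qch_add (u v : DD a b c d) :
    Qch a b c d (u + v) = Qch a b c d u * Qch a b c d v * Bch a b c d u v := by
  simp only [Bch, Qch, Prod.fst_add, Prod.snd_add, lat_qch_add]
  ring

theorem lat_Qch_neg (u : DD a b c d) : Qch a b c d (-u) = Qch a b c d u := by
  simp only [Qch, Prod.fst_neg, Prod.snd_neg, lat_qch_neg]

theorem lat_norm_Qch (u : DD a b c d) : ‖Qch a b c d u‖ = 1 := by
  simp only [Qch, norm_mul, lat_norm_qch, mul_one]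

end FourDim

/-! ## The lattices -/

section Lattice
variable (p q c : ℕ)

/-- `M' = {m : m₀ ≡ m₁ (2), m₂ ≡ m₃ (2), c m₁ + m₃ ≡ 0 (q)}` inside `DD 1 q p (p q)`. -/
def latM' : AddSubgroup (DD 1 q p (p * q)) :=
  (AddMonoidHom.ker
    (((ZMod.castHom (dvd_mul_right 2 1) (ZMod 2)).toAddMonoidHom.comp
        (AddMonoidHom.fst _ _)) -
      ((ZMod.castHom (dvd_mul_right 2 q) (ZMod 2)).toAddMonoidHom.comp
        ((AddMonoidHom.fst _ _).comp (AddMonoidHom.snd _ _))))) ⊓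
  (AddMonoidHom.ker
    (((ZMod.castHom (dvd_mul_right 2 p) (ZMod 2)).toAddMonoidHom.comp
        ((AddMonoidHom.fst _ _).comp ((AddMonoidHom.snd _ _).comp (AddMonoidHom.snd _ _)))) -
      ((ZMod.castHom (dvd_mul_right 2 (p * q)) (ZMod 2)).toAddMonoidHom.comp
        ((AddMonoidHom.snd _ _).comp ((AddMonoidHom.snd _ _).comp (AddMonoidHom.snd _ _)))))) ⊓
  (AddMonoidHom.ker
    ((c • ((ZMod.castHom (dvd_mul_left q 2) (ZMod q)).toAddMonoidHom.comp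
        ((AddMonoidHom.fst _ _).comp (AddMonoidHom.snd _ _)))) +
      ((ZMod.castHom (Dvd.intro_left (2 * p) (by ring) : q ∣ 2 * (p * q))
          (ZMod q)).toAddMonoidHom.comp
        ((AddMonoidHom.snd _ _).comp ((AddMonoidHom.snd _ _).comp (AddMonoidHom.snd _ _))))))

/-- `M = M' ∩ {p ∣ m₂, p ∣ m₃}`. -/
def latM : AddSubgroup (DD 1 q p (p * q)) :=
  latM' p q c ⊓
  (AddMonoidHom.ker
    ((ZMod.castHom (dvd_mul_left p 2) (ZMod p)).toAddMonoidHom.comp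
        ((AddMonoidHom.fst _ _).comp ((AddMonoidHom.snd _ _).comp (AddMonoidHom.snd _ _))))) ⊓
  (AddMonoidHom.ker
    ((ZMod.castHom (Dvd.intro_left (2 * q) (by ring) : p ∣ 2 * (p * q))
          (ZMod p)).toAddMonoidHom.comp
        ((AddMonoidHom.snd _ _).comp ((AddMonoidHom.snd _ _).comp (AddMonoidHom.snd _ _)))))

/-- the class of an integer vector. -/
def lat_tup (m₀ m₁ m₂ m₃ : ℤ) : DD 1 q p (p * q) :=
  ((m₀ : ZMod (2 * 1)), (m₁ : ZMod (2 * q)), (m₂ : ZMod (2 * p)), (m₃ : ZMod (2 * (p * q))))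

theorem lat_exists_tup (u : DD 1 q p (p * q)) : ∃ m₀ m₁ m₂ m₃ : ℤ, u = lat_tup p q m₀ m₁ m₂ m₃ := by
  obtain ⟨u₀, u₁, u₂, u₃⟩ := u
  obtain ⟨m₀, rfl⟩ := ZMod.intCast_surjective u₀
  obtain ⟨m₁, rfl⟩ := ZMod.intCast_surjective u₁
  obtain ⟨m₂, rfl⟩ := ZMod.intCast_surjective u₂
  obtain ⟨m₃, rfl⟩ := ZMod.intCast_surjective u₃
  exact ⟨m₀, m₁, m₂, m₃, rfl⟩

/-- membership in terms of integer representatives -/
theorem mem_latM'_iff (m₀ m₁ m₂ m₃ : ℤ) :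
    ((m₀ : ZMod (2 * 1)), (m₁ : ZMod (2 * q)), (m₂ : ZMod (2 * p)), (m₃ : ZMod (2 * (p * q))))
      ∈ latM' p q c ↔ (2 : ℤ) ∣ m₀ - m₁ ∧ (2 : ℤ) ∣ m₂ - m₃ ∧ (q : ℤ) ∣ c * m₁ + m₃ := by
  simp only [latM', AddSubgroup.mem_inf, AddMonoidHom.mem_ker, AddMonoidHom.sub_apply,
    AddMonoidHom.add_apply, AddMonoidHom.smul_apply, AddMonoidHom.comp_apply,
    AddMonoidHom.coe_fst, AddMonoidHom.coe_snd, RingHom.toAddMonoidHom_eq_coe,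
    AddMonoidHom.coe_coe, map_intCast, and_assoc]
  rw [← Int.cast_sub, ← Int.cast_sub, nsmul_eq_mul, ← Int.cast_natCast c, ← Int.cast_mul,
    ← Int.cast_add, ZMod.intCast_zmod_eq_zero_iff_dvd, ZMod.intCast_zmod_eq_zero_iff_dvd,
    ZMod.intCast_zmod_eq_zero_iff_dvd]
  rfl

theorem mem_latM_iff (m₀ m₁ m₂ m₃ : ℤ) :
    ((m₀ : ZMod (2 * 1)), (m₁ : ZMod (2 * q)), (m₂ : ZMod (2 * p)), (m₃ : ZMod (2 * (p * q))))
      ∈ latM p q c ↔ ((2 : ℤ) ∣ m₀ - m₁ ∧ (2 : ℤ) ∣ m₂ - m₃ ∧ (q : ℤ) ∣ c * m₁ + m₃) ∧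
        (p : ℤ) ∣ m₂ ∧ (p : ℤ) ∣ m₃ := by
  rw [latM, AddSubgroup.mem_inf, AddSubgroup.mem_inf, mem_latM'_iff, and_assoc]
  simp only [AddMonoidHom.mem_ker, AddMonoidHom.comp_apply,
    AddMonoidHom.coe_fst, AddMonoidHom.coe_snd, RingHom.toAddMonoidHom_eq_coe,
    AddMonoidHom.coe_coe, map_intCast]
  rw [ZMod.intCast_zmod_eq_zero_iff_dvd, ZMod.intCast_zmod_eq_zero_iff_dvd]

/-- `2pq · b(m, m')`. -/
def lat_B (m₀ m₁ m₂ m₃ n₀ n₁ n₂ n₃ : ℤ) : ℤ :=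
  p * q * (m₀ * n₀) + p * (m₁ * n₁) + q * (m₂ * n₂) + m₃ * n₃

/-- `4pq · N(m)`. -/
def lat_N (m₀ m₁ m₂ m₃ : ℤ) : ℤ :=
  p * q * m₀ ^ 2 + p * m₁ ^ 2 + q * m₂ ^ 2 + m₃ ^ 2

theorem lat_Bch_tup [NeZero p] [NeZero q] (m₀ m₁ m₂ m₃ n₀ n₁ n₂ n₃ : ℤ) :
    Bch 1 q p (p * q) (lat_tup p q m₀ m₁ m₂ m₃) (lat_tup p q n₀ n₁ n₂ n₃) =
      lat_ee (lat_B p q m₀ m₁ m₂ m₃ n₀ n₁ n₂ n₃) (2 * (p * q)) := by
  have hp : p ≠ 0 := NeZero.ne p
  have hq : q ≠ 0 := NeZero.ne q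
  simp only [Bch, lat_tup, lat_bch_intCast]
  rw [lat_ee_scale (k := p * q) (D := 2 * (p * q)) (Nat.mul_ne_zero hp hq) (by ring) (m₀ * n₀),
    lat_ee_scale (k := p) (D := 2 * (p * q)) hp (by ring) (m₁ * n₁),
    lat_ee_scale (k := q) (D := 2 * (p * q)) hq (by ring) (m₂ * n₂),
    ← lat_ee_add, ← lat_ee_add, ← lat_ee_add, lat_B]
  congr 1

theorem lat_Qch_tup [NeZero p] [NeZero q] (m₀ m₁ m₂ m₃ : ℤ) :
    Qch 1 q p (p * q) (lat_tup p q m₀ m₁ m₂ m₃) =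
      lat_ee (lat_N p q m₀ m₁ m₂ m₃) (4 * (p * q)) := by
  have hp : p ≠ 0 := NeZero.ne p
  have hq : q ≠ 0 := NeZero.ne q
  simp only [Qch, lat_tup, lat_qch_intCast]
  rw [lat_ee_scale (k := p * q) (D := 4 * (p * q)) (Nat.mul_ne_zero hp hq) (by ring) (m₀ ^ 2),
    lat_ee_scale (k := p) (D := 4 * (p * q)) hp (by ring) (m₁ ^ 2),
    lat_ee_scale (k := q) (D := 4 * (p * q)) hq (by ring) (m₂ ^ 2),
    ← lat_ee_add, ← lat_ee_add, ← lat_ee_add, lat_N]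
  congr 1

theorem lat_Bch_tup_eq_one_iff [NeZero p] [NeZero q] (m₀ m₁ m₂ m₃ n₀ n₁ n₂ n₃ : ℤ) :
    Bch 1 q p (p * q) (lat_tup p q m₀ m₁ m₂ m₃) (lat_tup p q n₀ n₁ n₂ n₃) = 1 ↔
      (2 * (p * q) : ℤ) ∣ lat_B p q m₀ m₁ m₂ m₃ n₀ n₁ n₂ n₃ := by
  rw [lat_Bch_tup, lat_ee_eq_one_iff (NeZero.ne _)]
  push_cast
  rfl

theorem lat_Qch_tup_eq_one_iff [NeZero p] [NeZero q] (m₀ m₁ m₂ m₃ : ℤ) :
    Qch 1 q p (p * q) (lat_tup p q m₀ m₁ m₂ m₃) = 1 ↔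
      (4 * (p * q) : ℤ) ∣ lat_N p q m₀ m₁ m₂ m₃ := by
  rw [lat_Qch_tup, lat_ee_eq_one_iff (NeZero.ne _)]
  push_cast
  rfl

/-! ### arithmetic -/

/-- the integer condition defining `M'`. -/
def lat_In' (m₀ m₁ m₂ m₃ : ℤ) : Prop :=
  (2 : ℤ) ∣ m₀ - m₁ ∧ (2 : ℤ) ∣ m₂ - m₃ ∧ (q : ℤ) ∣ c * m₁ + m₃

theorem lat_four_dvd_N (hq4 : q % 4 = 3) {m₀ m₁ m₂ m₃ : ℤ} (h₁ : (2 : ℤ) ∣ m₀ - m₁)
    (h₂ : (2 : ℤ) ∣ m₂ - m₃) : (4 : ℤ) ∣ lat_N p q m₀ m₁ m₂ m₃ := by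
  obtain ⟨a, ha⟩ := h₁
  obtain ⟨b, hb⟩ := h₂
  obtain rfl : m₀ = m₁ + 2 * a := by linarith
  obtain rfl : m₂ = m₃ + 2 * b := by linarith
  obtain ⟨k, hk⟩ : ∃ k : ℤ, (q : ℤ) = 4 * k + 3 := ⟨(q / 4 : ℕ), by omega⟩
  rw [lat_N, hk]
  exact ⟨p * (k + 1) * m₁ ^ 2 + p * (4 * k + 3) * a * m₁ + p * (4 * k + 3) * a ^ 2 +
    (k + 1) * m₃ ^ 2 + (4 * k + 3) * b * m₃ + (4 * k + 3) * b ^ 2, by ring⟩

theorem lat_q_dvd_B (hc : q ∣ c ^ 2 + p) {m₀ m₁ m₂ m₃ n₀ n₁ n₂ n₃ : ℤ}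
    (h : (q : ℤ) ∣ c * m₁ + m₃) (h' : (q : ℤ) ∣ c * n₁ + n₃) :
    (q : ℤ) ∣ lat_B p q m₀ m₁ m₂ m₃ n₀ n₁ n₂ n₃ := by
  have hc' : (q : ℤ) ∣ (c : ℤ) ^ 2 + p := by exact_mod_cast hc
  have : lat_B p q m₀ m₁ m₂ m₃ n₀ n₁ n₂ n₃ = q * (p * (m₀ * n₀) + m₂ * n₂) +
      (c * m₁ + m₃) * n₃ - (c * n₁ + n₃) * (c * m₁) + ((c : ℤ) ^ 2 + p) * (m₁ * n₁) := by
    rw [lat_B]; ring
  rw [this]
  exact dvd_add (dvd_sub (dvd_add (dvd_mul_right _ _) (h.mul_right _)) (h'.mul_right _))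
    (hc'.mul_right _)

theorem lat_N_eq_B (m₀ m₁ m₂ m₃ : ℤ) :
    lat_N p q m₀ m₁ m₂ m₃ = lat_B p q m₀ m₁ m₂ m₃ m₀ m₁ m₂ m₃ := by
  rw [lat_N, lat_B]; ring

theorem lat_two_dvd_B (hq4 : q % 4 = 3) {m₀ m₁ m₂ m₃ n₀ n₁ n₂ n₃ : ℤ}
    (h₁ : (2 : ℤ) ∣ m₀ - m₁) (h₂ : (2 : ℤ) ∣ m₂ - m₃)
    (h₁' : (2 : ℤ) ∣ n₀ - n₁) (h₂' : (2 : ℤ) ∣ n₂ - n₃) :
    (2 : ℤ) ∣ lat_B p q m₀ m₁ m₂ m₃ n₀ n₁ n₂ n₃ := by
  obtain ⟨a, ha⟩ := h₁
  obtain ⟨b, hb⟩ := h₂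
  obtain ⟨a', ha'⟩ := h₁'
  obtain ⟨b', hb'⟩ := h₂'
  obtain rfl : m₀ = m₁ + 2 * a := by linarith
  obtain rfl : m₂ = m₃ + 2 * b := by linarith
  obtain rfl : n₀ = n₁ + 2 * a' := by linarith
  obtain rfl : n₂ = n₃ + 2 * b' := by linarith
  obtain ⟨k, hk⟩ : ∃ k : ℤ, (q : ℤ) = 2 * k + 1 := ⟨(q / 2 : ℕ), by omega⟩
  rw [lat_B, hk]
  exact ⟨p * (k + 1) * (m₁ * n₁) + p * (2 * k + 1) * (a * n₁ + a' * m₁ + 2 * a * a') +
    (k + 1) * (m₃ * n₃) + (2 * k + 1) * (b * n₃ + b' * m₃ + 2 * b * b'), by ring⟩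

theorem lat_coprime_four_q (hq4 : q % 4 = 3) : IsCoprime (4 : ℤ) (q : ℤ) := by
  obtain ⟨k, hk⟩ : ∃ k : ℤ, (q : ℤ) = 4 * k + 3 := ⟨(q / 4 : ℕ), by omega⟩
  exact ⟨k + 1, -1, by rw [hk]; ring⟩

theorem lat_coprime_two_q (hq4 : q % 4 = 3) : IsCoprime (2 : ℤ) (q : ℤ) := by
  obtain ⟨k, hk⟩ : ∃ k : ℤ, (q : ℤ) = 2 * k + 1 := ⟨(q / 2 : ℕ), by omega⟩
  exact ⟨-k, 1, by rw [hk]; ring⟩

theorem lat_coprime_p (hpp : p.Prime) (hp : p ≠ 2) (hq : q.Prime) (hqp : q ≠ p) (k : ℕ)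
    (hk : k = 2 ∨ k = 4) : IsCoprime (p : ℤ) ((k : ℤ) * q) := by
  have h2 : Nat.Coprime p 2 := (Nat.coprime_primes hpp Nat.prime_two).2 hp
  have hq' : Nat.Coprime p q := (Nat.coprime_primes hpp hq).2 (Ne.symm hqp)
  have hk' : Nat.Coprime p k := by
    rcases hk with rfl | rfl
    · exact h2
    · exact Nat.Coprime.pow_right 2 h2
  have := Nat.isCoprime_iff_coprime.2 (Nat.Coprime.mul_right hk' hq')
  simpa using this

theorem lat_4q_dvd_N (hq4 : q % 4 = 3) (hc : q ∣ c ^ 2 + p) {m₀ m₁ m₂ m₃ : ℤ}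
    (h : lat_In' q c m₀ m₁ m₂ m₃) : (4 * q : ℤ) ∣ lat_N p q m₀ m₁ m₂ m₃ := by
  refine (lat_coprime_four_q q hq4).mul_dvd (lat_four_dvd_N p q hq4 h.1 h.2.1) ?_
  rw [lat_N_eq_B]
  exact lat_q_dvd_B p q c hc h.2.2 h.2.2

theorem lat_2q_dvd_B (hq4 : q % 4 = 3) (hc : q ∣ c ^ 2 + p) {m₀ m₁ m₂ m₃ n₀ n₁ n₂ n₃ : ℤ}
    (h : lat_In' q c m₀ m₁ m₂ m₃) (h' : lat_In' q c n₀ n₁ n₂ n₃) :
    (2 * q : ℤ) ∣ lat_B p q m₀ m₁ m₂ m₃ n₀ n₁ n₂ n₃ :=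
  (lat_coprime_two_q q hq4).mul_dvd (lat_two_dvd_B p q hq4 h.1 h.2.1 h'.1 h'.2.1)
    (lat_q_dvd_B p q c hc h.2.2 h'.2.2)

theorem lat_p_dvd_B {m₀ m₁ m₂ m₃ : ℤ} (n₀ n₁ n₂ n₃ : ℤ) (h₂ : (p : ℤ) ∣ m₂) (h₃ : (p : ℤ) ∣ m₃) :
    (p : ℤ) ∣ lat_B p q m₀ m₁ m₂ m₃ n₀ n₁ n₂ n₃ := by
  rw [lat_B]
  refine dvd_add (dvd_add (dvd_add ?_ (dvd_mul_right _ _)) ?_) (h₃.mul_right _)
  · rw [mul_assoc]; exact dvd_mul_right _ _
  · exact (h₂.mul_right _).mul_left _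

theorem lat_4pq_dvd_N (hpp : p.Prime) (hp : p ≠ 2) (hq : q.Prime) (hq4 : q % 4 = 3) (hqp : q ≠ p)
    (hc : q ∣ c ^ 2 + p) {m₀ m₁ m₂ m₃ : ℤ} (h : lat_In' q c m₀ m₁ m₂ m₃)
    (h₂ : (p : ℤ) ∣ m₂) (h₃ : (p : ℤ) ∣ m₃) : (4 * (p * q) : ℤ) ∣ lat_N p q m₀ m₁ m₂ m₃ := by
  have h1 := (lat_coprime_p p q hpp hp hq hqp 4 (Or.inr rfl)).mul_dvd
    (by rw [lat_N_eq_B]; exact lat_p_dvd_B p q _ _ _ _ h₂ h₃) (lat_4q_dvd_N p q c hq4 hc h)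
  have e : (4 * (p * q) : ℤ) = (p : ℤ) * (((4 : ℕ) : ℤ) * q) := by push_cast; ring
  rw [e]
  exact h1

theorem lat_2pq_dvd_B (hpp : p.Prime) (hp : p ≠ 2) (hq : q.Prime) (hq4 : q % 4 = 3) (hqp : q ≠ p)
    (hc : q ∣ c ^ 2 + p) {m₀ m₁ m₂ m₃ n₀ n₁ n₂ n₃ : ℤ} (h : lat_In' q c m₀ m₁ m₂ m₃)
    (h₂ : (p : ℤ) ∣ m₂) (h₃ : (p : ℤ) ∣ m₃) (h' : lat_In' q c n₀ n₁ n₂ n₃) :
    (2 * (p * q) : ℤ) ∣ lat_B p q m₀ m₁ m₂ m₃ n₀ n₁ n₂ n₃ := by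
  have h1 := (lat_coprime_p p q hpp hp hq hqp 2 (Or.inl rfl)).mul_dvd
    (lat_p_dvd_B p q _ _ _ _ h₂ h₃) (lat_2q_dvd_B p q c hq4 hc h h')
  have e : (2 * (p * q) : ℤ) = (p : ℤ) * (((2 : ℕ) : ℤ) * q) := by push_cast; ring
  rw [e]
  exact h1

theorem lat_aniso [Fact p.Prime] (hns : ¬ IsSquare (-(q : ZMod p))) {m₀ m₁ m₂ m₃ : ℤ}
    (h : (p : ℤ) ∣ lat_N p q m₀ m₁ m₂ m₃) : (p : ℤ) ∣ m₂ ∧ (p : ℤ) ∣ m₃ := by
  rw [← ZMod.intCast_zmod_eq_zero_iff_dvd, ← ZMod.intCast_zmod_eq_zero_iff_dvd]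
  rw [← ZMod.intCast_zmod_eq_zero_iff_dvd, lat_N] at h
  push_cast at h
  simp only [CharP.cast_eq_zero, zero_mul, zero_add] at h
  have h2 : (m₂ : ZMod p) = 0 := by
    by_contra h2
    apply hns
    refine ⟨(m₃ : ZMod p) / m₂, ?_⟩
    field_simp
    linear_combination -h
  refine ⟨h2, ?_⟩
  rw [h2] at h
  simpa using h

/-! ### cardinalities -/

theorem lat_card_ker {G H : Type*} [AddGroup G] [AddGroup H] (f : G →+ H)
    (hf : Function.Surjective f) : Nat.card f.ker * Nat.card H = Nat.card G := by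
  rw [← AddSubgroup.card_mul_index f.ker, AddSubgroup.index_ker,
    AddMonoidHom.range_eq_top.2 hf, AddSubgroup.card_top]

theorem lat_crt {a b : ℕ} (h : Nat.Coprime a b) (x : ZMod a) (y : ZMod b) :
    ∃ m : ℤ, (m : ZMod a) = x ∧ (m : ZMod b) = y := by
  obtain ⟨m, hm⟩ := ZMod.intCast_surjective ((ZMod.chineseRemainder h).symm (x, y))
  have h1 : ZMod.chineseRemainder h (m : ZMod (a * b)) = (x, y) := by
    rw [hm, RingEquiv.apply_symm_apply]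
  rw [map_intCast] at h1
  exact ⟨m, by simpa using congrArg Prod.fst h1, by simpa using congrArg Prod.snd h1⟩

/-- the map with kernel `M'`. -/
def lat_f' : DD 1 q p (p * q) →+ ZMod 2 × ZMod 2 × ZMod q :=
  (((ZMod.castHom (dvd_mul_right 2 1) (ZMod 2)).toAddMonoidHom.comp
        (AddMonoidHom.fst _ _)) -
      ((ZMod.castHom (dvd_mul_right 2 q) (ZMod 2)).toAddMonoidHom.comp
        ((AddMonoidHom.fst _ _).comp (AddMonoidHom.snd _ _)))).prod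
  ((((ZMod.castHom (dvd_mul_right 2 p) (ZMod 2)).toAddMonoidHom.comp
        ((AddMonoidHom.fst _ _).comp ((AddMonoidHom.snd _ _).comp (AddMonoidHom.snd _ _)))) -
      ((ZMod.castHom (dvd_mul_right 2 (p * q)) (ZMod 2)).toAddMonoidHom.comp
        ((AddMonoidHom.snd _ _).comp ((AddMonoidHom.snd _ _).comp (AddMonoidHom.snd _ _))))).prod
  ((c • ((ZMod.castHom (dvd_mul_left q 2) (ZMod q)).toAddMonoidHom.comp
        ((AddMonoidHom.fst _ _).comp (AddMonoidHom.snd _ _)))) +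
      ((ZMod.castHom (Dvd.intro_left (2 * p) (by ring) : q ∣ 2 * (p * q))
          (ZMod q)).toAddMonoidHom.comp
        ((AddMonoidHom.snd _ _).comp ((AddMonoidHom.snd _ _).comp (AddMonoidHom.snd _ _))))))

/-- the map with kernel `M`. -/
def lat_f : DD 1 q p (p * q) →+ (ZMod 2 × ZMod 2 × ZMod q) × ZMod p × ZMod p :=
  (lat_f' p q c).prod
  (((ZMod.castHom (dvd_mul_left p 2) (ZMod p)).toAddMonoidHom.comp
        ((AddMonoidHom.fst _ _).comp ((AddMonoidHom.snd _ _).comp (AddMonoidHom.snd _ _)))).prod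
    ((ZMod.castHom (Dvd.intro_left (2 * q) (by ring) : p ∣ 2 * (p * q))
          (ZMod p)).toAddMonoidHom.comp
        ((AddMonoidHom.snd _ _).comp ((AddMonoidHom.snd _ _).comp (AddMonoidHom.snd _ _)))))

theorem lat_ker_f' : (lat_f' p q c).ker = latM' p q c := by
  rw [lat_f', AddMonoidHom.ker_prod, AddMonoidHom.ker_prod, ← inf_assoc]
  rfl

theorem lat_ker_f : (lat_f p q c).ker = latM p q c := by
  rw [lat_f, AddMonoidHom.ker_prod, AddMonoidHom.ker_prod, ← inf_assoc, lat_ker_f']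
  rfl

theorem lat_f_tup (m₀ m₁ m₂ m₃ : ℤ) : lat_f p q c (lat_tup p q m₀ m₁ m₂ m₃) =
    ((((m₀ - m₁ : ℤ) : ZMod 2), ((m₂ - m₃ : ℤ) : ZMod 2), ((c * m₁ + m₃ : ℤ) : ZMod q)),
      (m₂ : ZMod p), (m₃ : ZMod p)) := by
  simp only [lat_f, lat_f', lat_tup, AddMonoidHom.prod_apply, AddMonoidHom.sub_apply,
    AddMonoidHom.add_apply, AddMonoidHom.smul_apply, AddMonoidHom.comp_apply,
    AddMonoidHom.coe_fst, AddMonoidHom.coe_snd, RingHom.toAddMonoidHom_eq_coe,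
    AddMonoidHom.coe_coe, map_intCast, nsmul_eq_mul]
  push_cast
  rfl

theorem lat_f_surjective (hpp : p.Prime) (hp : p ≠ 2) (hq : q.Prime) (hqp : q ≠ p) :
    Function.Surjective (lat_f p q c) := by
  rintro ⟨⟨α, β, γ⟩, δ, ε⟩
  have h2 : Nat.Coprime p 2 := (Nat.coprime_primes hpp Nat.prime_two).2 hp
  have hq' : Nat.Coprime q p := (Nat.coprime_primes hq hpp).2 hqp
  obtain ⟨m₀, rfl⟩ := ZMod.intCast_surjective α
  obtain ⟨m₃, hm₃, rfl⟩ := lat_crt hq' γ ε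
  obtain ⟨m₂, rfl, hm₂⟩ := lat_crt h2 δ (β + (m₃ : ZMod 2))
  refine ⟨lat_tup p q m₀ 0 m₂ m₃, ?_⟩
  rw [lat_f_tup]
  push_cast
  rw [hm₂, hm₃]
  simp

theorem lat_f'_surjective (hpp : p.Prime) (hp : p ≠ 2) (hq : q.Prime) (hqp : q ≠ p) :
    Function.Surjective (lat_f' p q c) := by
  intro x
  obtain ⟨u, hu⟩ := lat_f_surjective p q c hpp hp hq hqp (x, 0, 0)
  exact ⟨u, congrArg Prod.fst hu⟩

theorem lat_card_DD : Nat.card (DD 1 q p (p * q)) = 16 * (p ^ 2 * q ^ 2) := by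
  simp only [Nat.card_prod, Nat.card_zmod]
  ring

theorem lat_card_M (hpp : p.Prime) (hp : p ≠ 2) (hq : q.Prime) (hqp : q ≠ p) :
    Nat.card (latM p q c) = 4 * q := by
  have h := lat_card_ker _ (lat_f_surjective p q c hpp hp hq hqp)
  rw [lat_ker_f, lat_card_DD] at h
  simp only [Nat.card_prod, Nat.card_zmod] at h
  have h0 : 0 < 2 * (2 * q) * (p * p) := by
    have := hpp.pos
    have := hq.pos
    positivity
  apply Nat.eq_of_mul_eq_mul_right h0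
  rw [h]
  ring

theorem lat_card_M' (hpp : p.Prime) (hp : p ≠ 2) (hq : q.Prime) (hqp : q ≠ p) :
    Nat.card (latM' p q c) = 4 * (p ^ 2 * q) := by
  have h := lat_card_ker _ (lat_f'_surjective p q c hpp hp hq hqp)
  rw [lat_ker_f', lat_card_DD] at h
  simp only [Nat.card_prod, Nat.card_zmod] at h
  have h0 : 0 < 2 * (2 * q) := by
    have := hq.pos
    positivity
  apply Nat.eq_of_mul_eq_mul_right h0
  rw [h]
  ring

theorem lat_tup_mem' (m₀ m₁ m₂ m₃ : ℤ) :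
    lat_tup p q m₀ m₁ m₂ m₃ ∈ latM' p q c ↔ lat_In' q c m₀ m₁ m₂ m₃ :=
  mem_latM'_iff p q c m₀ m₁ m₂ m₃

theorem lat_tup_mem (m₀ m₁ m₂ m₃ : ℤ) :
    lat_tup p q m₀ m₁ m₂ m₃ ∈ latM p q c ↔
      lat_In' q c m₀ m₁ m₂ m₃ ∧ (p : ℤ) ∣ m₂ ∧ (p : ℤ) ∣ m₃ :=
  mem_latM_iff p q c m₀ m₁ m₂ m₃

theorem lat_nsmul_tup (n : ℕ) (m₀ m₁ m₂ m₃ : ℤ) :
    n • lat_tup p q m₀ m₁ m₂ m₃ = lat_tup p q (n * m₀) (n * m₁) (n * m₂) (n * m₃) := by
  simp only [lat_tup, Prod.smul_mk, nsmul_eq_mul]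
  push_cast
  rfl

variable [Fact p.Prime] [NeZero q]

theorem card_latM (hp : p ≠ 2) (hq : q.Prime) (hq4 : q % 4 = 3) (hqp : q ≠ p)
    (hc : q ∣ c ^ 2 + p) : Nat.card (latM p q c) = 4 * q :=
  lat_card_M p q c Fact.out hp hq hqp

/-- the concrete `FinData` -/
theorem exists_finData (hp : p ≠ 2) (hq : q.Prime) (hq4 : q % 4 = 3) (hqp : q ≠ p)
    (hns : ¬ IsSquare (-(q : ZMod p))) (hc : q ∣ c ^ 2 + p) :
    ∃ F : FinData p (DD 1 q p (p * q)), F.β = Bch 1 q p (p * q) ∧ F.ψ = Qch 1 q p (p * q) ∧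
      F.M = latM p q c ∧ F.M' = latM' p q c := by
  have hpp : p.Prime := Fact.out
  have : NeZero p := ⟨hpp.ne_zero⟩
  have hp0 : (p : ℤ) ≠ 0 := by exact_mod_cast hpp.ne_zero
  have hq0 : (q : ℤ) ≠ 0 := by exact_mod_cast hq.ne_zero
  have hqodd : (2 : ℤ) ∣ 1 - q := ⟨-((q / 2 : ℕ) : ℤ), by omega⟩
  have hc' : (q : ℤ) ∣ (c : ℤ) ^ 2 + p := by exact_mod_cast hc
  refine ⟨{
    β := Bch 1 q p (p * q)
    ψ := Qch 1 q p (p * q)
    M := latM p q c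
    M' := latM' p q c
    β_add := lat_Bch_add 1 q p (p * q)
    β_comm := lat_Bch_comm 1 q p (p * q)
    ψ_add := lat_Qch_add 1 q p (p * q)
    ψ_neg := lat_Qch_neg 1 q p (p * q)
    norm_ψ := lat_norm_Qch 1 q p (p * q)
    M_le := fun u hu => hu.1.1
    ψ_M := ?_
    β_M := ?_
    perp := ?_
    perp' := ?_
    p_smul := ?_
    ψ_pow := ?_
    aniso := ?_
    card_M' := ?_ }, rfl, rfl, rfl, rfl⟩
  · -- ψ_M
    intro m hm
    obtain ⟨m₀, m₁, m₂, m₃, rfl⟩ := lat_exists_tup p q m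
    rw [lat_tup_mem] at hm
    rw [lat_Qch_tup_eq_one_iff]
    exact lat_4pq_dvd_N p q c hpp hp hq hq4 hqp hc hm.1 hm.2.1 hm.2.2
  · -- β_M
    intro m hm n hn
    obtain ⟨m₀, m₁, m₂, m₃, rfl⟩ := lat_exists_tup p q m
    obtain ⟨n₀, n₁, n₂, n₃, rfl⟩ := lat_exists_tup p q n
    rw [lat_tup_mem] at hm
    rw [lat_tup_mem'] at hn
    rw [lat_Bch_tup_eq_one_iff]
    exact lat_2pq_dvd_B p q c hpp hp hq hq4 hqp hc hm.1 hm.2.1 hm.2.2 hn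
  · -- perp
    intro u hu
    obtain ⟨u₀, u₁, u₂, u₃, rfl⟩ := lat_exists_tup p q u
    rw [lat_tup_mem'] at hu
    by_contra hcon
    push Not at hcon
    apply hu
    refine ⟨?_, ?_, ?_⟩
    · have h1 := hcon (lat_tup p q 1 q 0 0) ((lat_tup_mem p q c _ _ _ _).2
        ⟨⟨hqodd, by simp, by simp⟩, by simp, by simp⟩)
      rw [lat_Bch_tup_eq_one_iff] at h1
      have e : lat_B p q 1 q 0 0 u₀ u₁ u₂ u₃ = (p * q : ℤ) * (u₀ + u₁) := by rw [lat_B]; ring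
      rw [e, mul_comm (2 : ℤ), mul_dvd_mul_iff_left (mul_ne_zero hp0 hq0)] at h1
      have : u₀ - u₁ = (u₀ + u₁) - 2 * u₁ := by ring
      rw [this]
      exact dvd_sub h1 (dvd_mul_right _ _)
    · have h1 := hcon (lat_tup p q 0 0 p (p * q)) ((lat_tup_mem p q c _ _ _ _).2
        ⟨⟨by simp, by
          have : (p : ℤ) - p * q = (1 - q) * p := by ring
          rw [this]; exact hqodd.mul_right _, by simp⟩, by simp, by simp⟩)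
      rw [lat_Bch_tup_eq_one_iff] at h1
      have e : lat_B p q 0 0 p (p * q) u₀ u₁ u₂ u₃ = (p * q : ℤ) * (u₂ + u₃) := by rw [lat_B]; ring
      rw [e, mul_comm (2 : ℤ), mul_dvd_mul_iff_left (mul_ne_zero hp0 hq0)] at h1
      have : u₂ - u₃ = (u₂ + u₃) - 2 * u₃ := by ring
      rw [this]
      exact dvd_sub h1 (dvd_mul_right _ _)
    · have h1 := hcon (lat_tup p q 0 (2 * c) 0 (2 * p)) ((lat_tup_mem p q c _ _ _ _).2
        ⟨⟨by simp, by simp, by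
          have : (c : ℤ) * (2 * c) + 2 * p = ((c : ℤ) ^ 2 + p) * 2 := by ring
          rw [this]; exact hc'.mul_right _⟩, by simp, by simp⟩)
      rw [lat_Bch_tup_eq_one_iff] at h1
      have e : lat_B p q 0 (2 * c) 0 (2 * p) u₀ u₁ u₂ u₃ = (2 * p : ℤ) * (c * u₁ + u₃) := by
        rw [lat_B]; ring
      rw [e, ← mul_assoc, mul_dvd_mul_iff_left (mul_ne_zero two_ne_zero hp0)] at h1
      exact h1
  · -- perp'
    intro u hu hu'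
    obtain ⟨u₀, u₁, u₂, u₃, rfl⟩ := lat_exists_tup p q u
    rw [lat_tup_mem'] at hu
    rw [lat_tup_mem] at hu'
    by_contra hcon
    push Not at hcon
    apply hu'
    refine ⟨hu, ?_, ?_⟩
    · have h1 := hcon (lat_tup p q 0 0 2 0) ((lat_tup_mem' p q c _ _ _ _).2
        ⟨by simp, by simp, by simp⟩)
      rw [lat_Bch_tup_eq_one_iff] at h1
      have e : lat_B p q 0 0 2 0 u₀ u₁ u₂ u₃ = (2 * q : ℤ) * u₂ := by rw [lat_B]; ring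
      have e' : (2 * (p * q) : ℤ) = (2 * q : ℤ) * p := by ring
      rw [e, e', mul_dvd_mul_iff_left (mul_ne_zero two_ne_zero hq0)] at h1
      exact h1
    · have h1 := hcon (lat_tup p q 0 0 0 (2 * q)) ((lat_tup_mem' p q c _ _ _ _).2
        ⟨by simp, by simp, by simp⟩)
      rw [lat_Bch_tup_eq_one_iff] at h1
      have e : lat_B p q 0 0 0 (2 * q) u₀ u₁ u₂ u₃ = (2 * q : ℤ) * u₃ := by rw [lat_B]; ring
      have e' : (2 * (p * q) : ℤ) = (2 * q : ℤ) * p := by ring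
      rw [e, e', mul_dvd_mul_iff_left (mul_ne_zero two_ne_zero hq0)] at h1
      exact h1
  · -- p_smul
    intro u hu
    obtain ⟨u₀, u₁, u₂, u₃, rfl⟩ := lat_exists_tup p q u
    rw [lat_tup_mem'] at hu
    rw [lat_nsmul_tup, lat_tup_mem]
    obtain ⟨h1, h2, h3⟩ := hu
    refine ⟨⟨?_, ?_, ?_⟩, dvd_mul_right _ _, dvd_mul_right _ _⟩
    · rw [← mul_sub]; exact h1.mul_left _
    · rw [← mul_sub]; exact h2.mul_left _
    · have : (c : ℤ) * (p * u₁) + p * u₃ = p * (c * u₁ + u₃) := by ring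
      rw [this]; exact h3.mul_left _
  · -- ψ_pow
    intro u hu
    obtain ⟨u₀, u₁, u₂, u₃, rfl⟩ := lat_exists_tup p q u
    rw [lat_tup_mem'] at hu
    rw [lat_Qch_tup, lat_ee_pow, lat_ee_eq_one_iff (NeZero.ne _)]
    have h1 := lat_4q_dvd_N p q c hq4 hc hu
    have e : (((4 * (p * q) : ℕ)) : ℤ) = (p : ℤ) * (4 * q) := by push_cast; ring
    rw [e]
    exact mul_dvd_mul_left _ h1
  · -- aniso
    intro u hu hψ
    obtain ⟨u₀, u₁, u₂, u₃, rfl⟩ := lat_exists_tup p q u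
    rw [lat_tup_mem'] at hu
    rw [lat_Qch_tup_eq_one_iff] at hψ
    rw [lat_tup_mem]
    refine ⟨hu, lat_aniso p q hns (dvd_trans ⟨4 * q, by ring⟩ hψ)⟩
  · -- card
    rw [lat_card_M' p q c hpp hp hq hqp, lat_card_M p q c hpp hp hq hqp]
    ring

end Lattice

end Fermat.Agent.S16.Theta
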