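/-
S16, theta half, DESIGN B, package TH-QE: the `q`-expansion of `Th(1_M)` for an isotropic subgroup `M`:
constant term `1`, all other coefficients even.

Proof: `Th φ z = ∑_{m ∈ ℤ⁴} φ(m mod) e(N(m) z)` with `N(m) = ∑ mᵢ²/(4aᵢ)`; for `m mod ∈ M` the number
`N(m)` is a natural number; regroup along the fibres of `N`; the fibre over `0` is `{0}`, the others carry the
fixed point free involution `m ↦ -m`.
-/
import Fermat.Agent.S16.Theta.Defs

set_option autoImplicit false

namespace Fermat.Agent.S16.Theta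

open Complex
open UpperHalfPlane hiding I
open scoped Real

namespace QE

/-- `e(m² z / 4a)`. -/
noncomputable def eterm (a : ℕ) (m : ℤ) (z : ℂ) : ℂ :=
  cexp (2 * π * I * ((m ^ 2 : ℤ) : ℂ) / (4 * a) * z)

theorem eterm_eq_jacobi (a : ℕ) [NeZero a] (r n : ℤ) (z : ℂ) :
    eterm a (2 * (a : ℤ) * n + r) z =
      cexp (2 * π * I * ((r ^ 2 : ℤ) : ℂ) / (4 * a) * z) * jacobiTheta₂_term n (r * z) (2 * a * z) := by
  have ha : (a : ℂ) ≠ 0 := Nat.cast_ne_zero.mpr (NeZero.ne a)
  rw [eterm, jacobiTheta₂_term, ← Complex.exp_add]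
  congr 1
  push_cast
  field_simp
  ring

theorem summable_eterm (a : ℕ) [NeZero a] (r : ℤ) (z : ℍ) :
    Summable (fun n : ℤ => eterm a (2 * (a : ℤ) * n + r) z) := by
  simp_rw [eterm_eq_jacobi]
  apply Summable.mul_left
  rw [summable_jacobiTheta₂_term_iff]
  have ha : 0 < (a : ℝ) := Nat.cast_pos.mpr (NeZero.pos a)
  have : (2 * (a : ℂ) * (z : ℂ)).im = 2 * a * z.im := by
    have : (2 * (a : ℂ) * (z : ℂ)) = ((2 * a : ℝ) : ℂ) * z := by push_cast; ring
    rw [this, Complex.im_ofReal_mul]; rfl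
  rw [this]
  have := z.im_pos
  positivity

/-- `thz` as a sum over all integers in the residue class. -/
theorem hasSum_thz (a : ℕ) [NeZero a] (r : ZMod (2 * a)) (z : ℍ) :
    HasSum (fun m : ℤ => if (m : ZMod (2 * a)) = r then eterm a m z else 0) (thz a r z) := by
  have ha : (a : ℤ) ≠ 0 := Nat.cast_ne_zero.mpr (NeZero.ne a)
  have hinj : Function.Injective (fun n : ℤ => 2 * (a : ℤ) * n + (r.val : ℤ)) := by
    intro x y hxy
    have h2 : 2 * (a : ℤ) * x = 2 * (a : ℤ) * y := by simpa using hxy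
    exact mul_left_cancel₀ (mul_ne_zero two_ne_zero ha) h2
  rw [← hinj.hasSum_iff]
  · have he : ((fun m : ℤ => if (m : ZMod (2 * a)) = r then eterm a m z else 0) ∘
        fun n : ℤ => 2 * (a : ℤ) * n + (r.val : ℤ)) =
        fun n : ℤ => eterm a (2 * (a : ℤ) * n + (r.val : ℤ)) z := by
      funext n
      have h0 : ((2 : ZMod (2 * a)) * (a : ZMod (2 * a))) = 0 := by
        have := ZMod.natCast_self (2 * a)
        push_cast at this
        exact this
      have : (((2 * (a : ℤ) * n + (r.val : ℤ) : ℤ)) : ZMod (2 * a)) = r := by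
        push_cast
        rw [h0, zero_mul, zero_add, ZMod.natCast_zmod_val]
      simp only [Function.comp_apply, this, if_true]
    rw [he]
    exact (summable_eterm a (r.val : ℤ) z).hasSum
  · intro m hm
    rw [if_neg]
    intro h
    apply hm
    have h1 : (m : ZMod (2 * a)) = ((r.val : ℤ) : ZMod (2 * a)) := by
      rw [h]; simp
    rw [ZMod.intCast_eq_intCast_iff_dvd_sub] at h1
    obtain ⟨t, ht⟩ := h1
    refine ⟨-t, ?_⟩
    simp only
    push_cast at ht
    linarith

theorem hasSum_mul' {ι κ : Type*} {f : ι → ℂ} {g : κ → ℂ} {s t : ℂ} (hf : HasSum f s)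
    (hg : HasSum g t) : HasSum (fun x : ι × κ => f x.1 * g x.2) (s * t) :=
  hf.mul hg (summable_mul_of_summable_norm hf.summable.norm hg.summable.norm)

/-- index set. -/
abbrev Z4 : Type := ℤ × ℤ × ℤ × ℤ

section four
variable (a b c d : ℕ)

/-- reduction `ℤ⁴ → DD`. -/
def proj (m : Z4) : DD a b c d :=
  ((m.1 : ZMod (2 * a)), (m.2.1 : ZMod (2 * b)), (m.2.2.1 : ZMod (2 * c)), (m.2.2.2 : ZMod (2 * d)))

/-- `e(N(m) z)`. -/
noncomputable def E4 (m : Z4) (z : ℂ) : ℂ :=
  eterm a m.1 z * eterm b m.2.1 z * eterm c m.2.2.1 z * eterm d m.2.2.2 z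

variable [NeZero a] [NeZero b] [NeZero c] [NeZero d]

theorem hasSum_th4 (u : DD a b c d) (z : ℍ) :
    HasSum (fun m : Z4 => if proj a b c d m = u then E4 a b c d m z else 0) (th4 a b c d u z) := by
  have h := hasSum_mul' (hasSum_thz a u.1 z) (hasSum_mul' (hasSum_thz b u.2.1 z)
    (hasSum_mul' (hasSum_thz c u.2.2.1 z) (hasSum_thz d u.2.2.2 z)))
  have e1 : th4 a b c d u z = thz a u.1 z * (thz b u.2.1 z * (thz c u.2.2.1 z * thz d u.2.2.2 z)) := by
    rw [th4]; ring
  rw [e1]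
  have e2 : (fun m : Z4 => if proj a b c d m = u then E4 a b c d m z else 0) =
      fun x : Z4 => (if (x.1 : ZMod (2 * a)) = u.1 then eterm a x.1 z else 0) *
        ((if (x.2.1 : ZMod (2 * b)) = u.2.1 then eterm b x.2.1 z else 0) *
          ((if (x.2.2.1 : ZMod (2 * c)) = u.2.2.1 then eterm c x.2.2.1 z else 0) *
            if (x.2.2.2 : ZMod (2 * d)) = u.2.2.2 then eterm d x.2.2.2 z else 0)) := by
    funext m
    obtain ⟨u0, u1, u2, u3⟩ := u
    simp only [proj, Prod.mk.injEq, E4]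
    by_cases h0 : (m.1 : ZMod (2 * a)) = u0 <;> by_cases h1 : (m.2.1 : ZMod (2 * b)) = u1 <;>
      by_cases h2 : (m.2.2.1 : ZMod (2 * c)) = u2 <;>
      by_cases h3 : (m.2.2.2 : ZMod (2 * d)) = u3 <;> simp [h0, h1, h2, h3, mul_assoc]
  rw [e2]
  exact h

/-- **`Th φ` as a sum over `ℤ⁴`.** -/
theorem hasSum_Th (φ : DD a b c d → ℂ) (z : ℍ) :
    HasSum (fun m : Z4 => φ (proj a b c d m) * E4 a b c d m z) (Th a b c d φ z) := by
  have h := hasSum_sum (s := Finset.univ) (fun (u : DD a b c d) _ => (hasSum_th4 a b c d u z).mul_left (φ u))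
  have e : (fun m : Z4 => φ (proj a b c d m) * E4 a b c d m z) =
      fun m : Z4 => ∑ u : DD a b c d, φ u * (if proj a b c d m = u then E4 a b c d m z else 0) := by
    funext m
    simp
  rw [e]
  exact h

omit [NeZero a] [NeZero b] [NeZero c] [NeZero d] in
/-- the quadratic form `N(m) = ∑ mᵢ²/(4aᵢ)`. -/
noncomputable def NN (m : Z4) : ℝ :=
  (m.1 : ℝ) ^ 2 / (4 * a) + (m.2.1 : ℝ) ^ 2 / (4 * b) + (m.2.2.1 : ℝ) ^ 2 / (4 * c) +
    (m.2.2.2 : ℝ) ^ 2 / (4 * d)

omit [NeZero a] [NeZero b] [NeZero c] [NeZero d] in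
theorem E4_eq (m : Z4) (z : ℂ) :
    E4 a b c d m z = cexp (2 * π * I * (NN a b c d m : ℂ) * z) := by
  simp only [E4, eterm, ← Complex.exp_add, NN]
  congr 1
  push_cast
  ring

omit [NeZero b] [NeZero c] [NeZero d] in
theorem qch_intCast (m : ℤ) :
    qch a (m : ZMod (2 * a)) = cexp (2 * π * I * ((m : ℂ) ^ 2) / (4 * a)) := by
  have ha : (a : ℂ) ≠ 0 := Nat.cast_ne_zero.mpr (NeZero.ne a)
  have hv : ((m : ZMod (2 * a)).val : ℤ) = m % ((2 * a : ℕ) : ℤ) := ZMod.val_intCast m
  have hm : m = ((2 * a : ℕ) : ℤ) * (m / ((2 * a : ℕ) : ℤ)) + ((m : ZMod (2 * a)).val : ℤ) := by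
    rw [hv]; exact (Int.mul_ediv_add_emod _ _).symm
  rw [qch]
  generalize (m : ZMod (2 * a)).val = v at hm ⊢
  generalize m / ((2 * a : ℕ) : ℤ) = s at hm
  have hmC : (m : ℂ) = 2 * a * s + v := by
    rw [hm]; push_cast; ring
  have h2 : 2 * π * I * ((m : ℂ) ^ 2) / (4 * a) =
      2 * π * I * ((v : ℂ) ^ 2) / (4 * a) + ((s * v + a * s ^ 2 : ℤ) : ℂ) * (2 * π * I) := by
    rw [hmC]
    push_cast
    field_simp
    ring
  rw [h2, Complex.exp_add, Complex.exp_int_mul_two_pi_mul_I, mul_one]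

theorem Qch_proj (m : Z4) :
    Qch a b c d (proj a b c d m) = cexp (2 * π * I * (NN a b c d m : ℂ)) := by
  simp only [Qch, proj, qch_intCast, ← Complex.exp_add, NN]
  congr 1
  push_cast
  ring

omit [NeZero a] [NeZero b] [NeZero c] [NeZero d] in
theorem NN_nonneg (m : Z4) : 0 ≤ NN a b c d m := by
  unfold NN
  positivity

theorem exists_nat (m : Z4) (h : Qch a b c d (proj a b c d m) = 1) :
    ∃ k : ℕ, NN a b c d m = k := by
  rw [Qch_proj, Complex.exp_eq_one_iff] at h
  obtain ⟨n, hn⟩ := h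
  have h1 : (NN a b c d m : ℂ) = n := by
    have h2 : (2 * π * I : ℂ) ≠ 0 := Complex.two_pi_I_ne_zero
    have h3 : (2 * π * I : ℂ) * (NN a b c d m : ℂ) = (2 * π * I : ℂ) * n := by
      rw [hn]; ring
    exact mul_left_cancel₀ h2 h3
  have h4 : NN a b c d m = (n : ℝ) := by exact_mod_cast h1
  have h5 : 0 ≤ n := by
    have := NN_nonneg a b c d m
    rw [h4] at this
    exact_mod_cast this
  refine ⟨n.toNat, ?_⟩
  rw [h4]
  have : ((n.toNat : ℤ) : ℝ) = (n : ℝ) := by rw [Int.toNat_of_nonneg h5]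
  exact_mod_cast this.symm

theorem NN_eq_zero_iff (m : Z4) : NN a b c d m = 0 ↔ m = 0 := by
  constructor
  · intro h
    have ha : (4 * (a : ℝ)) ≠ 0 := mul_ne_zero four_ne_zero (Nat.cast_ne_zero.mpr (NeZero.ne a))
    have hb : (4 * (b : ℝ)) ≠ 0 := mul_ne_zero four_ne_zero (Nat.cast_ne_zero.mpr (NeZero.ne b))
    have hc : (4 * (c : ℝ)) ≠ 0 := mul_ne_zero four_ne_zero (Nat.cast_ne_zero.mpr (NeZero.ne c))
    have hd : (4 * (d : ℝ)) ≠ 0 := mul_ne_zero four_ne_zero (Nat.cast_ne_zero.mpr (NeZero.ne d))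
    have t0 : 0 ≤ (m.1 : ℝ) ^ 2 / (4 * a) := by positivity
    have t1 : 0 ≤ (m.2.1 : ℝ) ^ 2 / (4 * b) := by positivity
    have t2 : 0 ≤ (m.2.2.1 : ℝ) ^ 2 / (4 * c) := by positivity
    have t3 : 0 ≤ (m.2.2.2 : ℝ) ^ 2 / (4 * d) := by positivity
    unfold NN at h
    have z0 : (m.1 : ℝ) ^ 2 / (4 * a) = 0 := by linarith
    have z1 : (m.2.1 : ℝ) ^ 2 / (4 * b) = 0 := by linarith
    have z2 : (m.2.2.1 : ℝ) ^ 2 / (4 * c) = 0 := by linarith
    have z3 : (m.2.2.2 : ℝ) ^ 2 / (4 * d) = 0 := by linarith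
    have key : ∀ (x : ℤ) (y : ℝ), y ≠ 0 → (x : ℝ) ^ 2 / y = 0 → x = 0 := by
      intro x y hy hx
      rcases div_eq_zero_iff.mp hx with h | h
      · exact_mod_cast pow_eq_zero_iff (two_ne_zero) |>.mp h
      · exact absurd h hy
    obtain ⟨m0, m1, m2, m3⟩ := m
    simp only [Prod.mk_eq_zero]
    exact ⟨key _ _ ha z0, key _ _ hb z1, key _ _ hc z2, key _ _ hd z3⟩
  · rintro rfl
    simp [NN]

omit [NeZero a] [NeZero b] [NeZero c] [NeZero d] in
theorem NN_neg (m : Z4) : NN a b c d (-m) = NN a b c d m := by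
  simp [NN]

omit [NeZero a] [NeZero b] [NeZero c] [NeZero d] in
theorem proj_neg (m : Z4) : proj a b c d (-m) = - proj a b c d m := by
  simp [proj]

end four

theorem even_card_of_involution {α : Type*} (σ : α → α) (h1 : Function.Involutive σ)
    (h2 : ∀ x, σ x ≠ x) : Even (Nat.card α) := by
  classical
  cases finite_or_infinite α with
  | inr h => simp
  | inl h =>
    have := Fintype.ofFinite α
    rw [Nat.card_eq_fintype_card]
    have h3 : ((Fintype.card α : ℕ) : ZMod 2) = 0 := by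
      have := Finset.sum_involution (s := Finset.univ) (f := fun _ : α => (1 : ZMod 2))
        (fun x _ => σ x) (fun _ _ => by decide) (fun x _ _ => h2 x) (fun _ _ => Finset.mem_univ _)
        (fun x _ => h1 x)
      simpa using this
    exact (ZMod.natCast_eq_zero_iff_even).mp h3

end QE

open QE in
theorem Th_indicator_hasSum (a b c d : ℕ) [NeZero a] [NeZero b] [NeZero c] [NeZero d]
    (M : AddSubgroup (DD a b c d)) (hM : ∀ u ∈ M, Qch a b c d u = 1) :
    ∃ r : ℕ → ℤ, ∀ z : ℍ,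
      HasSum (fun k : ℕ => (((if k = 0 then 1 else 2 * r k : ℤ)) : ℂ) * cexp (2 * π * I * k * z))
        (Th a b c d ((M : Set (DD a b c d)).indicator (fun _ => 1)) z) := by
  classical
  -- the lattice
  let L : Set Z4 := {m | proj a b c d m ∈ M}
  -- the norm
  have hN : ∀ m : L, ∃ k : ℕ, NN a b c d m = k := fun m => exists_nat a b c d m (hM _ m.2)
  choose g hg using hN
  -- counts
  let R : ℕ → ℕ := fun k => Nat.card (g ⁻¹' {k})
  have hg0 : ∀ m : L, g m = 0 ↔ (m : Z4) = 0 := by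
    intro m
    rw [← NN_eq_zero_iff a b c d, hg m]
    simp
  have hR0 : R 0 = 1 := by
    change Nat.card (g ⁻¹' {0}) = 1
    rw [Nat.card_eq_one_iff_unique]
    constructor
    · constructor
      intro x y
      have hx : g x = 0 := x.2
      have hy : g y = 0 := y.2
      rw [hg0] at hx hy
      apply Subtype.ext
      apply Subtype.ext
      rw [hx, hy]
    · have h0 : (0 : Z4) ∈ L := by
        change proj a b c d 0 ∈ M
        have : proj a b c d 0 = 0 := by simp [proj]
        rw [this]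
        exact M.zero_mem
      exact ⟨⟨⟨0, h0⟩, (hg0 _).mpr rfl⟩⟩
  have hnegL : ∀ m : L, -(m : Z4) ∈ L := by
    intro m
    change proj a b c d (-(m : Z4)) ∈ M
    rw [proj_neg]
    exact M.neg_mem m.2
  have hgneg : ∀ m : L, g ⟨-(m : Z4), hnegL m⟩ = g m := by
    intro m
    have h1 := hg ⟨-(m : Z4), hnegL m⟩
    have h2 := hg m
    simp only [NN_neg] at h1
    rw [h1] at h2
    exact_mod_cast h2
  have hRk : ∀ k, k ≠ 0 → Even (R k) := by
    intro k hk
    refine even_card_of_involution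
      (fun m : (g ⁻¹' {k}) => ⟨⟨-((m : L) : Z4), hnegL m⟩, by
        have : g m = k := m.2
        change g _ = k
        rw [hgneg, this]⟩) ?_ ?_
    · intro m
      apply Subtype.ext
      apply Subtype.ext
      simp
    · intro m hm
      have h1 : -((m : L) : Z4) = ((m : L) : Z4) :=
        congrArg (fun x : (g ⁻¹' {k}) => ((x : L) : Z4)) hm
      have h2 : ((m : L) : Z4) = 0 := by
        obtain ⟨⟨⟨m0, m1, m2, m3⟩, _⟩, _⟩ := m
        simp only [Prod.neg_mk, Prod.mk.injEq] at h1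
        simp only [Prod.mk_eq_zero]
        omega
      have h3 : g m = k := m.2
      rw [(hg0 _).mpr h2] at h3
      exact hk h3.symm
  refine ⟨fun k => ((R k / 2 : ℕ) : ℤ), fun z => ?_⟩
  have h1 := hasSum_Th a b c d ((M : Set (DD a b c d)).indicator (fun _ => 1)) z
  have h2 : HasSum (fun m : L => cexp (2 * π * I * (g m) * z))
      (Th a b c d ((M : Set (DD a b c d)).indicator (fun _ => 1)) z) := by
    rw [← hasSum_subtype_iff_of_support_subset (s := L)] at h1
    · have e : (fun m : L => cexp (2 * π * I * (g m) * z)) =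
          ((fun m : Z4 => (M : Set (DD a b c d)).indicator (fun _ => (1 : ℂ)) (proj a b c d m) *
            E4 a b c d m z) ∘ ((↑) : L → Z4)) := by
        funext m
        have hm : proj a b c d m ∈ (M : Set (DD a b c d)) := m.2
        simp only [Function.comp_apply, Set.indicator_of_mem hm, one_mul, E4_eq, hg m]
        simp
      rw [e]
      exact h1
    · intro m hm
      by_contra hmL
      apply hm
      have : proj a b c d m ∉ (M : Set (DD a b c d)) := hmL
      simp only [Set.indicator_of_notMem this, zero_mul]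
  have h3 := h2.tsum_fiberwise g
  have e3 : (fun k : ℕ => (((if k = 0 then 1 else 2 * ((R k / 2 : ℕ) : ℤ) : ℤ)) : ℂ) *
      cexp (2 * π * I * k * z)) =
      fun k : ℕ => ∑' m : (g ⁻¹' {k}), cexp (2 * π * I * (g m) * z) := by
    funext k
    have e4 : ∀ m : (g ⁻¹' {k}), cexp (2 * π * I * (g m) * z) = cexp (2 * π * I * k * z) := by
      intro m
      have : g m = k := m.2
      rw [this]
    simp_rw [e4]
    rw [tsum_const, nsmul_eq_mul]
    congr 1
    by_cases hk : k = 0
    · subst hk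
      simp only [if_true]
      have : Nat.card (g ⁻¹' {0}) = 1 := hR0
      rw [this]
      simp
    · simp only [if_neg hk]
      have h5 : 2 * (R k / 2) = R k := Nat.two_mul_div_two_of_even (hRk k hk)
      have : Nat.card (g ⁻¹' {k}) = R k := rfl
      rw [this]
      exact_mod_cast congrArg (Nat.cast : ℕ → ℂ) h5
  rw [e3]
  exact h3

end Fermat.Agent.S16.Theta
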