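import Mathlib

/-!
# One-dimensional theta series with characteristic (S16, theta half, design B)

`th N r w = ∑_{n : ℤ} e((N n + r)² w / (2N))`, expressed through Mathlib's `jacobiTheta₂`.
-/

namespace Fermat.Agent.S16.Theta.OD

open Complex Real

lemma hasSum_of_forall_eq {ι : Type*} {f g : ι → ℂ} {a : ℂ} (h : ∀ n, f n = g n)
    (hg : HasSum g a) : HasSum f a := by
  rw [funext h]; exact hg

/-- the one-dimensional theta series `∑_n e((N n + r)^2 w / (2 N))`. -/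
noncomputable def th (N : ℕ) (r : ℤ) (w : ℂ) : ℂ :=
  cexp (2 * π * I * ((r : ℂ) ^ 2 / (2 * N)) * w) * jacobiTheta₂ (r * w) (N * w)

lemma th_hasSum {N : ℕ} (hN : 0 < N) (r : ℤ) {w : ℂ} (hw : 0 < w.im) :
    HasSum (fun n : ℤ => cexp (2 * π * I * (((N : ℂ) * n + r) ^ 2 / (2 * N)) * w)) (th N r w) := by
  have hN' : (N : ℂ) ≠ 0 := by exact_mod_cast hN.ne'
  have him : 0 < ((N : ℂ) * w).im := by
    rw [show ((N : ℂ) * w).im = N * w.im by simp]
    positivity
  have h := (hasSum_jacobiTheta₂_term (r * w) him).mul_left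
    (cexp (2 * π * I * ((r : ℂ) ^ 2 / (2 * N)) * w))
  have e : (fun n : ℤ => cexp (2 * π * I * (((N : ℂ) * n + r) ^ 2 / (2 * N)) * w)) =
      fun n : ℤ => cexp (2 * π * I * ((r : ℂ) ^ 2 / (2 * N)) * w) *
        jacobiTheta₂_term n (r * w) (N * w) := by
    funext n
    rw [jacobiTheta₂_term, ← Complex.exp_add]
    congr 1
    field_simp
    ring
  rw [e]
  exact h

/-- periodicity in the characteristic -/
lemma th_add_mul {N : ℕ} (hN : 0 < N) (r k : ℤ) {w : ℂ} (hw : 0 < w.im) :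
    th N (r + N * k) w = th N r w := by
  have h1 := th_hasSum hN (r + N * k) hw
  have h2 := th_hasSum hN r hw
  have h3 := (Equiv.addRight k).hasSum_iff.mpr h2
  refine h1.unique ?_
  convert h3 using 2 with n
  simp only [Function.comp, Equiv.coe_addRight]
  push_cast
  ring_nf

lemma th_neg {N : ℕ} (hN : 0 < N) (r : ℤ) {w : ℂ} (hw : 0 < w.im) :
    th N (-r) w = th N r w := by
  have h1 := th_hasSum hN (-r) hw
  have h2 := th_hasSum hN r hw
  have h3 := (Equiv.neg ℤ).hasSum_iff.mpr h2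
  refine h1.unique ?_
  convert h3 using 2 with n
  simp only [Function.comp, Equiv.neg_apply]
  push_cast
  ring_nf

/-- the `T`-transformation -/
lemma th_add_one {N : ℕ} (hN : 0 < N) (hev : Even N) (r : ℤ) {w : ℂ} (hw : 0 < w.im) :
    th N r (w + 1) = cexp (2 * π * I * ((r : ℂ) ^ 2 / (2 * N))) * th N r w := by
  have hN' : (N : ℂ) ≠ 0 := by exact_mod_cast hN.ne'
  have hw1 : 0 < (w + 1).im := by simpa using hw
  have h1 := th_hasSum hN r hw1
  have h2 := (th_hasSum hN r hw).mul_left (cexp (2 * π * I * ((r : ℂ) ^ 2 / (2 * N))))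
  refine h1.unique (hasSum_of_forall_eq (fun n => ?_) h2)
  obtain ⟨a, rfl⟩ := hev
  rw [← Complex.exp_add]
  have : cexp (2 * π * I * ((a * n ^ 2 + n * r : ℤ) : ℂ)) = 1 := by
    rw [show (2 * π * I * ((a * n ^ 2 + n * r : ℤ) : ℂ)) = ((a * n ^ 2 + n * r : ℤ) : ℂ) * (2 * π * I)
      by ring]
    exact Complex.exp_int_mul_two_pi_mul_I _
  have key : 2 * π * I * ((((a + a : ℕ) : ℂ) * n + r) ^ 2 / (2 * ((a + a : ℕ) : ℂ))) * (w + 1) =
      (2 * π * I * ((r : ℂ) ^ 2 / (2 * ((a + a : ℕ) : ℂ))) +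
        2 * π * I * ((((a + a : ℕ) : ℂ) * n + r) ^ 2 / (2 * ((a + a : ℕ) : ℂ))) * w) +
      2 * π * I * ((a * n ^ 2 + n * r : ℤ) : ℂ) := by
    have ha : (a : ℂ) ≠ 0 := by
      intro h
      apply hN'
      push_cast
      rw [h, add_zero]
    push_cast
    field_simp
    ring
  rw [key, Complex.exp_add _ (2 * π * I * ((a * n ^ 2 + n * r : ℤ) : ℂ)), this, mul_one]

/-- residue-class decomposition of `ℤ`. -/
def zmodDivEquiv (N : ℕ) [NeZero N] : ℤ ≃ ZMod N × ℤ where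
  toFun n := ((n : ZMod N), n / N)
  invFun p := N * p.2 + (p.1.val : ℤ)
  left_inv n := by
    simp only
    rw [ZMod.val_intCast]
    exact Int.mul_ediv_add_emod n N
  right_inv p := by
    obtain ⟨s, k⟩ := p
    have hN : (N : ℤ) ≠ 0 := by exact_mod_cast NeZero.ne N
    have h1 : (0 : ℤ) ≤ (s.val : ℤ) := by positivity
    have h2 : (s.val : ℤ) < N := by exact_mod_cast ZMod.val_lt s
    simp only [Prod.mk.injEq]
    constructor
    · push_cast
      simp
    · rw [Int.add_comm, Int.add_mul_ediv_left _ _ hN, Int.ediv_eq_zero_of_lt h1 h2, zero_add]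

lemma jacobiTheta₂_div_eq_sum {N : ℕ} [NeZero N] (r : ℤ) {w : ℂ} (hw : 0 < w.im) :
    jacobiTheta₂ (r / N) (w / N) =
      ∑ s : ZMod N, cexp (2 * π * I * ((r : ℂ) * (s.val : ℂ) / N)) * th N (s.val : ℤ) w := by
  have hN : 0 < N := Nat.pos_of_ne_zero (NeZero.ne N)
  have hN' : (N : ℂ) ≠ 0 := by exact_mod_cast hN.ne'
  have him : 0 < (w / (N : ℂ)).im := by
    rw [show (w / (N : ℂ)).im = w.im / N by
      rw [div_eq_mul_inv, div_eq_mul_inv, ← Complex.ofReal_natCast, ← Complex.ofReal_inv,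
        Complex.im_mul_ofReal]]
    positivity
  have h := hasSum_jacobiTheta₂_term ((r : ℂ) / N) him
  have h' := (zmodDivEquiv N).symm.hasSum_iff.mpr h
  have h'' := h'.prod_fiberwise (g := fun s : ZMod N =>
    cexp (2 * π * I * ((r : ℂ) * (s.val : ℂ) / N)) * th N (s.val : ℤ) w) (fun s => by
      refine hasSum_of_forall_eq (fun k => ?_)
        ((th_hasSum hN (s.val : ℤ) hw).mul_left (cexp (2 * π * I * ((r : ℂ) * (s.val : ℂ) / N))))
      simp only [Function.comp, zmodDivEquiv, Equiv.coe_fn_symm_mk, jacobiTheta₂_term]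
      have : cexp (2 * π * I * ((k * r : ℤ) : ℂ)) = 1 := by
        rw [show (2 * π * I * ((k * r : ℤ) : ℂ)) = ((k * r : ℤ) : ℂ) * (2 * π * I) by ring]
        exact Complex.exp_int_mul_two_pi_mul_I _
      rw [← Complex.exp_add, ← one_mul (cexp (_ + _)), ← this, ← Complex.exp_add, eq_comm,
        ← one_mul (cexp _), ← this, ← Complex.exp_add, ← one_mul (cexp _), ← this,
        ← Complex.exp_add]
      congr 1
      push_cast
      field_simp
      ring)
  exact h''.unique (hasSum_fintype _)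

/-- the universal half-integral weight factor; `eps w ^ 4 = - w ^ 2`. -/
noncomputable def eps (w : ℂ) : ℂ := 1 / (I / w) ^ (1 / 2 : ℂ)

lemma eps_pow_four {w : ℂ} (hw : w ≠ 0) : eps w ^ 4 = - w ^ 2 := by
  have h : ((I / w) ^ (1 / 2 : ℂ)) ^ 2 = I / w := by
    have := Complex.cpow_nat_inv_pow (I / w) (two_ne_zero)
    rw [show (1 / 2 : ℂ) = ((2 : ℕ) : ℂ)⁻¹ by norm_num]
    exact this
  rw [eps, div_pow, one_pow, show (4 : ℕ) = 2 * 2 from rfl, pow_mul, h, div_pow, I_sq]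
  field_simp

lemma prefactor_eq {N : ℕ} (hN : 0 < N) {w : ℂ} (hw : w ≠ 0) :
    1 / (-I * (N * (-1 / w))) ^ (1 / 2 : ℂ) = ((Real.sqrt N : ℝ) : ℂ)⁻¹ * eps w := by
  have hv : I / w ≠ 0 := div_ne_zero I_ne_zero hw
  have hNr : (0 : ℝ) < N := by exact_mod_cast hN
  have e1 : -I * (N * (-1 / w)) = ((N : ℝ) : ℂ) * (I / w) := by
    push_cast
    field_simp
  have hne : ((N : ℝ) : ℂ) * (I / w) ≠ 0 := mul_ne_zero (by exact_mod_cast hNr.ne') hv
  rw [e1, eps, Complex.cpow_def_of_ne_zero hne, Complex.log_ofReal_mul hNr hv,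
    Complex.cpow_def_of_ne_zero hv, add_mul, Complex.exp_add, Real.sqrt_eq_rpow,
    Complex.ofReal_cpow hNr.le, Complex.cpow_def_of_ne_zero (by exact_mod_cast hNr.ne'),
    Complex.ofReal_log hNr.le]
  push_cast
  field_simp

/-- the `S`-transformation -/
lemma th_S {N : ℕ} [NeZero N] (r : ℤ) {w : ℂ} (hw : 0 < w.im) :
    th N r (-1 / w) = ((Real.sqrt N : ℝ) : ℂ)⁻¹ * eps w *
      ∑ s : ZMod N, cexp (2 * π * I * ((r : ℂ) * (s.val : ℂ) / N)) * th N (s.val : ℤ) w := by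
  have hN : 0 < N := Nat.pos_of_ne_zero (NeZero.ne N)
  have hN' : (N : ℂ) ≠ 0 := by exact_mod_cast hN.ne'
  have hw0 : w ≠ 0 := by
    rintro rfl
    simp at hw
  rw [← prefactor_eq hN hw0, ← jacobiTheta₂_div_eq_sum r hw, th,
    jacobiTheta₂_functional_equation ((r : ℂ) * (-1 / w)) ((N : ℂ) * (-1 / w))]
  have e1 : (r : ℂ) * (-1 / w) / ((N : ℂ) * (-1 / w)) = r / N := by
    field_simp
  have e2 : -1 / ((N : ℂ) * (-1 / w)) = w / N := by
    field_simp
  rw [e1, e2]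
  have e3 : cexp (2 * π * I * ((r : ℂ) ^ 2 / (2 * N)) * (-1 / w)) *
      cexp (-π * I * ((r : ℂ) * (-1 / w)) ^ 2 / ((N : ℂ) * (-1 / w))) = 1 := by
    rw [← Complex.exp_add, Complex.exp_eq_one_iff]
    refine ⟨0, ?_⟩
    field_simp
    ring
  calc _ = (cexp (2 * π * I * ((r : ℂ) ^ 2 / (2 * N)) * (-1 / w)) *
      cexp (-π * I * ((r : ℂ) * (-1 / w)) ^ 2 / ((N : ℂ) * (-1 / w)))) *
      (1 / (-I * ((N : ℂ) * (-1 / w))) ^ (1 / 2 : ℂ) * jacobiTheta₂ (r / N) (w / N)) := by ring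
    _ = _ := by rw [e3, one_mul]

lemma th_differentiableAt {N : ℕ} (hN : 0 < N) (r : ℤ) {w : ℂ} (hw : 0 < w.im) :
    DifferentiableAt ℂ (th N r) w := by
  have him : 0 < ((N : ℂ) * w).im := by
    rw [show ((N : ℂ) * w).im = N * w.im by simp]
    positivity
  have h1 : DifferentiableAt ℂ (fun p : ℂ × ℂ => jacobiTheta₂ p.1 p.2) ((r : ℂ) * w, (N : ℂ) * w) :=
    (hasFDerivAt_jacobiTheta₂ _ him).differentiableAt
  have h2 : DifferentiableAt ℂ (fun w : ℂ => ((r : ℂ) * w, (N : ℂ) * w)) w := by fun_prop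
  have h3 := h1.comp w h2
  unfold th
  exact DifferentiableAt.mul (by fun_prop) h3

lemma norm_th_term (N : ℕ) (r n : ℤ) (w : ℂ) :
    ‖cexp (2 * π * I * (((N : ℂ) * n + r) ^ 2 / (2 * N)) * w)‖ =
      Real.exp (-(2 * π * (((N : ℝ) * n + r) ^ 2 / (2 * N)) * w.im)) := by
  rw [Complex.norm_exp]
  congr 1
  have : (((N : ℂ) * n + r) ^ 2 / (2 * N)) = (((((N : ℝ) * n + r) ^ 2 / (2 * N)) : ℝ) : ℂ) := by
    push_cast
    ring
  rw [this]
  generalize ((((N : ℝ) * n + r) ^ 2 / (2 * N)) : ℝ) = c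
  simp [Complex.mul_re, Complex.mul_im]

/-- boundedness at `i∞`. -/
lemma th_bounded {N : ℕ} (hN : 0 < N) (r : ℤ) :
    ∃ B : ℝ, ∀ w : ℂ, 1 ≤ w.im → ‖th N r w‖ ≤ B := by
  have hI : 0 < (I : ℂ).im := by simp
  have hs := (th_hasSum hN r hI).summable.norm
  refine ⟨∑' n : ℤ, ‖cexp (2 * π * I * (((N : ℂ) * n + r) ^ 2 / (2 * N)) * I)‖, fun w hw => ?_⟩
  have hw0 : 0 < w.im := lt_of_lt_of_le one_pos hw
  rw [← (th_hasSum hN r hw0).tsum_eq]
  refine tsum_of_norm_bounded hs.hasSum (fun n => ?_)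
  rw [norm_th_term, norm_th_term]
  apply Real.exp_le_exp.mpr
  simp only [I_im, mul_one, neg_le_neg_iff]
  have : 0 ≤ 2 * π * (((N : ℝ) * n + r) ^ 2 / (2 * N)) := by positivity
  nlinarith

/-- positivity at `w = i`. -/
lemma th_I_pos {N : ℕ} (hN : 0 < N) (r : ℤ) : ∃ x : ℝ, 0 < x ∧ th N r I = x := by
  have hI : 0 < (I : ℂ).im := by simp
  have h := th_hasSum hN r hI
  have e : (fun n : ℤ => cexp (2 * π * I * (((N : ℂ) * n + r) ^ 2 / (2 * N)) * I)) =
      fun n : ℤ => ((Real.exp (-(2 * π * (((N : ℝ) * n + r) ^ 2 / (2 * N)))) : ℝ) : ℂ) := by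
    funext n
    push_cast
    congr 1
    have := I_mul_I
    linear_combination (2 * π * (((N : ℂ) * n + r) ^ 2 / (2 * N))) * this
  rw [e] at h
  have hs : Summable fun n : ℤ => Real.exp (-(2 * π * (((N : ℝ) * n + r) ^ 2 / (2 * N)))) :=
    Complex.summable_ofReal.mp h.summable
  refine ⟨∑' n : ℤ, Real.exp (-(2 * π * (((N : ℝ) * n + r) ^ 2 / (2 * N)))),
    hs.tsum_pos (fun _ => (Real.exp_pos _).le) 0 (Real.exp_pos _), ?_⟩
  rw [Complex.ofReal_tsum]
  exact h.tsum_eq.symm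

/-! ### Versions indexed by `ZMod N` -/

/-- theta series with characteristic in `ZMod N` -/
noncomputable def thz (N : ℕ) (u : ZMod N) (w : ℂ) : ℂ := th N (u.val : ℤ) w

lemma thz_intCast {N : ℕ} [NeZero N] (r : ℤ) {w : ℂ} (hw : 0 < w.im) :
    thz N (r : ZMod N) w = th N r w := by
  have hN : 0 < N := Nat.pos_of_ne_zero (NeZero.ne N)
  rw [thz, ZMod.val_intCast, ← th_add_mul hN r (-(r / N)) hw]
  congr 1
  have := Int.mul_ediv_add_emod r N
  linarith

/-- the bicharacter `e(u v / N)` -/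
noncomputable def bz (N : ℕ) [NeZero N] (u v : ZMod N) : ℂ := ZMod.stdAddChar (u * v)

lemma bz_intCast {N : ℕ} [NeZero N] (r s : ℤ) :
    bz N (r : ZMod N) (s : ZMod N) = cexp (2 * π * I * ((r : ℂ) * s / N)) := by
  rw [bz, ← Int.cast_mul, ZMod.stdAddChar_coe]
  congr 1
  push_cast
  ring

/-- the quadratic character `e(u^2 / (2N))` (well defined for even `N`) -/
noncomputable def qz (N : ℕ) (u : ZMod N) : ℂ := cexp (2 * π * I * ((u.val : ℂ) ^ 2 / (2 * N)))

lemma qz_intCast {N : ℕ} [NeZero N] (hev : Even N) (r : ℤ) :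
    qz N (r : ZMod N) = cexp (2 * π * I * ((r : ℂ) ^ 2 / (2 * N))) := by
  have hN : 0 < N := Nat.pos_of_ne_zero (NeZero.ne N)
  have hN' : (N : ℂ) ≠ 0 := by exact_mod_cast hN.ne'
  obtain ⟨a, ha⟩ := hev
  have ha' : (N : ℂ) = a + a := by exact_mod_cast ha
  have ha0 : (a : ℂ) ≠ 0 := by
    intro h
    apply hN'
    rw [ha', h, add_zero]
  have h1 : (((r : ZMod N).val : ℕ) : ℂ) = ((r % N : ℤ) : ℂ) := by
    rw [← ZMod.val_intCast]
    simp
  have h2 : ((r % N : ℤ) : ℂ) = r - N * ((r / N : ℤ) : ℂ) := by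
    have := Int.mul_ediv_add_emod r N
    have h3 : ((N * (r / N) + r % N : ℤ) : ℂ) = r := by rw [this]
    push_cast at h3
    linear_combination h3
  set k : ℤ := r / N
  have : cexp (2 * π * I * ((a * k ^ 2 - k * r : ℤ) : ℂ)) = 1 := by
    rw [show (2 * π * I * ((a * k ^ 2 - k * r : ℤ) : ℂ)) = ((a * k ^ 2 - k * r : ℤ) : ℂ) * (2 * π * I)
      by ring]
    exact Complex.exp_int_mul_two_pi_mul_I _
  rw [qz, h1, h2, ← mul_one (cexp (2 * π * I * ((r : ℂ) ^ 2 / (2 * N)))), ← this, ← Complex.exp_add]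
  congr 1
  rw [ha']
  push_cast
  field_simp
  ring

lemma thz_add_one {N : ℕ} [NeZero N] (hev : Even N) (u : ZMod N) {w : ℂ} (hw : 0 < w.im) :
    thz N u (w + 1) = qz N u * thz N u w := by
  have hN : 0 < N := Nat.pos_of_ne_zero (NeZero.ne N)
  rw [thz, thz, qz, th_add_one hN hev _ hw]
  push_cast
  rfl

lemma thz_S {N : ℕ} [NeZero N] (u : ZMod N) {w : ℂ} (hw : 0 < w.im) :
    thz N u (-1 / w) = ((Real.sqrt N : ℝ) : ℂ)⁻¹ * eps w * ∑ s : ZMod N, bz N u s * thz N s w := by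
  rw [thz, th_S _ hw]
  congr 1
  refine Finset.sum_congr rfl fun s _ => ?_
  congr 1
  conv_rhs => rw [← ZMod.natCast_zmod_val u, ← ZMod.natCast_zmod_val s, ← Int.cast_natCast,
    ← Int.cast_natCast (R := ZMod N) s.val, bz_intCast]
  push_cast
  rfl

lemma bz_add_left {N : ℕ} [NeZero N] (u u' v : ZMod N) :
    bz N (u + u') v = bz N u v * bz N u' v := by
  rw [bz, bz, bz, add_mul, AddChar.map_add_eq_mul]

lemma bz_comm {N : ℕ} [NeZero N] (u v : ZMod N) : bz N u v = bz N v u := by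
  rw [bz, bz, mul_comm]

lemma qz_add {N : ℕ} [NeZero N] (hev : Even N) (u v : ZMod N) :
    qz N (u + v) = qz N u * qz N v * bz N u v := by
  have hN' : (N : ℂ) ≠ 0 := by exact_mod_cast NeZero.ne N
  obtain ⟨r, rfl⟩ := ZMod.intCast_surjective u
  obtain ⟨s, rfl⟩ := ZMod.intCast_surjective v
  rw [← Int.cast_add, qz_intCast hev, qz_intCast hev, qz_intCast hev, bz_intCast,
    ← Complex.exp_add, ← Complex.exp_add]
  congr 1
  push_cast
  field_simp
  ring

lemma qz_sq {N : ℕ} [NeZero N] (hev : Even N) (u : ZMod N) : qz N u ^ 2 = bz N u u := by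
  have hN' : (N : ℂ) ≠ 0 := by exact_mod_cast NeZero.ne N
  obtain ⟨r, rfl⟩ := ZMod.intCast_surjective u
  rw [qz_intCast hev, bz_intCast, ← Complex.exp_nat_mul]
  congr 1
  push_cast
  field_simp

end Fermat.Agent.S16.Theta.OD
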