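import Fermat.Agent.S16.Theta.Defs
import Fermat.Agent.S16.Theta.OneDim

/-!
# S16, theta half, design B: the analytic part (TH-W)

Bridging between `Defs.lean` and `OneDim.lean`, and the transformation formulas of `Th`.
-/

set_option autoImplicit false

namespace Fermat.Agent.S16.Theta

open Complex ModularForm
open UpperHalfPlane hiding I
open scoped Real MatrixGroups Manifold

/-! ### bridging lemmas -/

lemma th_hasSum {a : ℕ} (ha : 0 < a) (r : ℤ) {z : ℂ} (hz : 0 < z.im) :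
    HasSum (fun n : ℤ => cexp (2 * π * I * (((2 * (a : ℤ) * n + r) ^ 2 : ℤ) : ℂ) / (4 * a) * z))
      (OD.th (2 * a) r z) := by
  have ha' : (a : ℂ) ≠ 0 := by exact_mod_cast ha.ne'
  refine OD.hasSum_of_forall_eq (fun n => ?_) (OD.th_hasSum (N := 2 * a) (by positivity) r hz)
  congr 1
  push_cast
  field_simp
  ring

lemma th_eq {a : ℕ} (ha : 0 < a) (r : ℤ) {z : ℂ} (hz : 0 < z.im) :
    th a r z = OD.th (2 * a) r z := (th_hasSum ha r hz).tsum_eq

lemma th_summable {a : ℕ} (ha : 0 < a) (r : ℤ) {z : ℂ} (hz : 0 < z.im) :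
    Summable (fun n : ℤ => cexp (2 * π * I * (((2 * (a : ℤ) * n + r) ^ 2 : ℤ) : ℂ) / (4 * a) * z)) :=
  (th_hasSum ha r hz).summable

lemma th_hasSum' {a : ℕ} (ha : 0 < a) (r : ℤ) {z : ℂ} (hz : 0 < z.im) :
    HasSum (fun n : ℤ => cexp (2 * π * I * (((2 * (a : ℤ) * n + r) ^ 2 : ℤ) : ℂ) / (4 * a) * z))
      (th a r z) := by
  rw [th_eq ha r hz]; exact th_hasSum ha r hz

lemma th_add_period {a : ℕ} (ha : 0 < a) (r k : ℤ) {z : ℂ} (hz : 0 < z.im) :
    th a (r + 2 * a * k) z = th a r z := by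
  rw [th_eq ha _ hz, th_eq ha _ hz, ← OD.th_add_mul (N := 2 * a) (by positivity) r k hz]
  push_cast
  rfl

lemma th_neg {a : ℕ} (ha : 0 < a) (r : ℤ) {z : ℂ} (hz : 0 < z.im) :
    th a (-r) z = th a r z := by
  rw [th_eq ha _ hz, th_eq ha _ hz, OD.th_neg (N := 2 * a) (by positivity) r hz]

lemma thz_eq {a : ℕ} (ha : 0 < a) (u : ZMod (2 * a)) {z : ℂ} (hz : 0 < z.im) :
    thz a u z = OD.thz (2 * a) u z := th_eq ha _ hz

lemma thz_intCast {a : ℕ} [NeZero a] (r : ℤ) {z : ℂ} (hz : 0 < z.im) :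
    thz a (r : ZMod (2 * a)) z = th a r z := by
  have ha : 0 < a := Nat.pos_of_ne_zero (NeZero.ne a)
  rw [thz_eq ha _ hz, OD.thz_intCast r hz, th_eq ha _ hz]

lemma bch_eq {a : ℕ} [NeZero a] (u v : ZMod (2 * a)) : bch a u v = OD.bz (2 * a) u v := by
  conv_rhs => rw [← ZMod.natCast_zmod_val u, ← ZMod.natCast_zmod_val v, ← Int.cast_natCast,
    ← Int.cast_natCast (R := ZMod (2 * a)) v.val, OD.bz_intCast]
  rw [bch]
  congr 1
  push_cast
  ring

lemma qch_eq {a : ℕ} (u : ZMod (2 * a)) : qch a u = OD.qz (2 * a) u := by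
  rw [qch, OD.qz]
  congr 1
  push_cast
  ring

lemma bch_intCast {a : ℕ} [NeZero a] (m n : ℤ) :
    bch a (m : ZMod (2 * a)) (n : ZMod (2 * a)) = cexp (2 * π * I * ((m : ℂ) * n) / (2 * a)) := by
  rw [bch_eq, OD.bz_intCast]
  congr 1
  push_cast
  ring

lemma qch_intCast {a : ℕ} [NeZero a] (m : ℤ) :
    qch a (m : ZMod (2 * a)) = cexp (2 * π * I * ((m : ℂ) ^ 2) / (4 * a)) := by
  rw [qch_eq, OD.qz_intCast (even_two_mul a)]
  congr 1
  push_cast
  ring

lemma bch_add_left {a : ℕ} [NeZero a] (u u' v : ZMod (2 * a)) :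
    bch a (u + u') v = bch a u v * bch a u' v := by
  simp only [bch_eq, OD.bz_add_left]

lemma bch_comm {a : ℕ} [NeZero a] (u v : ZMod (2 * a)) : bch a u v = bch a v u := by
  simp only [bch_eq, OD.bz_comm u v]

lemma qch_add {a : ℕ} [NeZero a] (u v : ZMod (2 * a)) :
    qch a (u + v) = qch a u * qch a v * bch a u v := by
  simp only [bch_eq, qch_eq, OD.qz_add (even_two_mul a)]

lemma qch_sq {a : ℕ} [NeZero a] (u : ZMod (2 * a)) : qch a u ^ 2 = bch a u u := by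
  simp only [bch_eq, qch_eq, OD.qz_sq (even_two_mul a)]

/-! ### the four-fold products -/

lemma sum4 {α β γ δ : Type*} [Fintype α] [Fintype β] [Fintype γ] [Fintype δ]
    (A : α → ℂ) (B : β → ℂ) (C : γ → ℂ) (D : δ → ℂ) :
    (∑ s, A s) * (∑ s, B s) * (∑ s, C s) * (∑ s, D s) =
      ∑ s : α × β × γ × δ, A s.1 * B s.2.1 * C s.2.2.1 * D s.2.2.2 := by
  simp only [Fintype.sum_prod_type, ← Finset.mul_sum, ← Finset.sum_mul]

section Weil
variable (a b c d : ℕ) [NeZero a] [NeZero b] [NeZero c] [NeZero d]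

lemma th4_add_one (u : DD a b c d) {z : ℂ} (hz : 0 < z.im) :
    th4 a b c d u (z + 1) = Qch a b c d u * th4 a b c d u z := by
  have hz1 : 0 < (z + 1).im := by simpa using hz
  have ha : 0 < a := Nat.pos_of_ne_zero (NeZero.ne a)
  have hb : 0 < b := Nat.pos_of_ne_zero (NeZero.ne b)
  have hc : 0 < c := Nat.pos_of_ne_zero (NeZero.ne c)
  have hd : 0 < d := Nat.pos_of_ne_zero (NeZero.ne d)
  simp only [th4, Qch, thz_eq ha _ hz, thz_eq hb _ hz, thz_eq hc _ hz, thz_eq hd _ hz,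
    thz_eq ha _ hz1, thz_eq hb _ hz1, thz_eq hc _ hz1, thz_eq hd _ hz1, qch_eq,
    OD.thz_add_one (even_two_mul _) _ hz]
  ring

lemma th4_S (N : ℕ) (hN : N ^ 2 = 16 * (a * b * c * d)) (u : DD a b c d) {z : ℂ}
    (hz : 0 < z.im) :
    th4 a b c d u (-1 / z) =
      -(z ^ 2 / (N : ℂ)) * ∑ v : DD a b c d, Bch a b c d u v * th4 a b c d v z := by
  have hz0 : z ≠ 0 := by
    rintro rfl
    simp at hz
  have hz1 : 0 < (-1 / z).im := by
    rw [neg_div, one_div, Complex.neg_im, Complex.inv_im]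
    have : 0 < Complex.normSq z := Complex.normSq_pos.mpr hz0
    rw [neg_div, neg_neg]
    positivity
  have ha : 0 < a := Nat.pos_of_ne_zero (NeZero.ne a)
  have hb : 0 < b := Nat.pos_of_ne_zero (NeZero.ne b)
  have hc : 0 < c := Nat.pos_of_ne_zero (NeZero.ne c)
  have hd : 0 < d := Nat.pos_of_ne_zero (NeZero.ne d)
  have hsq : Real.sqrt ((2 * a : ℕ) : ℝ) * Real.sqrt ((2 * b : ℕ) : ℝ) * Real.sqrt ((2 * c : ℕ) : ℝ) *
      Real.sqrt ((2 * d : ℕ) : ℝ) = N := by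
    rw [← Real.sqrt_mul (by positivity), ← Real.sqrt_mul (by positivity),
      ← Real.sqrt_mul (by positivity)]
    have : (((2 * a : ℕ) : ℝ) * ((2 * b : ℕ) : ℝ) * ((2 * c : ℕ) : ℝ) * ((2 * d : ℕ) : ℝ)) =
        (N : ℝ) ^ 2 := by
      have h : ((N ^ 2 : ℕ) : ℝ) = ((16 * (a * b * c * d) : ℕ) : ℝ) := by rw [hN]
      push_cast at h ⊢
      rw [h]
      ring
    rw [this, Real.sqrt_sq (by positivity)]
  have hsq' : ((Real.sqrt ((2 * a : ℕ) : ℝ) : ℝ) : ℂ) * ((Real.sqrt ((2 * b : ℕ) : ℝ) : ℝ) : ℂ) *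
      ((Real.sqrt ((2 * c : ℕ) : ℝ) : ℝ) : ℂ) * ((Real.sqrt ((2 * d : ℕ) : ℝ) : ℝ) : ℂ) = N := by
    exact_mod_cast hsq
  have key : ∑ v : DD a b c d, Bch a b c d u v * th4 a b c d v z =
      (∑ s, OD.bz (2 * a) u.1 s * OD.thz (2 * a) s z) *
      (∑ s, OD.bz (2 * b) u.2.1 s * OD.thz (2 * b) s z) *
      (∑ s, OD.bz (2 * c) u.2.2.1 s * OD.thz (2 * c) s z) *
      (∑ s, OD.bz (2 * d) u.2.2.2 s * OD.thz (2 * d) s z) := by
    rw [sum4]
    refine Finset.sum_congr rfl fun v _ => ?_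
    simp only [th4, Bch, thz_eq ha _ hz, thz_eq hb _ hz, thz_eq hc _ hz, thz_eq hd _ hz, bch_eq]
    ring
  rw [key]
  simp only [th4, thz_eq ha _ hz1, thz_eq hb _ hz1, thz_eq hc _ hz1, thz_eq hd _ hz1,
    OD.thz_S _ hz]
  have he := OD.eps_pow_four hz0
  have hN0 : (N : ℂ) ≠ 0 := by
    intro h
    have : N = 0 := by exact_mod_cast h
    rw [this] at hN
    have : 0 < 16 * (a * b * c * d) := by positivity
    omega
  generalize (∑ s, OD.bz (2 * a) u.1 s * OD.thz (2 * a) s z) = A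
  generalize (∑ s, OD.bz (2 * b) u.2.1 s * OD.thz (2 * b) s z) = B
  generalize (∑ s, OD.bz (2 * c) u.2.2.1 s * OD.thz (2 * c) s z) = C
  generalize (∑ s, OD.bz (2 * d) u.2.2.2 s * OD.thz (2 * d) s z) = D
  rw [← hsq'] at hN0 ⊢
  generalize ((Real.sqrt ((2 * a : ℕ) : ℝ) : ℝ) : ℂ) = sa at hN0 ⊢
  generalize ((Real.sqrt ((2 * b : ℕ) : ℝ) : ℝ) : ℂ) = sb at hN0 ⊢
  generalize ((Real.sqrt ((2 * c : ℕ) : ℝ) : ℝ) : ℂ) = sc at hN0 ⊢
  generalize ((Real.sqrt ((2 * d : ℕ) : ℝ) : ℝ) : ℂ) = sd at hN0 ⊢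
  have h1 : sa ≠ 0 := by rintro rfl; simp at hN0
  have h2 : sb ≠ 0 := by rintro rfl; simp at hN0
  have h3 : sc ≠ 0 := by rintro rfl; simp at hN0
  have h4 : sd ≠ 0 := by rintro rfl; simp at hN0
  field_simp
  linear_combination (A * B * C * D) * he

theorem Th_T (φ : DD a b c d → ℂ) :
    Th a b c d φ ∣[(2 : ℤ)] ModularGroup.T = Th a b c d (fun u => Qch a b c d u * φ u) := by
  ext z
  rw [SL_slash_apply, modular_T_smul]
  have hden : denom (ModularGroup.T : SL(2, ℤ)) z = 1 := by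
    rw [ModularGroup.denom_apply]; simp [ModularGroup.T]
  rw [hden, one_zpow, mul_one]
  simp only [Th]
  refine Finset.sum_congr rfl fun u _ => ?_
  have : (((1 : ℝ) +ᵥ z : ℍ) : ℂ) = (z : ℂ) + 1 := by
    rw [coe_vadd]
    push_cast
    ring
  rw [this, th4_add_one a b c d u z.im_pos]
  ring

theorem Th_S (N : ℕ) (hN : N ^ 2 = 16 * (a * b * c * d)) (φ : DD a b c d → ℂ) :
    Th a b c d φ ∣[(2 : ℤ)] ModularGroup.S =
      Th a b c d (fun v => -(1 / (N : ℂ)) * ∑ u, φ u * Bch a b c d u v) := by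
  ext z
  rw [SL_slash_apply, modular_S_smul, ModularGroup.denom_S]
  simp only [Th]
  have hz0 : (z : ℂ) ≠ 0 := ne_zero z
  have : (-(z : ℂ))⁻¹ = -1 / (z : ℂ) := by
    field_simp
  rw [this]
  simp only [th4_S a b c d N hN _ z.im_pos]
  rw [Finset.sum_mul]
  simp only [Finset.mul_sum, Finset.sum_mul]
  rw [Finset.sum_comm]
  refine Finset.sum_congr rfl fun v _ => Finset.sum_congr rfl fun u _ => ?_
  rw [show ((-2 : ℤ)) = -((2 : ℕ) : ℤ) by norm_num, zpow_neg, zpow_natCast]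
  field_simp

theorem Th_mdiff (φ : DD a b c d → ℂ) : MDiff (Th a b c d φ) := by
  have ha : 0 < a := Nat.pos_of_ne_zero (NeZero.ne a)
  have hb : 0 < b := Nat.pos_of_ne_zero (NeZero.ne b)
  have hc : 0 < c := Nat.pos_of_ne_zero (NeZero.ne c)
  have hd : 0 < d := Nat.pos_of_ne_zero (NeZero.ne d)
  rw [mdifferentiable_iff]
  have h : DifferentiableOn ℂ (fun w : ℂ => ∑ u : DD a b c d, φ u *
      (OD.thz (2 * a) u.1 w * OD.thz (2 * b) u.2.1 w * OD.thz (2 * c) u.2.2.1 w *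
        OD.thz (2 * d) u.2.2.2 w)) {z | 0 < z.im} := by
    intro w hw
    apply DifferentiableAt.differentiableWithinAt
    have h1 : ∀ (N : ℕ) (_ : 0 < N) (s : ZMod N), DifferentiableAt ℂ (OD.thz N s) w :=
      fun N hN s => OD.th_differentiableAt hN _ hw
    refine DifferentiableAt.fun_sum fun u _ => DifferentiableAt.const_mul ?_ _
    exact (((h1 (2 * a) (by positivity) _).mul (h1 (2 * b) (by positivity) _)).mul
      (h1 (2 * c) (by positivity) _)).mul (h1 (2 * d) (by positivity) _)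
  refine h.congr fun w hw => ?_
  have hw' : 0 < w.im := hw
  simp only [Function.comp, Th, th4, ofComplex_apply_of_im_pos hw', coe_mk, thz_eq ha _ hw',
    thz_eq hb _ hw', thz_eq hc _ hw', thz_eq hd _ hw']

lemma thz_bdd {a : ℕ} [NeZero a] (u : ZMod (2 * a)) :
    IsBoundedAtImInfty (fun z : ℍ => thz a u z) := by
  have ha : 0 < a := Nat.pos_of_ne_zero (NeZero.ne a)
  rw [isBoundedAtImInfty_iff]
  obtain ⟨B, hB⟩ := OD.th_bounded (N := 2 * a) (by positivity) (u.val : ℤ)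
  refine ⟨B, 1, fun z hz => ?_⟩
  rw [thz_eq ha _ z.im_pos]
  exact hB z hz

theorem Th_bdd (φ : DD a b c d → ℂ) : IsBoundedAtImInfty (Th a b c d φ) := by
  have h : ∀ u : DD a b c d, IsBoundedAtImInfty (fun z : ℍ => φ u * th4 a b c d u z) := by
    intro u
    have h0 : IsBoundedAtImInfty (fun _ : ℍ => φ u) := Filter.const_boundedAtFilter _ _
    exact h0.mul ((((thz_bdd u.1).mul (thz_bdd u.2.1)).mul (thz_bdd u.2.2.1)).mul
      (thz_bdd u.2.2.2))
  have := Asymptotics.IsBigO.sum (s := Finset.univ) fun u _ => h u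
  have e : Th a b c d φ = ∑ u : DD a b c d, fun z : ℍ => φ u * th4 a b c d u z := by
    ext z
    simp [Th]
  rw [e]
  exact this

end Weil

end Fermat.Agent.S16.Theta
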