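/-
S16, theta half, DESIGN B: final assembly (package TH-MF).
-/
import Fermat.Agent.S16.Theta.Lattice
import Fermat.Agent.S16.Theta.Weil
import Fermat.Agent.S16.Theta.AuxPrime
import Fermat.Agent.S16.Theta.QExp
import Fermat.Agent.S16.P1Family
import Fermat.Prelude.Thm_CongruenceSubgroup_one_mem_strictPeriods_Gamma0

set_option autoImplicit false

namespace Fermat.Agent.S16.Theta

open Complex ModularForm
open UpperHalfPlane hiding I
open scoped Real MatrixGroups Manifold

lemma slash_S_S (f : ℍ → ℂ) :
    (f ∣[(2 : ℤ)] ModularGroup.S) ∣[(2 : ℤ)] ModularGroup.S = f := by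
  rw [← SlashAction.slash_mul]
  have : ModularGroup.S * ModularGroup.S = (-1 : SL(2, ℤ)) := by
    ext i j
    fin_cases i <;> fin_cases j <;>
      simp [ModularGroup.coe_S, Matrix.mul_apply, Fin.sum_univ_two]
  rw [this]
  ext z
  rw [SL_slash_apply]
  simp [UpperHalfPlane.denom]

section family

variable {p : ℕ} [Fact p.Prime] {a b c d : ℕ} [NeZero a] [NeZero b] [NeZero c] [NeZero d]

/-- the family of test functions -/
noncomputable def famPhi (F : FinData p (DD a b c d)) : Option (ZMod p) → DD a b c d → ℂ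
  | none => (F.M : Set (DD a b c d)).indicator (fun _ => 1)
  | some j => (F.M' : Set (DD a b c d)).indicator (fun u => -(1 / (p : ℂ)) * F.ψ u ^ j.val)

theorem p1Family_Th (F : FinData p (DD a b c d)) (hβ : F.β = Bch a b c d) (hψ : F.ψ = Qch a b c d)
    (N : ℕ) (hN : N ^ 2 = 16 * (a * b * c * d)) (hcard : N = p * Nat.card F.M) :
    P1Family p 2 (fun x => Th a b c d (famPhi F x)) := by
  have hp0 : (p : ℂ) ≠ 0 := Nat.cast_ne_zero.mpr (Fact.out : p.Prime).ne_zero
  have hN0 : N ≠ 0 := by
    intro h
    rw [h] at hN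
    have h1 := NeZero.ne a
    have h2 := NeZero.ne b
    have h3 := NeZero.ne c
    have h4 := NeZero.ne d
    have : a * b * c * d ≠ 0 := by positivity
    omega
  have hM0 : (Nat.card F.M : ℂ) ≠ 0 := by
    intro h
    apply hN0
    rw [hcard]
    have : Nat.card F.M = 0 := by exact_mod_cast h
    rw [this, mul_zero]
  have hNc : (N : ℂ) = (p : ℂ) * (Nat.card F.M : ℂ) := by rw [hcard]; push_cast; ring
  have S_none : Th a b c d (famPhi F none) ∣[(2 : ℤ)] ModularGroup.S =
      Th a b c d (famPhi F (some 0)) := by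
    rw [Th_S a b c d N hN]
    congr 1
    funext v
    have := F.sum_M v
    rw [hβ] at this
    simp only [famPhi]
    rw [this]
    by_cases hv : v ∈ F.M'
    · rw [Set.indicator_of_mem (by exact hv), Set.indicator_of_mem (by exact hv), hNc]
      simp only [ZMod.val_zero, pow_zero, mul_one]
      field_simp
    · rw [Set.indicator_of_notMem (by exact hv), Set.indicator_of_notMem (by exact hv), mul_zero]
  refine P1Family.mk' ?_ ?_ S_none ?_ ?_
  · -- T none
    rw [Th_T]
    congr 1
    funext u
    simp only [famPhi]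
    by_cases hu : u ∈ F.M
    · rw [Set.indicator_of_mem (by exact hu), ← hψ, F.ψ_M u hu, one_mul]
    · rw [Set.indicator_of_notMem (by exact hu), mul_zero]
  · -- T some
    intro j
    rw [Th_T]
    congr 1
    funext u
    simp only [famPhi]
    by_cases hu : u ∈ F.M'
    · rw [Set.indicator_of_mem (by exact hu), Set.indicator_of_mem (by exact hu), ← hψ,
        ← F.ψ_mul_pow j u hu]
      ring
    · rw [Set.indicator_of_notMem (by exact hu), Set.indicator_of_notMem (by exact hu), mul_zero]
  · -- S zero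
    rw [← S_none, slash_S_S]
  · -- S some
    intro j hj
    rw [Th_S a b c d N hN]
    congr 1
    funext v
    have := F.sum_M' j hj v
    rw [hβ] at this
    simp only [famPhi]
    have h1 : ∀ u, (F.M' : Set (DD a b c d)).indicator
        (fun u => -(1 / (p : ℂ)) * F.ψ u ^ j.val) u * Bch a b c d u v =
        -(1 / (p : ℂ)) * ((F.M' : Set (DD a b c d)).indicator (fun u => F.ψ u ^ j.val) u *
          Bch a b c d u v) := by
      intro u
      by_cases hu : u ∈ F.M'
      · rw [Set.indicator_of_mem (by exact hu), Set.indicator_of_mem (by exact hu)]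
        ring
      · rw [Set.indicator_of_notMem (by exact hu), Set.indicator_of_notMem (by exact hu)]
        ring
    simp_rw [h1]
    rw [← Finset.mul_sum, this]
    by_cases hv : v ∈ F.M'
    · rw [Set.indicator_of_mem (by exact hv), Set.indicator_of_mem (by exact hv), hNc]
      field_simp
    · rw [Set.indicator_of_notMem (by exact hv), Set.indicator_of_notMem (by exact hv), mul_zero,
        mul_zero]

end family

theorem exists_theta (p : ℕ) [Fact p.Prime] (hp : p ≠ 2) :
    ∃ θ : ModularForm (CongruenceSubgroup.Gamma0 p) 2,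
      (qExpansion 1 θ).coeff 0 = 1 ∧
        ∀ k : ℕ, 1 ≤ k → ∃ m : ℤ, (qExpansion 1 θ).coeff k = 2 * (m : ℂ) := by
  obtain ⟨q, c, hq, hq4, hqp, hns, hc⟩ := exists_aux p hp
  have : NeZero q := ⟨hq.ne_zero⟩
  have : NeZero p := ⟨(Fact.out : p.Prime).ne_zero⟩
  obtain ⟨F, hβ, hψ, hM, hM'⟩ := exists_finData p q c hp hq hq4 hqp hns hc
  have hcard : Nat.card F.M = 4 * q := by rw [hM]; exact card_latM p q c hp hq hq4 hqp hc
  have hfam := p1Family_Th F hβ hψ (4 * p * q) (by ring) (by rw [hcard]; ring)
  obtain ⟨θ, hθ⟩ := hfam.exists_modularForm (Th_mdiff _ _ _ _ _) (fun x => Th_bdd _ _ _ _ _)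
  obtain ⟨r, hr⟩ := Th_indicator_hasSum 1 q p (p * q) F.M (fun u hu => by rw [← hψ]; exact F.ψ_M u hu)
  have hsum : ∀ τ : ℍ, HasSum (fun m : ℕ => (((if m = 0 then 1 else 2 * r m : ℤ)) : ℂ) •
      Function.Periodic.qParam 1 τ ^ m) (θ τ) := by
    intro τ
    have h1 := hr τ
    have h2 : θ τ = Th 1 q p (p * q) ((F.M : Set (DD 1 q p (p * q))).indicator (fun _ => 1)) τ := by
      rw [hθ]; rfl
    rw [h2]
    convert h1 using 2 with m
    rw [smul_eq_mul, Function.Periodic.qParam, ← Complex.exp_nat_mul]
    congr 2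
    simp
    ring
  have hco := fun m => ModularFormClass.qExpansion_coeff_unique (f := θ) one_pos
    (CongruenceSubgroup.one_mem_strictPeriods_Gamma0 p) hsum m
  refine ⟨θ, ?_, ?_⟩
  · rw [← hco 0]; simp
  · intro k hk
    refine ⟨r k, ?_⟩
    rw [← hco k]
    have : k ≠ 0 := by omega
    simp [this]

end Fermat.Agent.S16.Theta
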