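import Mathlib

set_option autoImplicit false

open Complex Real

namespace Fermat.Agent.S16.Theta

/-! ### One-dimensional facts -/

theorem summable_exp_neg_mul_int_sq {a : ℝ} (ha : 0 < a) :
    Summable fun n : ℤ => rexp (-a * (n : ℝ) ^ 2) := by
  have h := (summable_jacobiTheta₂_term_iff 0 ((a / π : ℝ) * I)).mpr (by simp; positivity)
  have h2 := h.norm
  refine h2.congr fun n => ?_
  rw [norm_jacobiTheta₂_term]
  congr 1
  simp
  field_simp

/-- Uniform bound for shifted Gaussians. -/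
theorem exists_bound_gauss {a : ℝ} (ha : 0 < a) :
    ∃ C : ℝ, ∀ σ : ℝ, Summable (fun n : ℤ => rexp (-a * ((n : ℝ) + σ) ^ 2)) ∧
      ∑' n : ℤ, rexp (-a * ((n : ℝ) + σ) ^ 2) ≤ C := by
  have hs : Summable fun n : ℤ => rexp a * rexp (-(a / 2) * (n : ℝ) ^ 2) :=
    (summable_exp_neg_mul_int_sq (half_pos ha)).mul_left _
  refine ⟨∑' n : ℤ, rexp a * rexp (-(a / 2) * (n : ℝ) ^ 2), fun σ => ?_⟩
  set σ' := Int.fract σ with hσ'
  set m := ⌊σ⌋ with hm
  have h0 : 0 ≤ σ' := Int.fract_nonneg σ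
  have h1 : σ' < 1 := Int.fract_lt_one σ
  have hle : ∀ k : ℤ, rexp (-a * ((k : ℝ) + σ') ^ 2) ≤ rexp a * rexp (-(a / 2) * (k : ℝ) ^ 2) := by
    intro k
    rw [← Real.exp_add, Real.exp_le_exp]
    have h2 : σ' ^ 2 ≤ 1 := by nlinarith
    nlinarith [sq_nonneg ((k : ℝ) + 2 * σ'), mul_nonneg ha.le (sq_nonneg ((k : ℝ) + 2 * σ')),
      mul_le_mul_of_nonneg_left h2 ha.le]
  have hg : Summable fun k : ℤ => rexp (-a * ((k : ℝ) + σ') ^ 2) :=
    Summable.of_nonneg_of_le (fun _ => (Real.exp_pos _).le) hle hs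
  have heq : (fun n : ℤ => rexp (-a * ((n : ℝ) + σ) ^ 2)) =
      (fun k : ℤ => rexp (-a * ((k : ℝ) + σ') ^ 2)) ∘ (Equiv.addRight m) := by
    funext n
    simp only [Function.comp, Equiv.coe_addRight]
    have : (n : ℝ) + σ = ((n + m : ℤ) : ℝ) + σ' := by
      have := Int.floor_add_fract σ
      push_cast
      rw [hσ', hm]
      linarith
    rw [this]
  rw [heq]
  refine ⟨(Equiv.summable_iff _).mpr hg, ?_⟩
  have h3 := (Equiv.addRight m).tsum_eq (fun k : ℤ => rexp (-a * ((k : ℝ) + σ') ^ 2))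
  calc tsum ((fun k : ℤ => rexp (-a * ((k : ℝ) + σ') ^ 2)) ∘ (Equiv.addRight m))
      = ∑' k : ℤ, rexp (-a * ((k : ℝ) + σ') ^ 2) := h3
    _ ≤ _ := hg.tsum_le_tsum hle hs

/-- One-dimensional Poisson summation for a Gaussian with real shift `σ` and real phase `s`. -/
theorem poisson1 {w : ℂ} (hw : 0 < w.im) {d : ℝ} (hd : 0 < d) (σ s : ℝ) :
    ∑' n : ℤ, cexp (π * I * w * d * ((n : ℂ) + σ) ^ 2 + 2 * π * I * s * n) =
      1 / (-I * w * d) ^ (1 / 2 : ℂ) *
        ∑' m : ℤ, cexp (-π * I * ((m : ℂ) - s) ^ 2 / (w * d) + 2 * π * I * ((m : ℂ) - s) * σ) := by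
  have hw0 : w ≠ 0 := by
    rintro rfl
    simp at hw
  have hd0 : (d : ℂ) ≠ 0 := by exact_mod_cast hd.ne'
  have ha : 0 < (-I * w * d).re := by
    have : (-I * w * d).re = w.im * d := by simp
    rw [this]; positivity
  have key := Complex.tsum_exp_neg_quadratic ha (I * (w * d * σ + s))
  calc ∑' n : ℤ, cexp (π * I * w * d * ((n : ℂ) + σ) ^ 2 + 2 * π * I * s * n)
      = cexp (π * I * w * d * σ ^ 2) *
          ∑' n : ℤ, cexp (-π * (-I * w * d) * (n : ℂ) ^ 2 + 2 * π * (I * (w * d * σ + s)) * n) := by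
        rw [← tsum_mul_left]
        congr 1
        funext n
        rw [← Complex.exp_add]
        congr 1
        ring
    _ = cexp (π * I * w * d * σ ^ 2) * (1 / (-I * w * d) ^ (1 / 2 : ℂ) *
          ∑' n : ℤ, cexp (-π / (-I * w * d) * ((n : ℂ) + I * (I * (w * d * σ + s))) ^ 2)) := by
        rw [key]
    _ = 1 / (-I * w * d) ^ (1 / 2 : ℂ) * ∑' n : ℤ, (cexp (π * I * w * d * σ ^ 2) *
          cexp (-π / (-I * w * d) * ((n : ℂ) + I * (I * (w * d * σ + s))) ^ 2)) := by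
        rw [tsum_mul_left]
        ring
    _ = _ := by
        congr 2
        funext m
        rw [← Complex.exp_add]
        congr 1
        have hI : I * I = -1 := I_mul_I
        have h1 : (m : ℂ) + I * (I * (w * d * σ + s)) = (m : ℂ) - s - w * d * σ := by
          rw [← mul_assoc, hI]; ring
        have h2 : -(π : ℂ) / (-I * w * d) = -π * I / (w * d) := by
          field_simp
          rw [show I ^ 2 = -1 from I_sq]
          norm_num
        rw [h1, h2]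
        field_simp
        ring

theorem norm_gauss1 (w : ℂ) (d t : ℝ) :
    ‖cexp (π * I * w * d * (t : ℂ) ^ 2)‖ = rexp (-(π * w.im * d) * t ^ 2) := by
  rw [Complex.norm_exp]
  congr 1
  have : (π : ℂ) * I * w * d * (t : ℂ) ^ 2 = ((π * d * t ^ 2 : ℝ) : ℂ) * (I * w) := by
    push_cast; ring
  rw [this, re_ofReal_mul]
  simp
  ring

theorem norm_gauss2 (w : ℂ) (d t : ℝ) :
    ‖cexp (-π * I * (t : ℂ) ^ 2 / (w * d))‖ = rexp (-(π * (w.im / normSq w) / d) * t ^ 2) := by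
  rw [Complex.norm_exp]
  congr 1
  have : -(π : ℂ) * I * (t : ℂ) ^ 2 / (w * d) = ((-(π * t ^ 2 / d) : ℝ) : ℂ) * (I * w⁻¹) := by
    push_cast
    rw [div_eq_mul_inv, mul_inv]
    ring
  rw [this, re_ofReal_mul]
  simp [Complex.inv_im]
  ring

theorem norm_phase (r : ℝ) : ‖cexp (2 * π * I * (r : ℂ))‖ = 1 := by
  have : (2 : ℂ) * π * I * (r : ℂ) = ((2 * π * r : ℝ) : ℂ) * I := by push_cast; ring
  rw [this, Complex.norm_exp_ofReal_mul_I]

/-! ### Summability on products -/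

theorem summable_mul_of_bound' {α β : Type*} (g : α → ℝ) (ψ : α → β → ℝ) (hg : ∀ a, 0 ≤ g a)
    (hψ : ∀ a b, 0 ≤ ψ a b) (C : ℝ) (h1 : ∀ a, Summable (ψ a)) (h2 : ∀ a, ∑' b, ψ a b ≤ C)
    (hgs : Summable g) :
    Summable (fun p : α × β => g p.1 * ψ p.1 p.2) ∧
      ∑' p : α × β, g p.1 * ψ p.1 p.2 ≤ (∑' a, g a) * C := by
  have hle : ∀ a, ∑' b, g a * ψ a b ≤ g a * C := fun a => by
    rw [tsum_mul_left]
    exact mul_le_mul_of_nonneg_left (h2 a) (hg a)
  have hs2 : Summable fun a => ∑' b, g a * ψ a b :=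
    Summable.of_nonneg_of_le (fun a => tsum_nonneg fun b => mul_nonneg (hg a) (hψ a b)) hle
      (hgs.mul_right C)
  have hs : Summable (fun p : α × β => g p.1 * ψ p.1 p.2) := by
    have hnn : (0 : α × β → ℝ) ≤ fun p : α × β => g p.1 * ψ p.1 p.2 :=
      fun p => mul_nonneg (hg p.1) (hψ p.1 p.2)
    exact (summable_prod_of_nonneg hnn).mpr ⟨fun a => (h1 a).mul_left (g a), hs2⟩
  refine ⟨hs, ?_⟩
  have e1 : ∑' p : α × β, g p.1 * ψ p.1 p.2 = ∑' a, ∑' b, g a * ψ a b :=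
    hs.tsum_prod (f := fun p : α × β => g p.1 * ψ p.1 p.2)
  rw [e1]
  calc ∑' a, ∑' b, g a * ψ a b ≤ ∑' a, g a * C := hs2.tsum_le_tsum hle (hgs.mul_right C)
    _ = (∑' a, g a) * C := tsum_mul_right

theorem summable_mul_of_bound {α β : Type*} (φ : α → β → ℝ) (N : β → ℝ) (hφ : ∀ a b, 0 ≤ φ a b)
    (hN : ∀ b, 0 ≤ N b) (C : ℝ) (h1 : ∀ b, Summable (fun a => φ a b))
    (h2 : ∀ b, ∑' a, φ a b ≤ C) (hNs : Summable N) :
    Summable (fun p : α × β => φ p.1 p.2 * N p.2) := by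
  have h := (summable_mul_of_bound' N (fun b a => φ a b) hN (fun b a => hφ a b) C h1 h2 hNs).1
  have h3 := (Equiv.prodComm α β).summable_iff.mpr h
  refine h3.congr fun p => ?_
  simp [mul_comm]

/-! ### Theta pairs -/

/-- A "theta pair": a summable family `F` on `X`, a family `G s` on `Y` depending on a phase
parameter `s : P`, related by a Poisson-type identity. -/
structure IsTP {X Y P : Type} [AddCommGroup P] [Module ℝ P] (pair : P → X → ℝ) (F : X → ℂ)
    (G : P → Y → ℂ) (c : ℂ) : Prop where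
  lin : ∀ (s u : P) (t : ℝ) (x : X), pair (s + t • u) x = pair s x + t * pair u x
  sumF : Summable (fun x => ‖F x‖)
  bddG : ∃ C : ℝ, ∀ s, Summable (fun y => ‖G s y‖) ∧ ∑' y, ‖G s y‖ ≤ C
  eq : ∀ s, ∑' x, F x * cexp (2 * π * I * ((pair s x : ℝ) : ℂ)) = c * ∑' y, G s y

theorem isTP_base : IsTP (X := Unit) (Y := Unit) (P := Unit) (fun _ _ => 0) (fun _ => 1)
    (fun _ _ => 1) 1 where
  lin := by intros; simp
  sumF := (hasSum_fintype _).summable
  bddG := ⟨1, fun _ => ⟨(hasSum_fintype _).summable, by simp⟩⟩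
  eq := by intro s; simp

section extend

variable {X Y P : Type} [AddCommGroup P] [Module ℝ P] {pair : P → X → ℝ} {F : X → ℂ}
  {G : P → Y → ℂ} {c : ℂ}

theorem IsTP.extend (h : IsTP pair F G c) {w : ℂ} (hw : 0 < w.im) {d : ℝ} (hd : 0 < d) (u : P) :
    IsTP (X := ℤ × X) (Y := ℤ × Y) (P := ℝ × P)
      (fun s x => s.1 * (x.1 : ℝ) + pair s.2 x.2)
      (fun x => cexp (π * I * w * d * ((x.1 : ℂ) + ((pair u x.2 : ℝ) : ℂ)) ^ 2) * F x.2)
      (fun s y => cexp (-π * I * ((y.1 : ℂ) - ((s.1 : ℝ) : ℂ)) ^ 2 / (w * d)) *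
        G (s.2 + ((y.1 : ℝ) - s.1) • u) y.2)
      (1 / (-I * w * d) ^ (1 / 2 : ℂ) * c) := by
  have hw0 : w ≠ 0 := by
    rintro rfl
    simp at hw
  have hnsq : 0 < normSq w := normSq_pos.mpr hw0
  have ha1 : 0 < π * w.im * d := by positivity
  have ha2 : 0 < π * (w.im / normSq w) / d := by positivity
  obtain ⟨C1, hC1⟩ := exists_bound_gauss ha1
  obtain ⟨C2, hC2⟩ := exists_bound_gauss ha2
  obtain ⟨CG, hCG⟩ := h.bddG
  -- norms
  have hn1 : ∀ (n : ℤ) (σ : ℝ), ‖cexp (π * I * w * d * ((n : ℂ) + (σ : ℂ)) ^ 2)‖ =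
      rexp (-(π * w.im * d) * ((n : ℝ) + σ) ^ 2) := by
    intro n σ
    have := norm_gauss1 w d ((n : ℝ) + σ)
    push_cast at this
    exact this
  have hn2 : ∀ (m : ℤ) (s : ℝ), ‖cexp (-π * I * ((m : ℂ) - (s : ℂ)) ^ 2 / (w * d))‖ =
      rexp (-(π * (w.im / normSq w) / d) * ((m : ℝ) + (-s)) ^ 2) := by
    intro m s
    have := norm_gauss2 w d ((m : ℝ) + (-s))
    push_cast at this
    rw [← this]
    congr 3
  -- summability of the new `F`
  have hsumF : Summable (fun x : ℤ × X =>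
      ‖cexp (π * I * w * d * ((x.1 : ℂ) + ((pair u x.2 : ℝ) : ℂ)) ^ 2) * F x.2‖) := by
    have := summable_mul_of_bound
      (fun (n : ℤ) (x : X) => rexp (-(π * w.im * d) * ((n : ℝ) + pair u x) ^ 2))
      (fun x => ‖F x‖) (fun _ _ => (Real.exp_pos _).le) (fun _ => norm_nonneg _) C1
      (fun x => (hC1 (pair u x)).1) (fun x => (hC1 (pair u x)).2) h.sumF
    refine this.congr fun x => ?_
    rw [norm_mul, hn1]
  -- summability of the new `G`
  have hsumG : ∀ s : ℝ × P, Summable (fun y : ℤ × Y =>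
      ‖cexp (-π * I * ((y.1 : ℂ) - ((s.1 : ℝ) : ℂ)) ^ 2 / (w * d)) *
        G (s.2 + ((y.1 : ℝ) - s.1) • u) y.2‖) ∧
      ∑' y : ℤ × Y, ‖cexp (-π * I * ((y.1 : ℂ) - ((s.1 : ℝ) : ℂ)) ^ 2 / (w * d)) *
        G (s.2 + ((y.1 : ℝ) - s.1) • u) y.2‖ ≤ C2 * CG := by
    intro s
    have := summable_mul_of_bound'
      (fun (m : ℤ) => rexp (-(π * (w.im / normSq w) / d) * ((m : ℝ) + (-s.1)) ^ 2))
      (fun (m : ℤ) (y : Y) => ‖G (s.2 + ((m : ℝ) - s.1) • u) y‖)
      (fun _ => (Real.exp_pos _).le) (fun _ _ => norm_nonneg _) CG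
      (fun m => (hCG _).1) (fun m => (hCG _).2) (hC2 (-s.1)).1
    have hCG0 : 0 ≤ CG := le_trans (tsum_nonneg fun _ => norm_nonneg _) (hCG 0).2
    have hfun : (fun y : ℤ × Y => ‖cexp (-π * I * ((y.1 : ℂ) - ((s.1 : ℝ) : ℂ)) ^ 2 / (w * d)) *
        G (s.2 + ((y.1 : ℝ) - s.1) • u) y.2‖) = fun y : ℤ × Y =>
        rexp (-(π * (w.im / normSq w) / d) * ((y.1 : ℝ) + (-s.1)) ^ 2) *
          ‖G (s.2 + ((y.1 : ℝ) - s.1) • u) y.2‖ := by
      funext y
      rw [norm_mul, hn2]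
    rw [hfun]
    exact ⟨this.1, this.2.trans (mul_le_mul_of_nonneg_right (hC2 (-s.1)).2 hCG0)⟩
  refine ⟨?_, hsumF, ⟨C2 * CG, hsumG⟩, ?_⟩
  · intro s u' t x
    simp only [Prod.fst_add, Prod.snd_add, Prod.smul_fst, Prod.smul_snd, smul_eq_mul, h.lin]
    ring
  · rintro ⟨s0, s'⟩
    simp only
    set κ : ℂ := 1 / (-I * w * d) ^ (1 / 2 : ℂ) with hκ
    -- the three families
    let A : ℤ → X → ℂ := fun n x =>
      cexp (π * I * w * d * ((n : ℂ) + ((pair u x : ℝ) : ℂ)) ^ 2) * F x *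
        cexp (2 * π * I * ((s0 * (n : ℝ) + pair s' x : ℝ) : ℂ))
    let B : X → ℤ → ℂ := fun x m =>
      F x * cexp (2 * π * I * ((pair s' x : ℝ) : ℂ)) *
        cexp (-π * I * ((m : ℂ) - (s0 : ℂ)) ^ 2 / (w * d) +
          2 * π * I * ((m : ℂ) - (s0 : ℂ)) * ((pair u x : ℝ) : ℂ))
    have hA : Summable (Function.uncurry A) := by
      apply Summable.of_norm
      refine hsumF.congr fun x => ?_
      simp only [Function.uncurry, A]
      rw [norm_mul _ (cexp (2 * π * I * _)), norm_phase, mul_one]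
    have hB : Summable (Function.uncurry B) := by
      apply Summable.of_norm
      have h1 := (h.sumF.mul_of_nonneg (hC2 (-s0)).1 (fun _ => norm_nonneg _)
        (fun _ => (Real.exp_pos _).le))
      refine h1.congr fun x => ?_
      simp only [Function.uncurry, B]
      rw [norm_mul, norm_mul, norm_phase, mul_one, Complex.exp_add, norm_mul, hn2]
      have : (2 : ℂ) * π * I * ((x.2 : ℂ) - (s0 : ℂ)) * ((pair u x.1 : ℝ) : ℂ) =
          2 * π * I * ((((x.2 : ℝ) - s0) * pair u x.1 : ℝ) : ℂ) := by push_cast; ring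
      rw [this, norm_phase, mul_one]
    have step1 : ∑' x : ℤ × X, cexp (π * I * w * d * ((x.1 : ℂ) + ((pair u x.2 : ℝ) : ℂ)) ^ 2) *
        F x.2 * cexp (2 * π * I * ((s0 * (x.1 : ℝ) + pair s' x.2 : ℝ) : ℂ)) =
        ∑' x : X, ∑' n : ℤ, A n x := by
      rw [hA.tsum_comm]
      exact hA.tsum_prod (f := Function.uncurry A)
    have step2 : ∀ x : X, ∑' n : ℤ, A n x = κ * ∑' m : ℤ, B x m := by
      intro x
      have hp := poisson1 hw hd (pair u x) s0
      calc ∑' n : ℤ, A n x = F x * cexp (2 * π * I * ((pair s' x : ℝ) : ℂ)) *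
            ∑' n : ℤ, cexp (π * I * w * d * ((n : ℂ) + ((pair u x : ℝ) : ℂ)) ^ 2 +
              2 * π * I * s0 * n) := by
            rw [← tsum_mul_left]
            congr 1
            funext n
            simp only [A]
            rw [Complex.exp_add]
            have : cexp (2 * π * I * ((s0 * (n : ℝ) + pair s' x : ℝ) : ℂ)) =
                cexp (2 * π * I * s0 * n) * cexp (2 * π * I * ((pair s' x : ℝ) : ℂ)) := by
              rw [← Complex.exp_add]
              congr 1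
              push_cast
              ring
            rw [this]
            ring
        _ = κ * ∑' m : ℤ, B x m := by
            rw [hp, ← tsum_mul_left, ← tsum_mul_left, ← tsum_mul_left]
            congr 1
            funext m
            simp only [B]
            ring
    have step3 : ∑' x : X, ∑' m : ℤ, B x m = ∑' m : ℤ, ∑' x : X, B x m := hB.tsum_comm.symm
    have step4 : ∀ m : ℤ, ∑' x : X, B x m =
        c * ∑' y : Y, cexp (-π * I * ((m : ℂ) - (s0 : ℂ)) ^ 2 / (w * d)) *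
          G (s' + ((m : ℝ) - s0) • u) y := by
      intro m
      have he := h.eq (s' + ((m : ℝ) - s0) • u)
      rw [tsum_mul_left, mul_left_comm, ← he, ← tsum_mul_left]
      congr 1
      funext x
      simp only [B]
      rw [h.lin, Complex.exp_add]
      have : cexp (2 * π * I * ((pair s' x + ((m : ℝ) - s0) * pair u x : ℝ) : ℂ)) =
          cexp (2 * π * I * ((pair s' x : ℝ) : ℂ)) *
            cexp (2 * π * I * ((m : ℂ) - (s0 : ℂ)) * ((pair u x : ℝ) : ℂ)) := by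
        rw [← Complex.exp_add]
        congr 1
        push_cast
        ring
      rw [this]
      ring
    have hG' := (hsumG (s0, s')).1.of_norm
    have step5 : ∑' y : ℤ × Y, cexp (-π * I * ((y.1 : ℂ) - (s0 : ℂ)) ^ 2 / (w * d)) *
        G (s' + ((y.1 : ℝ) - s0) • u) y.2 =
        ∑' m : ℤ, ∑' y : Y, cexp (-π * I * ((m : ℂ) - (s0 : ℂ)) ^ 2 / (w * d)) *
          G (s' + ((m : ℝ) - s0) • u) y := hG'.tsum_prod
    rw [step1, step5]
    simp_rw [step2]
    rw [tsum_mul_left, step3]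
    simp_rw [step4]
    rw [tsum_mul_left]
    ring

end extend

/-! ### The constant -/

theorem cpow_half_mul_ofReal {x : ℂ} (hx : x ≠ 0) {d : ℝ} (hd : 0 < d) :
    (x * d) ^ (1 / 2 : ℂ) = x ^ (1 / 2 : ℂ) * ((Real.sqrt d : ℝ) : ℂ) := by
  have hd0 : (d : ℂ) ≠ 0 := by exact_mod_cast hd.ne'
  rw [mul_comm x, Complex.cpow_def_of_ne_zero (mul_ne_zero hd0 hx), Complex.log_ofReal_mul hd hx,
    Complex.cpow_def_of_ne_zero hx, add_mul, Complex.exp_add, mul_comm]
  congr 1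
  rw [Real.sqrt_eq_rpow, Real.rpow_def_of_pos hd]
  push_cast
  rfl

theorem const_eq {w : ℂ} (hw : 0 < w.im) {d0 d1 d2 d3 : ℝ} (h0 : 0 < d0) (h1 : 0 < d1)
    (h2 : 0 < d2) (h3 : 0 < d3) :
    1 / (-I * w * d0) ^ (1 / 2 : ℂ) * (1 / (-I * w * d1) ^ (1 / 2 : ℂ) *
      (1 / (-I * w * d2) ^ (1 / 2 : ℂ) * (1 / (-I * w * d3) ^ (1 / 2 : ℂ) * 1))) =
      -1 / (w ^ 2 * ((Real.sqrt (d0 * d1 * d2 * d3) : ℝ) : ℂ)) := by
  have hw0 : w ≠ 0 := by
    rintro rfl
    simp at hw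
  have hx : -I * w ≠ 0 := mul_ne_zero (neg_ne_zero.mpr I_ne_zero) hw0
  rw [cpow_half_mul_ofReal hx h0, cpow_half_mul_ofReal hx h1, cpow_half_mul_ofReal hx h2,
    cpow_half_mul_ofReal hx h3]
  set r := (-I * w) ^ (1 / 2 : ℂ) with hr
  have hr2 : r ^ 2 = -I * w := by
    rw [hr, ← Complex.cpow_nat_mul]
    norm_num
  have hr4 : r ^ 4 = -w ^ 2 := by
    have : r ^ 4 = (r ^ 2) ^ 2 := by ring
    rw [this, hr2, mul_pow, neg_sq, I_sq]
    ring
  have hr0 : r ≠ 0 := by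
    intro h
    rw [h] at hr2
    exact hx (by rw [← hr2]; simp)
  have hs : Real.sqrt (d0 * d1 * d2 * d3) =
      Real.sqrt d0 * Real.sqrt d1 * Real.sqrt d2 * Real.sqrt d3 := by
    rw [Real.sqrt_mul (by positivity), Real.sqrt_mul (by positivity), Real.sqrt_mul h0.le]
  have hsq : ∀ {d : ℝ}, 0 < d → ((Real.sqrt d : ℝ) : ℂ) ≠ 0 := fun {d} hd => by
    exact_mod_cast (Real.sqrt_pos.mpr hd).ne'
  have := hsq h0
  have := hsq h1
  have := hsq h2
  have := hsq h3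
  rw [hs]
  push_cast
  have hw2 : w ^ 2 = - r ^ 4 := by rw [hr4]; ring
  rw [hw2]
  field_simp

/-! ### Four variables -/

/-- Completed-square (`LDLᵀ`) data of a positive definite quaternary quadratic form. -/
structure Tri4 where
  d : Fin 4 → ℝ
  d_pos : ∀ i, 0 < d i
  u01 : ℝ
  u02 : ℝ
  u03 : ℝ
  u12 : ℝ
  u13 : ℝ
  u23 : ℝ

namespace Tri4

variable (T : Tri4)

/-- The quadratic form. -/
def q (x : Fin 4 → ℝ) : ℝ :=
  T.d 0 * (x 0 + T.u01 * x 1 + T.u02 * x 2 + T.u03 * x 3) ^ 2 +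
    T.d 1 * (x 1 + T.u12 * x 2 + T.u13 * x 3) ^ 2 + T.d 2 * (x 2 + T.u23 * x 3) ^ 2 +
    T.d 3 * (x 3) ^ 2

def e0 (_T : Tri4) (t : Fin 4 → ℝ) : ℝ := t 0
def e1 (t : Fin 4 → ℝ) : ℝ := t 1 - T.u01 * T.e0 t
def e2 (t : Fin 4 → ℝ) : ℝ := t 2 - T.u02 * T.e0 t - T.u12 * T.e1 t
def e3 (t : Fin 4 → ℝ) : ℝ := t 3 - T.u03 * T.e0 t - T.u13 * T.e1 t - T.u23 * T.e2 t

/-- The dual quadratic form (if `q x = xᵀ M x` then `qd t = tᵀ M⁻¹ t`). -/
noncomputable def qd (t : Fin 4 → ℝ) : ℝ :=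
  T.e0 t ^ 2 / T.d 0 + T.e1 t ^ 2 / T.d 1 + T.e2 t ^ 2 / T.d 2 + T.e3 t ^ 2 / T.d 3

/-- Reindexing. -/
def tupleEquiv : (Fin 4 → ℤ) ≃ ℤ × ℤ × ℤ × ℤ × Unit where
  toFun x := (x 0, x 1, x 2, x 3, ())
  invFun t := ![t.1, t.2.1, t.2.2.1, t.2.2.2.1]
  left_inv x := by
    funext i
    fin_cases i <;> rfl
  right_inv t := rfl

theorem tupleEquiv_apply (x : Fin 4 → ℤ) : tupleEquiv x = (x 0, x 1, x 2, x 3, ()) := rfl

theorem inversion {w : ℂ} (hw : 0 < w.im) (s : Fin 4 → ℝ) :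
    ∑' x : Fin 4 → ℤ, cexp (π * I * w * (T.q (fun i => (x i : ℝ)) : ℝ) +
        2 * π * I * ((∑ i, s i * (x i : ℝ) : ℝ) : ℂ)) =
      -1 / (w ^ 2 * ((Real.sqrt (T.d 0 * T.d 1 * T.d 2 * T.d 3) : ℝ) : ℂ)) *
        ∑' y : Fin 4 → ℤ, cexp (-π * I / w * (T.qd (fun i => (y i : ℝ) - s i) : ℝ)) := by
  have h := ((((isTP_base.extend hw (T.d_pos 3) ()).extend hw (T.d_pos 2) (T.u23, ())).extend hw
    (T.d_pos 1) (T.u12, T.u13, ())).extend hw (T.d_pos 0) (T.u01, T.u02, T.u03, ())).eq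
    (s 0, s 1, s 2, s 3, ())
  rw [const_eq hw (T.d_pos 0) (T.d_pos 1) (T.d_pos 2) (T.d_pos 3)] at h
  rw [← tupleEquiv.tsum_eq, ← tupleEquiv.tsum_eq] at h
  have hw0 : w ≠ 0 := by
    rintro rfl
    simp at hw
  have hd : ∀ i, (T.d i : ℂ) ≠ 0 := fun i => by exact_mod_cast (T.d_pos i).ne'
  refine Eq.trans (tsum_congr fun x => ?_) (h.trans (congrArg _ (tsum_congr fun y => ?_)))
  · simp only [tupleEquiv_apply, ← Complex.exp_add, mul_one]
    congr 1
    simp only [q, Fin.sum_univ_four]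
    push_cast
    ring
  · simp only [tupleEquiv_apply, ← Complex.exp_add, mul_one, Prod.fst_add, Prod.snd_add,
      Prod.smul_fst, Prod.smul_snd, smul_eq_mul]
    congr 1
    simp only [qd, e0, e1, e2, e3]
    push_cast
    have := hd 0
    have := hd 1
    have := hd 2
    have := hd 3
    field_simp
    ring

theorem summable_norm_q {w : ℂ} (hw : 0 < w.im) (s : Fin 4 → ℝ) :
    Summable fun x : Fin 4 → ℤ => ‖cexp (π * I * w * (T.q (fun i => (x i : ℝ)) : ℝ) +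
        2 * π * I * ((∑ i, s i * (x i : ℝ) : ℝ) : ℂ))‖ := by
  have h := ((((isTP_base.extend hw (T.d_pos 3) ()).extend hw (T.d_pos 2) (T.u23, ())).extend hw
    (T.d_pos 1) (T.u12, T.u13, ())).extend hw (T.d_pos 0) (T.u01, T.u02, T.u03, ())).sumF
  have h2 := tupleEquiv.summable_iff.mpr h
  refine h2.congr fun x => ?_
  rw [Complex.exp_add, norm_mul, norm_phase, mul_one]
  simp only [Function.comp, tupleEquiv_apply, ← Complex.exp_add, mul_one]
  congr 2
  simp only [q]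
  push_cast
  ring

theorem summable_q {w : ℂ} (hw : 0 < w.im) (s : Fin 4 → ℝ) :
    Summable fun x : Fin 4 → ℤ => cexp (π * I * w * (T.q (fun i => (x i : ℝ)) : ℝ) +
        2 * π * I * ((∑ i, s i * (x i : ℝ) : ℝ) : ℂ)) :=
  (T.summable_norm_q hw s).of_norm

theorem summable_norm_qd {w : ℂ} (hw : 0 < w.im) (s : Fin 4 → ℝ) :
    Summable fun y : Fin 4 → ℤ => ‖cexp (-π * I / w * (T.qd (fun i => (y i : ℝ) - s i) : ℝ))‖ := by
  obtain ⟨C, hC⟩ := ((((isTP_base.extend hw (T.d_pos 3) ()).extend hw (T.d_pos 2)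
    (T.u23, ())).extend hw (T.d_pos 1) (T.u12, T.u13, ())).extend hw (T.d_pos 0)
    (T.u01, T.u02, T.u03, ())).bddG
  have h := (hC (s 0, s 1, s 2, s 3, ())).1
  have h2 := tupleEquiv.summable_iff.mpr h
  have hw0 : w ≠ 0 := by
    rintro rfl
    simp at hw
  have hd : ∀ i, (T.d i : ℂ) ≠ 0 := fun i => by exact_mod_cast (T.d_pos i).ne'
  refine h2.congr fun y => ?_
  simp only [Function.comp, tupleEquiv_apply, ← Complex.exp_add, mul_one, Prod.fst_add,
    Prod.snd_add, Prod.smul_fst, Prod.smul_snd, smul_eq_mul]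
  congr 2
  simp only [qd, e0, e1, e2, e3]
  push_cast
  have := hd 0
  have := hd 1
  have := hd 2
  have := hd 3
  field_simp
  ring

theorem summable_qd {w : ℂ} (hw : 0 < w.im) (s : Fin 4 → ℝ) :
    Summable fun y : Fin 4 → ℤ => cexp (-π * I / w * (T.qd (fun i => (y i : ℝ) - s i) : ℝ)) :=
  (T.summable_norm_qd hw s).of_norm

/-- Real Gaussian sums over the lattice converge. -/
theorem summable_exp_q {c : ℝ} (hc : 0 < c) :
    Summable fun x : Fin 4 → ℤ => rexp (-c * T.q (fun i => (x i : ℝ))) := by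
  have hw : 0 < ((c / π : ℝ) * I : ℂ).im := by simp; positivity
  have h := T.summable_norm_q hw 0
  refine h.congr fun x => ?_
  rw [Complex.norm_exp]
  congr 1
  have : (π : ℂ) * I * (((c / π : ℝ) : ℂ) * I) = ((-c : ℝ) : ℂ) := by
    have hpi : (π : ℂ) ≠ 0 := by exact_mod_cast Real.pi_ne_zero
    push_cast
    field_simp
    rw [I_sq]
    ring
  rw [this, ← Complex.ofReal_mul]
  simp

theorem summable_exp_qd {c : ℝ} (hc : 0 < c) (s : Fin 4 → ℝ) :
    Summable fun y : Fin 4 → ℤ => rexp (-c * T.qd (fun i => (y i : ℝ) - s i)) := by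
  have hw : 0 < ((π / c : ℝ) * I : ℂ).im := by simp; positivity
  have h := T.summable_norm_qd hw s
  refine h.congr fun y => ?_
  rw [Complex.norm_exp]
  congr 1
  have : -(π : ℂ) * I / (((π / c : ℝ) : ℂ) * I) = ((-c : ℝ) : ℂ) := by
    have hpi : (π : ℂ) ≠ 0 := by exact_mod_cast Real.pi_ne_zero
    have hc0 : (c : ℂ) ≠ 0 := by exact_mod_cast hc.ne'
    push_cast
    field_simp
  rw [this, ← Complex.ofReal_mul, Complex.ofReal_re]

theorem q_nonneg (x : Fin 4 → ℝ) : 0 ≤ T.q x := by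
  have := T.d_pos 0
  have := T.d_pos 1
  have := T.d_pos 2
  have := T.d_pos 3
  unfold q
  positivity

theorem qd_nonneg (t : Fin 4 → ℝ) : 0 ≤ T.qd t := by
  have := T.d_pos 0
  have := T.d_pos 1
  have := T.d_pos 2
  have := T.d_pos 3
  unfold qd
  positivity

theorem q_eq_zero_iff (x : Fin 4 → ℝ) : T.q x = 0 ↔ x = 0 := by
  have h0 := T.d_pos 0
  have h1 := T.d_pos 1
  have h2 := T.d_pos 2
  have h3 := T.d_pos 3
  constructor
  · intro h
    unfold q at h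
    have a0 : 0 ≤ T.d 0 * (x 0 + T.u01 * x 1 + T.u02 * x 2 + T.u03 * x 3) ^ 2 := by positivity
    have a1 : 0 ≤ T.d 1 * (x 1 + T.u12 * x 2 + T.u13 * x 3) ^ 2 := by positivity
    have a2 : 0 ≤ T.d 2 * (x 2 + T.u23 * x 3) ^ 2 := by positivity
    have a3 : 0 ≤ T.d 3 * (x 3) ^ 2 := by positivity
    have b3 : T.d 3 * (x 3) ^ 2 = 0 := by linarith
    have b2 : T.d 2 * (x 2 + T.u23 * x 3) ^ 2 = 0 := by linarith
    have b1 : T.d 1 * (x 1 + T.u12 * x 2 + T.u13 * x 3) ^ 2 = 0 := by linarith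
    have b0 : T.d 0 * (x 0 + T.u01 * x 1 + T.u02 * x 2 + T.u03 * x 3) ^ 2 = 0 := by linarith
    have c3 : x 3 = 0 := by
      rcases mul_eq_zero.mp b3 with h | h
      · exact absurd h h3.ne'
      · exact pow_eq_zero_iff (two_ne_zero) |>.mp h
    have c2 : x 2 = 0 := by
      rcases mul_eq_zero.mp b2 with h | h
      · exact absurd h h2.ne'
      · have := pow_eq_zero_iff (two_ne_zero) |>.mp h
        rw [c3] at this
        linarith
    have c1 : x 1 = 0 := by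
      rcases mul_eq_zero.mp b1 with h | h
      · exact absurd h h1.ne'
      · have := pow_eq_zero_iff (two_ne_zero) |>.mp h
        rw [c3, c2] at this
        linarith
    have c0 : x 0 = 0 := by
      rcases mul_eq_zero.mp b0 with h | h
      · exact absurd h h0.ne'
      · have := pow_eq_zero_iff (two_ne_zero) |>.mp h
        rw [c3, c2, c1] at this
        linarith
    funext i
    fin_cases i <;> simp [c0, c1, c2, c3]
  · rintro rfl
    simp [q]

end Tri4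

end Fermat.Agent.S16.Theta
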