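import Fermat.Agent.S16.P1Family

/-!
# S16, theta half, design B: from the Weil representation to a `P¹(𝔽_p)`-family

Abstract input: a finite abelian group `D` with a symmetric bicharacter `β`, a quadratic
character `ψ`, a "theta map" `Θ : (D → ℂ) → (ℍ → ℂ)` transforming under `S`, `T` by the Weil
representation with a *rational* constant `κ`, and a subgroup `M` with `ψ = 1` on `M` and
`ψ ^ p = 1` on `M^⊥`.  Output: a `P1Family p 2` whose member at `∞` is `Θ(1_M)`.

No cardinalities and no Gauss sums are needed: the constant `κ Γ(1)` is `1` because `(ST)³ = -1`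
("Milgram's formula"), and `Γ(j) = Γ(1)` because `Γ(1)` is rational (Galois conjugation).
-/

set_option autoImplicit false

namespace Fermat.Agent.S16.Theta.Milgram

open Complex ModularForm
open UpperHalfPlane hiding I
open scoped Real MatrixGroups Manifold

/-! ### Galois conjugation of sums of `p`-th roots of unity -/

lemma galois_sum {ι : Type*} (s : Finset ι) (x : ι → ℂ) (p : ℕ) [Fact p.Prime]
    (hx : ∀ i ∈ s, x i ^ p = 1) (r : ℚ) (h1 : ∑ i ∈ s, x i = r) (j : ℕ) (hj : ¬ p ∣ j) :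
    ∑ i ∈ s, x i ^ j = r := by
  have hp : p.Prime := Fact.out
  have hζ : IsPrimitiveRoot (cexp (2 * π * I / p)) p := Complex.isPrimitiveRoot_exp p hp.ne_zero
  set ζ := cexp (2 * π * I / p)
  have hex : ∀ i, ∃ k : ℕ, i ∈ s → ζ ^ k = x i := by
    intro i
    by_cases hi : i ∈ s
    · obtain ⟨k, -, hk⟩ := hζ.eq_pow_of_pow_eq_one (hx i hi)
      exact ⟨k, fun _ => hk⟩
    · exact ⟨0, fun h => absurd h hi⟩
  choose e he using hex
  let P : Polynomial ℚ := ∑ i ∈ s, Polynomial.X ^ (e i) - Polynomial.C r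
  have hP : ∀ y : ℂ, Polynomial.aeval y P = ∑ i ∈ s, y ^ (e i) - r := by
    intro y
    simp [P, map_sum]
  have h0 : Polynomial.aeval ζ P = 0 := by
    rw [hP, ← h1, sub_eq_zero]
    exact Finset.sum_congr rfl fun i hi => he i hi
  have hdvd : minpoly ℚ ζ ∣ P := minpoly.dvd ℚ ζ h0
  have hζj : IsPrimitiveRoot (ζ ^ j) p :=
    hζ.pow_of_coprime j ((Nat.Prime.coprime_iff_not_dvd hp).mpr hj).symm
  have hmin : minpoly ℚ ζ = minpoly ℚ (ζ ^ j) := by
    rw [← Polynomial.cyclotomic_eq_minpoly_rat hζ hp.pos,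
      ← Polynomial.cyclotomic_eq_minpoly_rat hζj hp.pos]
  have h2 : Polynomial.aeval (ζ ^ j) P = 0 :=
    Polynomial.aeval_eq_zero_of_dvd_aeval_eq_zero (hmin ▸ hdvd) (minpoly.aeval ℚ (ζ ^ j))
  rw [hP, sub_eq_zero] at h2
  rw [← h2]
  refine Finset.sum_congr rfl fun i hi => ?_
  rw [← he i hi, ← pow_mul, ← pow_mul, mul_comm]

/-! ### exponents modulo `p` -/

lemma pow_eq_of_zmod {x : ℂ} {p : ℕ} (hx : x ^ p = 1) {n m : ℕ} (h : (n : ZMod p) = m) :
    x ^ n = x ^ m := by
  rw [pow_eq_pow_mod n hx, pow_eq_pow_mod m hx, (ZMod.natCast_eq_natCast_iff' n m p).mp h]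

/-! ### the finite part -/

section Finite

variable {D : Type} [AddCommGroup D]

/-- The finite quadratic data. -/
structure IsQuad (β : D → D → ℂ) (ψ : D → ℂ) (M : AddSubgroup D) (p : ℕ) : Prop where
  β_add : ∀ u v w, β (u + v) w = β u w * β v w
  β_comm : ∀ u v, β u v = β v u
  ψ_add : ∀ u v, ψ (u + v) = ψ u * ψ v * β u v
  ψ_sq : ∀ u, ψ u ^ 2 = β u u
  ψ_M : ∀ m ∈ M, ψ m = 1
  ψ_pow : ∀ u, (∀ m ∈ M, β m u = 1) → ψ u ^ p = 1

variable {β : D → D → ℂ} {ψ : D → ℂ} {M : AddSubgroup D} {p : ℕ}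

lemma sum_eq_zero_of_shift [Fintype D] (f : D → ℂ) (m : D) (c : ℂ) (hc : c ≠ 1)
    (hf : ∀ u, f (m + u) = c * f u) : ∑ u, f u = 0 := by
  have h1 : ∑ u, f (m + u) = ∑ u, f u := Equiv.sum_comp (Equiv.addLeft m) f
  simp_rw [hf, ← Finset.mul_sum] at h1
  have : (c - 1) * ∑ u, f u = 0 := by linear_combination h1
  exact (mul_eq_zero.mp this).resolve_left (sub_ne_zero.mpr hc)

lemma ind_shift (S : AddSubgroup D) {m : D} (hm : m ∈ S) (f g : D → ℂ)
    (hfg : ∀ u ∈ S, f (m + u) = g u) (u : D) :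
    (S : Set D).indicator f (m + u) = (S : Set D).indicator g u := by
  by_cases hu : u ∈ S
  · rw [Set.indicator_of_mem (show u ∈ (S : Set D) from hu),
      Set.indicator_of_mem (show m + u ∈ (S : Set D) from S.add_mem hm hu), hfg u hu]
  · rw [Set.indicator_of_notMem (show u ∉ (S : Set D) from hu),
      Set.indicator_of_notMem
        (show m + u ∉ (S : Set D) from fun h' => hu ((S.add_mem_cancel_left hm).mp h'))]

namespace IsQuad

lemma β_M (h : IsQuad β ψ M p) {m m' : D} (hm : m ∈ M) (hm' : m' ∈ M) : β m m' = 1 := by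
  have := h.ψ_add m m'
  rw [h.ψ_M _ (M.add_mem hm hm'), h.ψ_M _ hm, h.ψ_M _ hm'] at this
  simpa using this.symm

/-- the orthogonal complement of `M`. -/
def perp (h : IsQuad β ψ M p) : AddSubgroup D where
  carrier := {u | ∀ m ∈ M, β m u = 1}
  zero_mem' := fun _ hm => h.β_M hm M.zero_mem
  add_mem' := fun {u v} hu hv m hm => by
    rw [h.β_comm, h.β_add, h.β_comm u, h.β_comm v, hu m hm, hv m hm, one_mul]
  neg_mem' := fun {u} hu m hm => by
    have h1 : β (-u + u) m = β (-u) m * β u m := h.β_add _ _ _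
    rw [neg_add_cancel, h.β_comm u, hu m hm, mul_one, h.β_M M.zero_mem hm] at h1
    rw [h.β_comm, ← h1]

lemma mem_perp (h : IsQuad β ψ M p) {u : D} : u ∈ h.perp ↔ ∀ m ∈ M, β m u = 1 := Iff.rfl

lemma le_perp (h : IsQuad β ψ M p) : M ≤ h.perp := fun _ hu _ hm => h.β_M hm hu

lemma ψ_pow' (h : IsQuad β ψ M p) {u : D} (hu : u ∈ h.perp) : ψ u ^ p = 1 := h.ψ_pow u hu

lemma β_pow (h : IsQuad β ψ M p) {u v : D} (hu : u ∈ h.perp) (hv : v ∈ h.perp) :
    β u v ^ p = 1 := by
  have := congrArg (· ^ p) (h.ψ_add u v)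
  simp only [mul_pow, h.ψ_pow' hu, h.ψ_pow' hv, h.ψ_pow' (h.perp.add_mem hu hv), one_mul] at this
  exact this.symm

lemma β_nsmul_right (h : IsQuad β ψ M p) {u : D} (hu : u ∈ h.perp) (v : D) (n : ℕ) :
    β u (n • v) = β u v ^ n := by
  induction n with
  | zero => rw [zero_smul, pow_zero, h.β_comm]; exact hu 0 M.zero_mem
  | succ n ih => rw [succ_nsmul, h.β_comm, h.β_add, h.β_comm _ u, h.β_comm v u, ih, pow_succ]

lemma ψ_nsmul (h : IsQuad β ψ M p) {v : D} (hv : v ∈ h.perp) (n : ℕ) :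
    ψ (n • v) = ψ v ^ (n ^ 2) := by
  induction n with
  | zero => rw [zero_smul]; simpa using h.ψ_M 0 M.zero_mem
  | succ n ih =>
    rw [succ_nsmul, h.ψ_add, ih, h.β_comm, h.β_nsmul_right hv, ← h.ψ_sq]
    ring

/-- `∑_{u ∈ M} β(u,v) = |M| 1_{M^⊥}(v)`. -/
lemma sum_M [Fintype D] (h : IsQuad β ψ M p) (v : D) :
    ∑ u, (M : Set D).indicator (fun _ => (1 : ℂ)) u * β u v =
      (∑ u, (M : Set D).indicator (fun _ => (1 : ℂ)) u) *
        (h.perp : Set D).indicator (fun _ => (1 : ℂ)) v := by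
  by_cases hv : v ∈ h.perp
  · rw [Set.indicator_of_mem (show v ∈ (h.perp : Set D) from hv), mul_one]
    refine Finset.sum_congr rfl fun u _ => ?_
    by_cases hu : u ∈ M
    · rw [hv u hu, mul_one]
    · rw [Set.indicator_of_notMem (show u ∉ (M : Set D) from hu), zero_mul]
  · rw [Set.indicator_of_notMem (show v ∉ (h.perp : Set D) from hv), mul_zero]
    have : ∃ m ∈ M, β m v ≠ 1 := by
      by_contra hcon
      push Not at hcon
      exact hv hcon
    obtain ⟨m, hm, hne⟩ := this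
    refine sum_eq_zero_of_shift _ m (β m v) hne fun u => ?_
    rw [ind_shift M hm _ (fun _ => (1 : ℂ)) (fun _ _ => rfl), h.β_add]
    ring

/-- the Gauss sum `Γ(j) = ∑_{u ∈ M^⊥} ψ(u)^j`. -/
noncomputable def Gam [Fintype D] (h : IsQuad β ψ M p) (j : ZMod p) : ℂ :=
  ∑ u, (h.perp : Set D).indicator (fun u => ψ u ^ j.val) u

lemma sum_perp [Fintype D] [Fact p.Prime] (h : IsQuad β ψ M p) (j : ZMod p) (hj : j ≠ 0) (v : D) :
    ∑ u, (h.perp : Set D).indicator (fun u => ψ u ^ j.val) u * β u v =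
      h.Gam j * (h.perp : Set D).indicator (fun v => ψ v ^ (-j⁻¹).val) v := by
  by_cases hv : v ∈ h.perp
  · rw [Set.indicator_of_mem (show v ∈ (h.perp : Set D) from hv)]
    set t : D := (j⁻¹).val • v with ht
    have htm : t ∈ h.perp := h.perp.nsmul_mem hv _
    have key : ∀ u, ψ t ^ j.val * ((h.perp : Set D).indicator (fun u => ψ u ^ j.val) u * β u v) =
        (h.perp : Set D).indicator (fun u => ψ u ^ j.val) (t + u) := by
      intro u
      rw [ind_shift h.perp htm _ (fun u => ψ t ^ j.val * (ψ u ^ j.val * β u v))]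
      · by_cases hu : u ∈ h.perp
        · rw [Set.indicator_of_mem (show u ∈ (h.perp : Set D) from hu),
            Set.indicator_of_mem (show u ∈ (h.perp : Set D) from hu)]
        · rw [Set.indicator_of_notMem (show u ∉ (h.perp : Set D) from hu),
            Set.indicator_of_notMem (show u ∉ (h.perp : Set D) from hu), zero_mul, mul_zero]
      · intro u hu
        have e1 : β t u ^ j.val = β u v := by
          rw [h.β_comm, ht, h.β_nsmul_right hu, ← pow_mul]
          conv_rhs => rw [← pow_one (β u v)]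
          apply pow_eq_of_zmod (h.β_pow hu hv)
          push_cast
          rw [ZMod.natCast_zmod_val, ZMod.natCast_zmod_val, inv_mul_cancel₀ hj]
        rw [h.ψ_add, mul_pow, mul_pow, e1]
        ring
    have hsum : ψ t ^ j.val *
        ∑ u, (h.perp : Set D).indicator (fun u => ψ u ^ j.val) u * β u v = h.Gam j := by
      rw [Finset.mul_sum, Gam]
      simp_rw [key]
      exact Equiv.sum_comp (Equiv.addLeft t) _
    have hone : ψ v ^ (-j⁻¹).val * ψ t ^ j.val = 1 := by
      rw [ht, h.ψ_nsmul hv, ← pow_mul, ← pow_add]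
      conv_rhs => rw [← pow_zero (ψ v)]
      apply pow_eq_of_zmod (h.ψ_pow' hv)
      push_cast
      rw [ZMod.natCast_zmod_val, ZMod.natCast_zmod_val, ZMod.natCast_zmod_val]
      field_simp
      ring
    calc _ = (ψ v ^ (-j⁻¹).val * ψ t ^ j.val) *
          ∑ u, (h.perp : Set D).indicator (fun u => ψ u ^ j.val) u * β u v := by
          rw [hone, one_mul]
      _ = _ := by rw [mul_assoc, hsum, mul_comm]
  · rw [Set.indicator_of_notMem (show v ∉ (h.perp : Set D) from hv), mul_zero]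
    have : ∃ m ∈ M, β m v ≠ 1 := by
      by_contra hcon
      push Not at hcon
      exact hv hcon
    obtain ⟨m, hm, hne⟩ := this
    refine sum_eq_zero_of_shift _ m (β m v) hne fun u => ?_
    rw [ind_shift h.perp (h.le_perp hm) _ (fun u => ψ u ^ j.val), h.β_add]
    · ring
    · intro u hu
      rw [h.ψ_add, h.ψ_M m hm, hu m hm, one_mul, mul_one]

lemma Gam_eq_of_rat [Fintype D] [Fact p.Prime] (h : IsQuad β ψ M p) (r : ℚ) (h1 : h.Gam 1 = r)
    (j : ZMod p) (hj : j ≠ 0) : h.Gam j = r := by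
  classical
  have e : ∀ j : ZMod p, h.Gam j = ∑ u ∈ Finset.univ.filter (· ∈ h.perp), ψ u ^ j.val := by
    intro j
    rw [Gam, Finset.sum_filter]
    refine Finset.sum_congr rfl fun u _ => ?_
    by_cases hu : u ∈ h.perp
    · rw [Set.indicator_of_mem (show u ∈ (h.perp : Set D) from hu), if_pos hu]
    · rw [Set.indicator_of_notMem (show u ∉ (h.perp : Set D) from hu), if_neg hu]
  rw [e] at h1 ⊢
  refine galois_sum _ ψ p (fun u hu => h.ψ_pow' (Finset.mem_filter.mp hu).2) r ?_ _ ?_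
  · rw [← h1]
    refine Finset.sum_congr rfl fun u _ => ?_
    rw [ZMod.val_one, pow_one]
  · intro hd
    apply hj
    rw [← ZMod.natCast_zmod_val j]
    exact (ZMod.natCast_eq_zero_iff _ _).mpr hd

end IsQuad

end Finite

/-! ### the family -/

lemma S_mul_S_eq_neg_one : (ModularGroup.S * ModularGroup.S : SL(2, ℤ)) = -1 := by
  decide

lemma ST_cube : (ModularGroup.S * ModularGroup.T * ModularGroup.S * ModularGroup.T *
    ModularGroup.S * ModularGroup.T : SL(2, ℤ)) = -1 := by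
  decide

lemma slash_neg_one_two (f : ℍ → ℂ) : f ∣[(2 : ℤ)] (-1 : SL(2, ℤ)) = f := by
  ext z
  rw [SL_slash_apply, ModularGroup.SL_neg_smul, one_smul, ModularGroup.denom_apply]
  simp

section Family

variable {D : Type} [AddCommGroup D] [Fintype D]
  {β : D → D → ℂ} {ψ : D → ℂ} {M : AddSubgroup D} {p : ℕ} [Fact p.Prime]

theorem exists_p1Family (h : IsQuad β ψ M p) (κ : ℚ) (Θ : (D → ℂ) → ℍ → ℂ)
    (Θ_smul : ∀ (c : ℂ) (φ : D → ℂ), Θ (fun u => c * φ u) = c • Θ φ)
    (Θ_S : ∀ φ, Θ φ ∣[(2 : ℤ)] ModularGroup.S = Θ (fun v => (κ : ℂ) * ∑ u, φ u * β u v))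
    (Θ_T : ∀ φ, Θ φ ∣[(2 : ℤ)] ModularGroup.T = Θ (fun u => ψ u * φ u))
    (hne : Θ ((M : Set D).indicator fun _ => 1) ≠ 0) :
    ∃ X : Option (ZMod p) → ℍ → ℂ, P1Family p 2 X ∧
      X none = Θ ((M : Set D).indicator fun _ => 1) ∧ ∀ x, ∃ φ, X x = Θ φ := by
  set φi : D → ℂ := (M : Set D).indicator fun _ => 1 with hφi
  set cM : ℂ := ∑ u, φi u with hcM
  set C : ℂ := κ * cM with hC
  set φ : ZMod p → D → ℂ := fun j => (h.perp : Set D).indicator (fun u => ψ u ^ j.val) with hφ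
  let X : Option (ZMod p) → ℍ → ℂ := fun x => match x with
    | none => Θ φi
    | some j => C • Θ (φ j)
  have T_none : X none ∣[(2 : ℤ)] ModularGroup.T = X none := by
    change Θ φi ∣[(2 : ℤ)] ModularGroup.T = Θ φi
    rw [Θ_T]
    congr 1
    funext u
    by_cases hu : u ∈ M
    · rw [h.ψ_M u hu, one_mul]
    · rw [hφi, Set.indicator_of_notMem (show u ∉ (M : Set D) from hu), mul_zero]
  have T_some : ∀ j, X (some j) ∣[(2 : ℤ)] ModularGroup.T = X (some (j + 1)) := by
    intro j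
    change (C • Θ (φ j)) ∣[(2 : ℤ)] ModularGroup.T = C • Θ (φ (j + 1))
    rw [SL_smul_slash, Θ_T]
    congr 2
    funext u
    by_cases hu : u ∈ h.perp
    · simp only [hφ]
      rw [Set.indicator_of_mem (show u ∈ (h.perp : Set D) from hu),
        Set.indicator_of_mem (show u ∈ (h.perp : Set D) from hu), ← pow_succ']
      apply pow_eq_of_zmod (h.ψ_pow' hu)
      push_cast
      rw [ZMod.natCast_zmod_val, ZMod.natCast_zmod_val]
    · simp only [hφ]
      rw [Set.indicator_of_notMem (show u ∉ (h.perp : Set D) from hu),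
        Set.indicator_of_notMem (show u ∉ (h.perp : Set D) from hu), mul_zero]
  have S_none : X none ∣[(2 : ℤ)] ModularGroup.S = X (some 0) := by
    change Θ φi ∣[(2 : ℤ)] ModularGroup.S = C • Θ (φ 0)
    rw [Θ_S, ← Θ_smul]
    congr 1
    funext v
    rw [hφi, h.sum_M v, hC, hcM, mul_assoc]
    congr 2
    simp [hφ]
  have S_zero : X (some 0) ∣[(2 : ℤ)] ModularGroup.S = X none := by
    rw [← S_none, ← SlashAction.slash_mul, S_mul_S_eq_neg_one, slash_neg_one_two]
  have S_gen : ∀ j, j ≠ 0 → X (some j) ∣[(2 : ℤ)] ModularGroup.S =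
      ((κ : ℂ) * h.Gam j) • X (some (-j⁻¹)) := by
    intro j hj
    change (C • Θ (φ j)) ∣[(2 : ℤ)] ModularGroup.S = ((κ : ℂ) * h.Gam j) • (C • Θ (φ (-j⁻¹)))
    have e : (fun v => (κ : ℂ) * ∑ u, φ j u * β u v) =
        fun v => ((κ : ℂ) * h.Gam j) * φ (-j⁻¹) v := by
      funext v
      simp only [hφ]
      rw [h.sum_perp j hj v, mul_assoc]
    rw [SL_smul_slash, Θ_S, e, Θ_smul, smul_comm]
  have hc1 : (κ : ℂ) * h.Gam 1 = 1 := by
    have e1 : X none ∣[(2 : ℤ)] (ModularGroup.S * ModularGroup.T * ModularGroup.S *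
        ModularGroup.T * ModularGroup.S * ModularGroup.T) = ((κ : ℂ) * h.Gam 1) • X none := by
      simp only [SlashAction.slash_mul]
      rw [S_none, T_some, zero_add, S_gen 1 one_ne_zero, SL_smul_slash, T_some, inv_one,
        neg_add_cancel, SL_smul_slash, S_zero, SL_smul_slash, T_none]
    rw [ST_cube, slash_neg_one_two] at e1
    by_contra hcon
    apply hne
    have e2 : ((κ : ℂ) * h.Gam 1 - 1) • X none = 0 := by
      rw [sub_smul, one_smul, ← e1, sub_self]
    exact (smul_eq_zero.mp e2).resolve_left (sub_ne_zero.mpr hcon)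
  have hκ : (κ : ℂ) ≠ 0 := by
    intro h0
    rw [h0, zero_mul] at hc1
    exact zero_ne_one hc1
  have hG1 : h.Gam 1 = ((κ⁻¹ : ℚ) : ℂ) := by
    push_cast
    field_simp
    linear_combination hc1
  have S_some : ∀ j, j ≠ 0 → X (some j) ∣[(2 : ℤ)] ModularGroup.S = X (some (-j⁻¹)) := by
    intro j hj
    rw [S_gen j hj, h.Gam_eq_of_rat _ hG1 j hj]
    push_cast
    rw [mul_inv_cancel₀ hκ, one_smul]
  refine ⟨X, P1Family.mk' T_none T_some S_none S_zero S_some, rfl, ?_⟩
  rintro (_ | j)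
  · exact ⟨φi, rfl⟩
  · exact ⟨fun u => C * φ j u, (Θ_smul _ _).symm⟩

end Family

end Fermat.Agent.S16.Theta.Milgram
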